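import Mathlib

/-!
# Counting functions with vanishing orbit sums for permutations of order two and three

`Asub σ A` : functions `f : X → A` with `f x + f (σ x) = 0` vanishing on the fixed points of `σ`.
`Bsub τ A` : functions `g : X → A` with `g x + g (τ x) + g (τ (τ x)) = 0` vanishing on the
fixed points of `τ`.  For `σ` of order two and `τ` of order three we bound their cardinalities.
-/

namespace Fermat.Agent.S16.Lower.PermCount

variable {X : Type*} (σ τ : Equiv.Perm X) (A : Type*) [AddCommGroup A]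

/-- Functions anti-invariant under `σ` and vanishing on the fixed points of `σ`. -/
def Asub : AddSubgroup (X → A) where
  carrier := {f | (∀ x, f x + f (σ x) = 0) ∧ ∀ x, σ x = x → f x = 0}
  zero_mem' := by
    refine ⟨fun x => ?_, fun x _ => ?_⟩ <;> simp
  add_mem' := by
    rintro f g ⟨hf1, hf2⟩ ⟨hg1, hg2⟩
    refine ⟨fun x => ?_, fun x hx => ?_⟩
    · have h1 := hf1 x
      have h2 := hg1 x
      simp only [Pi.add_apply]
      calc f x + g x + (f (σ x) + g (σ x)) = (f x + f (σ x)) + (g x + g (σ x)) := by abel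
        _ = 0 := by rw [h1, h2, add_zero]
    · simp only [Pi.add_apply, hf2 x hx, hg2 x hx, add_zero]
  neg_mem' := by
    rintro f ⟨hf1, hf2⟩
    refine ⟨fun x => ?_, fun x hx => ?_⟩
    · have h1 := hf1 x
      simp only [Pi.neg_apply]
      calc -f x + -f (σ x) = -(f x + f (σ x)) := by abel
        _ = 0 := by rw [h1, neg_zero]
    · simp only [Pi.neg_apply, hf2 x hx, neg_zero]

/-- Functions whose sums over the `τ`-triples vanish and which vanish on the fixed points
of `τ`. -/
def Bsub : AddSubgroup (X → A) where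
  carrier := {g | (∀ x, g x + g (τ x) + g (τ (τ x)) = 0) ∧ ∀ x, τ x = x → g x = 0}
  zero_mem' := by
    refine ⟨fun x => ?_, fun x _ => ?_⟩ <;> simp
  add_mem' := by
    rintro f g ⟨hf1, hf2⟩ ⟨hg1, hg2⟩
    refine ⟨fun x => ?_, fun x hx => ?_⟩
    · have h1 := hf1 x
      have h2 := hg1 x
      simp only [Pi.add_apply]
      calc f x + g x + (f (τ x) + g (τ x)) + (f (τ (τ x)) + g (τ (τ x)))
          = (f x + f (τ x) + f (τ (τ x))) + (g x + g (τ x) + g (τ (τ x))) := by abel
        _ = 0 := by rw [h1, h2, add_zero]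
    · simp only [Pi.add_apply, hf2 x hx, hg2 x hx, add_zero]
  neg_mem' := by
    rintro f ⟨hf1, hf2⟩
    refine ⟨fun x => ?_, fun x hx => ?_⟩
    · have h1 := hf1 x
      simp only [Pi.neg_apply]
      calc -f x + -f (τ x) + -f (τ (τ x)) = -(f x + f (τ x) + f (τ (τ x))) := by abel
        _ = 0 := by rw [h1, neg_zero]
    · simp only [Pi.neg_apply, hf2 x hx, neg_zero]

variable {σ τ A}

@[simp] theorem mem_Asub {f : X → A} :
    f ∈ Asub σ A ↔ (∀ x, f x + f (σ x) = 0) ∧ ∀ x, σ x = x → f x = 0 := Iff.rfl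

@[simp] theorem mem_Bsub {g : X → A} :
    g ∈ Bsub τ A ↔ (∀ x, g x + g (τ x) + g (τ (τ x)) = 0) ∧ ∀ x, τ x = x → g x = 0 := Iff.rfl

/-! ### The involution case -/

/-- A member of `Asub σ A` vanishing at all `x` with `e x < e (σ x)` (for an injective `e`)
vanishes identically. -/
theorem Asub_eq_zero_of_lt {e : X → ℕ} (he : Function.Injective e)
    (hσ : ∀ x, σ (σ x) = x) {f : X → A} (hf : f ∈ Asub σ A)
    (h0 : ∀ x, e x < e (σ x) → f x = 0) : f = 0 := by
  obtain ⟨hf1, hf2⟩ := hf
  funext y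
  rcases lt_trichotomy (e y) (e (σ y)) with h | h | h
  · exact h0 y h
  · exact hf2 y (he h).symm
  · have h1 : f (σ y) = 0 := h0 (σ y) (by rw [hσ]; exact h)
    have h2 := hf1 y
    rw [h1, add_zero] at h2
    exact h2

/-- A member of `Asub σ A` vanishing at all `x` with `e (σ x) < e x` (for an injective `e`)
vanishes identically. -/
theorem Asub_eq_zero_of_gt {e : X → ℕ} (he : Function.Injective e)
    (hσ : ∀ x, σ (σ x) = x) {f : X → A} (hf : f ∈ Asub σ A)
    (h0 : ∀ x, e (σ x) < e x → f x = 0) : f = 0 := by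
  obtain ⟨hf1, hf2⟩ := hf
  funext y
  rcases lt_trichotomy (e y) (e (σ y)) with h | h | h
  · have h1 : f (σ y) = 0 := h0 (σ y) (by rw [hσ]; exact h)
    have h2 := hf1 y
    rw [h1, add_zero] at h2
    exact h2
  · exact hf2 y (he h).symm
  · exact h0 y h

open Classical in
/-- The packing map for the involution case. -/
noncomputable def packA (σ : Equiv.Perm X) (A : Type*) [AddCommGroup A] (e : X → ℕ) :
    (Asub σ A × Asub σ A) × ({x // σ x = x} → A) → (X → A) :=
  fun p x =>
    if h : σ x = x then p.2 ⟨x, h⟩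
    else if e x < e (σ x) then (p.1.1 : X → A) x else (p.1.2 : X → A) x

theorem packA_injective {e : X → ℕ} (he : Function.Injective e) (hσ : ∀ x, σ (σ x) = x) :
    Function.Injective (packA σ A e) := by
  rintro ⟨⟨f, g⟩, h⟩ ⟨⟨f', g'⟩, h'⟩ hp
  have hp' : ∀ x, packA σ A e ((f, g), h) x = packA σ A e ((f', g'), h') x :=
    fun x => congrFun hp x
  have hh : h = h' := by
    funext ⟨x, hx⟩
    have := hp' x
    simpa [packA, hx] using this
  have hf : f = f' := by
    have hd : ((f - f' : Asub σ A) : X → A) = 0 := by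
      refine Asub_eq_zero_of_lt he hσ (f - f').2 (fun x hx => ?_)
      have hne : σ x ≠ x := by
        intro h; rw [h] at hx; exact lt_irrefl _ hx
      have := hp' x
      simp only [packA, hne, hx, dif_neg, if_true, not_false_iff] at this
      simp only [AddSubgroup.coe_sub, Pi.sub_apply, this, sub_self]
    have : f - f' = 0 := Subtype.ext hd
    exact sub_eq_zero.mp this
  have hg : g = g' := by
    have hd : ((g - g' : Asub σ A) : X → A) = 0 := by
      refine Asub_eq_zero_of_gt he hσ (g - g').2 (fun x hx => ?_)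
      have hne : σ x ≠ x := by
        intro h; rw [h] at hx; exact lt_irrefl _ hx
      have hnlt : ¬ e x < e (σ x) := not_lt.mpr hx.le
      have := hp' x
      simp only [packA, hne, hnlt, dif_neg, if_false, not_false_iff] at this
      simp only [AddSubgroup.coe_sub, Pi.sub_apply, this, sub_self]
    have : g - g' = 0 := Subtype.ext hd
    exact sub_eq_zero.mp this
  rw [hh, hf, hg]

/-- **Counting for an involution**: `|Asub σ A|² · |A|^{#Fix σ} ≤ |A|^{#X}`. -/
theorem card_Asub_le [Finite X] [Finite A] (hσ : ∀ x, σ (σ x) = x) :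
    Nat.card (Asub σ A) ^ 2 * Nat.card A ^ Nat.card {x // σ x = x} ≤ Nat.card A ^ Nat.card X := by
  obtain ⟨e, he⟩ := Countable.exists_injective_nat X
  have h := Nat.card_le_card_of_injective (packA σ A e) (packA_injective he hσ)
  rw [Nat.card_prod, Nat.card_prod, Nat.card_fun, Nat.card_fun] at h
  calc Nat.card (Asub σ A) ^ 2 * Nat.card A ^ Nat.card {x // σ x = x}
      = Nat.card (Asub σ A) * Nat.card (Asub σ A) * Nat.card A ^ Nat.card {x // σ x = x} := by
        rw [sq]
    _ ≤ _ := h

/-! ### The order three case -/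

/-- If `τ` has order dividing three and `x` is not fixed then `τ (τ x) ≠ x`. -/
theorem tau_tau_ne (hτ : ∀ x, τ (τ (τ x)) = x) {x : X} (hx : τ x ≠ x) : τ (τ x) ≠ x := by
  intro h
  apply hx
  have := hτ x
  rw [h] at this
  exact this

/-- The colour of a point: `0` if it is the `e`-minimum of its triple, `1` if it is the image of
the minimum, `2` otherwise. -/
noncomputable def colour (τ : Equiv.Perm X) (e : X → ℕ) (x : X) : Fin 3 :=
  open Classical in
  if e x < e (τ x) ∧ e x < e (τ (τ x)) then 0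
  else if e (τ (τ x)) < e x ∧ e (τ (τ x)) < e (τ x) then 1
  else 2

/-- Every colour occurs in every triple of non-fixed points. -/
theorem exists_colour {e : X → ℕ} (he : Function.Injective e) (hτ : ∀ x, τ (τ (τ x)) = x)
    {y : X} (hy : τ y ≠ y) (i : Fin 3) :
    ∃ x, colour τ e x = i ∧ (y = x ∨ y = τ x ∨ y = τ (τ x)) := by
  have h1 : e (τ y) ≠ e y := fun h => hy (he h)
  have h2 : e (τ (τ y)) ≠ e y := fun h => tau_tau_ne hτ hy (he h)
  have h3 : e (τ (τ y)) ≠ e (τ y) := fun h => hy (τ.injective (he h))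
  have hy3 := hτ y
  have hy4 : τ (τ (τ (τ y))) = τ y := hτ (τ y)
  -- colours of the three points
  have c0 : ∀ x, (e x < e (τ x) ∧ e x < e (τ (τ x))) → colour τ e x = 0 := by
    intro x hx
    simp only [colour, hx, and_self, if_true]
  have c1 : ∀ x, ¬ (e x < e (τ x) ∧ e x < e (τ (τ x))) →
      (e (τ (τ x)) < e x ∧ e (τ (τ x)) < e (τ x)) → colour τ e x = 1 := by
    intro x hx hx'
    simp only [colour, hx, hx', and_self, if_true, if_false]
  have c2 : ∀ x, ¬ (e x < e (τ x) ∧ e x < e (τ (τ x))) →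
      ¬ (e (τ (τ x)) < e x ∧ e (τ (τ x)) < e (τ x)) → colour τ e x = 2 := by
    intro x hx hx'
    simp only [colour, hx, hx', if_false]
  -- which of the three is minimal
  have hmin : (e y < e (τ y) ∧ e y < e (τ (τ y))) ∨ (e (τ y) < e y ∧ e (τ y) < e (τ (τ y))) ∨
      (e (τ (τ y)) < e y ∧ e (τ (τ y)) < e (τ y)) := by omega
  -- the three points of the triple, written so that membership is immediate
  have m0 : y = y ∨ y = τ y ∨ y = τ (τ y) := Or.inl rfl
  have m1 : y = τ y ∨ y = τ (τ y) ∨ y = τ (τ (τ y)) := Or.inr (Or.inr hy3.symm)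
  have m2 : y = τ (τ y) ∨ y = τ (τ (τ y)) ∨ y = τ (τ (τ (τ y))) := Or.inr (Or.inl hy3.symm)
  rcases hmin with hm | hm | hm
  · -- y minimal: colours y ↦ 0, τ y ↦ 1, τ τ y ↦ 2
    fin_cases i
    · exact ⟨y, c0 y hm, m0⟩
    · refine ⟨τ y, c1 (τ y) ?_ ?_, m1⟩
      · rw [hy3]; omega
      · rw [hy3]; omega
    · refine ⟨τ (τ y), c2 (τ (τ y)) ?_ ?_, m2⟩
      · rw [hy3]; omega
      · rw [hy4, hy3]; omega
  · -- τ y minimal: colours τ y ↦ 0, τ τ y ↦ 1, y ↦ 2
    fin_cases i
    · refine ⟨τ y, c0 (τ y) ?_, m1⟩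
      rw [hy3]; omega
    · refine ⟨τ (τ y), c1 (τ (τ y)) ?_ ?_, m2⟩
      · rw [hy3]; omega
      · rw [hy4, hy3]; omega
    · refine ⟨y, c2 y ?_ ?_, m0⟩
      · omega
      · omega
  · -- τ τ y minimal: colours τ τ y ↦ 0, y ↦ 1, τ y ↦ 2
    fin_cases i
    · refine ⟨τ (τ y), c0 (τ (τ y)) ?_, m2⟩
      rw [hy4, hy3]; omega
    · refine ⟨y, c1 y ?_ ?_, m0⟩
      · omega
      · omega
    · refine ⟨τ y, c2 (τ y) ?_ ?_, m1⟩
      · rw [hy3]; omega
      · rw [hy3]; omega

/-- A member of `Bsub τ A` vanishing at `x` and `τ x` for all points `x` of a given colour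
vanishes identically. -/
theorem Bsub_eq_zero_of_colour {e : X → ℕ} (he : Function.Injective e)
    (hτ : ∀ x, τ (τ (τ x)) = x) {g : X → A} (hg : g ∈ Bsub τ A) (i : Fin 3)
    (h0 : ∀ x, τ x ≠ x → colour τ e x = i → g x = 0 ∧ g (τ x) = 0) : g = 0 := by
  obtain ⟨hg1, hg2⟩ := hg
  funext y
  by_cases hy : τ y = y
  · exact hg2 y hy
  · obtain ⟨x, hxi, hxy⟩ := exists_colour he hτ hy i
    have hx : τ x ≠ x := by
      intro hx
      apply hy
      rcases hxy with h | h | h
      · rw [h]; exact hx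
      · rw [h, hx]; exact hx
      · rw [h, hx, hx]; exact hx
    obtain ⟨hx0, hx1⟩ := h0 x hx hxi
    have hx2 : g (τ (τ x)) = 0 := by
      have := hg1 x
      rw [hx0, hx1, zero_add, zero_add] at this
      exact this
    rcases hxy with h | h | h
    · rw [h]; exact hx0
    · rw [h]; exact hx1
    · rw [h]; exact hx2

open Classical in
/-- The packing map for the order three case. -/
noncomputable def packB (τ : Equiv.Perm X) (A : Type*) [AddCommGroup A] (e : X → ℕ) :
    (Fin 3 → Bsub τ A) × ({x // τ x = x} → A × A) → (X → A × A) :=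
  fun p x =>
    if h : τ x = x then p.2 ⟨x, h⟩
    else ((p.1 (colour τ e x) : X → A) x, (p.1 (colour τ e x) : X → A) (τ x))

theorem packB_injective {e : X → ℕ} (he : Function.Injective e) (hτ : ∀ x, τ (τ (τ x)) = x) :
    Function.Injective (packB τ A e) := by
  rintro ⟨g, h⟩ ⟨g', h'⟩ hp
  have hp' : ∀ x, packB τ A e (g, h) x = packB τ A e (g', h') x := fun x => congrFun hp x
  have hh : h = h' := by
    funext ⟨x, hx⟩
    have := hp' x
    simpa [packB, hx] using this
  have hg : g = g' := by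
    funext i
    have hd : ((g i - g' i : Bsub τ A) : X → A) = 0 := by
      refine Bsub_eq_zero_of_colour he hτ (g i - g' i).2 i (fun x hx hxi => ?_)
      have := hp' x
      simp only [packB, hx, dif_neg, not_false_iff, hxi, Prod.mk.injEq] at this
      simp only [AddSubgroup.coe_sub, Pi.sub_apply, this.1, this.2, sub_self, and_self]
    have : g i - g' i = 0 := Subtype.ext hd
    exact sub_eq_zero.mp this
  rw [hh, hg]

/-- **Counting for a permutation of order three**:
`|Bsub τ A|³ · |A|^{2 #Fix τ} ≤ |A|^{2 #X}`. -/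
theorem card_Bsub_le [Finite X] [Finite A] (hτ : ∀ x, τ (τ (τ x)) = x) :
    Nat.card (Bsub τ A) ^ 3 * Nat.card A ^ (2 * Nat.card {x // τ x = x}) ≤
      Nat.card A ^ (2 * Nat.card X) := by
  obtain ⟨e, he⟩ := Countable.exists_injective_nat X
  have h := Nat.card_le_card_of_injective (packB τ A e) (packB_injective he hτ)
  rw [Nat.card_prod, Nat.card_fun, Nat.card_fun, Nat.card_fun, Nat.card_prod, Nat.card_fin] at h
  calc Nat.card (Bsub τ A) ^ 3 * Nat.card A ^ (2 * Nat.card {x // τ x = x})
      = Nat.card (Bsub τ A) ^ 3 * (Nat.card A * Nat.card A) ^ Nat.card {x // τ x = x} := by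
        rw [pow_mul, sq]
    _ ≤ (Nat.card A * Nat.card A) ^ Nat.card X := h
    _ = Nat.card A ^ (2 * Nat.card X) := by rw [pow_mul, sq]

end Fermat.Agent.S16.Lower.PermCount
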