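import Fermat.Agent.S16.Lower.Defs
import Fermat.Agent.S16.Lower.PermCount

/-!
# S16 (F) L1 in the shapes of `Lower/Defs.lean`

Adapter: the two counting inequalities of `Lower/PermCount.lean`, stated for the subgroups
`Lower.Asub A σ`, `Lower.Bsub A τ` of `Lower/Defs.lean` (same carriers).
-/

namespace Fermat.Agent.S16.Lower

variable {X : Type*} (A : Type*) [AddCommGroup A]

theorem Asub_eq_permCount (σ : Equiv.Perm X) : Asub A σ = PermCount.Asub σ A := rfl

theorem Bsub_eq_permCount (τ : Equiv.Perm X) : Bsub A τ = PermCount.Bsub τ A := rfl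

/-- **Counting for an involution**: `|Asub A σ|² · |A|^{#Fix σ} ≤ |A|^{#X}`. -/
theorem card_Asub_le [Finite X] [Finite A] (σ : Equiv.Perm X) (hσ : ∀ x, σ (σ x) = x) :
    Nat.card (Asub A σ) ^ 2 * Nat.card A ^ Nat.card {x // σ x = x} ≤ Nat.card A ^ Nat.card X :=
  PermCount.card_Asub_le (σ := σ) (A := A) hσ

/-- **Counting for a permutation of order three**:
`|Bsub A τ|³ · |A|^{2 #Fix τ} ≤ |A|^{2 #X}`. -/
theorem card_Bsub_le [Finite X] [Finite A] (τ : Equiv.Perm X) (hτ : ∀ x, τ (τ (τ x)) = x) :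
    Nat.card (Bsub A τ) ^ 3 * Nat.card A ^ (2 * Nat.card {x // τ x = x}) ≤
      Nat.card A ^ (2 * Nat.card X) :=
  PermCount.card_Bsub_le (τ := τ) (A := A) hτ

end Fermat.Agent.S16.Lower
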