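import Mathlib

/-!
# S16 (F), lower bound: the two "elliptic" subgroups of `X → A`

For a permutation `σ` of `X` (in the application an involution, the action of `S⁻¹` on
`SL(2,ℤ) ⧸ Γ₀(p)`) resp. `τ` (of order three, the action of `(ST)⁻¹`) and an abelian group `A`:
`Asub A σ` = functions with `f x + f (σ x) = 0` vanishing at the fixed points of `σ`;
`Bsub A τ` = functions with `g x + g (τ x) + g (τ (τ x)) = 0` vanishing at the fixed points of `τ`.
-/

set_option autoImplicit false

namespace Fermat.Agent.S16.Lower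

variable {X : Type*} (A : Type*) [AddCommGroup A]

/-- Functions anti-invariant under `σ` and vanishing at the fixed points of `σ`. -/
def Asub (σ : Equiv.Perm X) : AddSubgroup (X → A) where
  carrier := {f | (∀ x, f x + f (σ x) = 0) ∧ ∀ x, σ x = x → f x = 0}
  zero_mem' := ⟨fun _ => by simp, fun _ _ => rfl⟩
  add_mem' := by
    rintro f g ⟨hf1, hf2⟩ ⟨hg1, hg2⟩
    refine ⟨fun x => ?_, fun x hx => ?_⟩
    · have h1 := hf1 x
      have h2 := hg1 x
      simp only [Pi.add_apply]
      rw [add_add_add_comm, h1, h2, add_zero]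
    · simp only [Pi.add_apply]
      rw [hf2 x hx, hg2 x hx, add_zero]
  neg_mem' := by
    rintro f ⟨hf1, hf2⟩
    refine ⟨fun x => ?_, fun x hx => ?_⟩
    · simp only [Pi.neg_apply]
      rw [← neg_add, hf1 x, neg_zero]
    · simp only [Pi.neg_apply]
      rw [hf2 x hx, neg_zero]

/-- Functions killed by `1 + τ + τ²` and vanishing at the fixed points of `τ`. -/
def Bsub (τ : Equiv.Perm X) : AddSubgroup (X → A) where
  carrier := {g | (∀ x, g x + g (τ x) + g (τ (τ x)) = 0) ∧ ∀ x, τ x = x → g x = 0}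
  zero_mem' := ⟨fun _ => by simp, fun _ _ => rfl⟩
  add_mem' := by
    rintro f g ⟨hf1, hf2⟩ ⟨hg1, hg2⟩
    refine ⟨fun x => ?_, fun x hx => ?_⟩
    · have h1 := hf1 x
      have h2 := hg1 x
      simp only [Pi.add_apply]
      calc f x + g x + (f (τ x) + g (τ x)) + (f (τ (τ x)) + g (τ (τ x)))
          = (f x + f (τ x) + f (τ (τ x))) + (g x + g (τ x) + g (τ (τ x))) := by abel
        _ = 0 := by rw [h1, h2, add_zero]
    · simp only [Pi.add_apply]
      rw [hf2 x hx, hg2 x hx, add_zero]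
  neg_mem' := by
    rintro f ⟨hf1, hf2⟩
    refine ⟨fun x => ?_, fun x hx => ?_⟩
    · simp only [Pi.neg_apply]
      calc -f x + -f (τ x) + -f (τ (τ x)) = -(f x + f (τ x) + f (τ (τ x))) := by abel
        _ = 0 := by rw [hf1 x, neg_zero]
    · simp only [Pi.neg_apply]
      rw [hf2 x hx, neg_zero]

variable {A}

theorem mem_Asub {σ : Equiv.Perm X} {f : X → A} :
    f ∈ Asub A σ ↔ (∀ x, f x + f (σ x) = 0) ∧ ∀ x, σ x = x → f x = 0 := Iff.rfl

theorem mem_Bsub {τ : Equiv.Perm X} {g : X → A} :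
    g ∈ Bsub A τ ↔ (∀ x, g x + g (τ x) + g (τ (τ x)) = 0) ∧ ∀ x, τ x = x → g x = 0 := Iff.rfl

end Fermat.Agent.S16.Lower
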