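/-
(F) LOWER BOUND, leaf L2 (board #784, helper2's route (S)): sum-zero functions on a finite set `X`
are differences `g - f` of an "anti-invariant" function `f` for an involution `σ`
and a "trace-zero" function `g` for an order-three permutation `τ`, provided that `⟨σ, τ⟩`
acts transitively on `X` (stated as: the only non-empty subset of `X` stable under `σ` and `τ`
is everything).  Mathlib only, no finiteness of `A` needed.

The conditions are stated UNBUNDLED (`IsAnti`, `IsTri`) so that they are definitionally the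
carrier conditions of `PermCount.Asub σ A`, `PermCount.Bsub τ A` and of `Lower.Asub A σ`,
`Lower.Bsub A τ` (`Lower/Defs.lean`); the last theorem of the file,
`Fermat.Agent.S16.Lower.exists_sub_of_sum_eq_zero`, is the bundled form for `Lower/Defs.lean`.
-/
import Mathlib
import Fermat.Agent.S16.Lower.Defs

namespace Fermat.Agent.S16.Lower.SumZero

variable {X : Type*} {A : Type*} [AddCommGroup A]

/-- carrier condition of `Asub σ A`: `f x + f (σ x) = 0`, and `f = 0` on the fixed points. -/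
def IsAnti (σ : Equiv.Perm X) (f : X → A) : Prop :=
  (∀ x, f x + f (σ x) = 0) ∧ ∀ x, σ x = x → f x = 0

/-- carrier condition of `Bsub τ A`: `g x + g (τ x) + g (τ² x) = 0`, and `g = 0` on the fixed
points. -/
def IsTri (τ : Equiv.Perm X) (g : X → A) : Prop :=
  (∀ x, g x + g (τ x) + g (τ (τ x)) = 0) ∧ ∀ x, τ x = x → g x = 0

theorem isAnti_zero (σ : Equiv.Perm X) : IsAnti σ (0 : X → A) :=
  ⟨fun _ => by simp, fun _ _ => rfl⟩

theorem IsAnti.add {σ : Equiv.Perm X} {f g : X → A} (hf : IsAnti σ f) (hg : IsAnti σ g) :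
    IsAnti σ (f + g) := by
  refine ⟨fun x => ?_, fun x hx => ?_⟩
  · have h1 := hf.1 x
    have h2 := hg.1 x
    calc (f + g) x + (f + g) (σ x) = (f x + f (σ x)) + (g x + g (σ x)) := by
          simp only [Pi.add_apply]; abel
      _ = 0 := by rw [h1, h2, add_zero]
  · simp [hf.2 x hx, hg.2 x hx]

theorem IsAnti.neg {σ : Equiv.Perm X} {f : X → A} (hf : IsAnti σ f) : IsAnti σ (-f) := by
  refine ⟨fun x => ?_, fun x hx => ?_⟩
  · have h1 := hf.1 x
    calc (-f) x + (-f) (σ x) = -(f x + f (σ x)) := by simp only [Pi.neg_apply]; abel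
      _ = 0 := by rw [h1, neg_zero]
  · simp [hf.2 x hx]

theorem isTri_zero (τ : Equiv.Perm X) : IsTri τ (0 : X → A) :=
  ⟨fun _ => by simp, fun _ _ => rfl⟩

theorem IsTri.add {τ : Equiv.Perm X} {f g : X → A} (hf : IsTri τ f) (hg : IsTri τ g) :
    IsTri τ (f + g) := by
  refine ⟨fun x => ?_, fun x hx => ?_⟩
  · have h1 := hf.1 x
    have h2 := hg.1 x
    calc (f + g) x + (f + g) (τ x) + (f + g) (τ (τ x))
        = (f x + f (τ x) + f (τ (τ x))) + (g x + g (τ x) + g (τ (τ x))) := by
          simp only [Pi.add_apply]; abel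
      _ = 0 := by rw [h1, h2, add_zero]
  · simp [hf.2 x hx, hg.2 x hx]

theorem IsTri.neg {τ : Equiv.Perm X} {f : X → A} (hf : IsTri τ f) : IsTri τ (-f) := by
  refine ⟨fun x => ?_, fun x hx => ?_⟩
  · have h1 := hf.1 x
    calc (-f) x + (-f) (τ x) + (-f) (τ (τ x)) = -(f x + f (τ x) + f (τ (τ x))) := by
          simp only [Pi.neg_apply]; abel
      _ = 0 := by rw [h1, neg_zero]
  · simp [hf.2 x hx]

/-- the subgroup of anti-invariant functions (same carrier as `PermCount.Asub`). -/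
def antiSub (σ : Equiv.Perm X) (A : Type*) [AddCommGroup A] : AddSubgroup (X → A) where
  carrier := {f | IsAnti σ f}
  zero_mem' := isAnti_zero σ
  add_mem' := fun hf hg => hf.add hg
  neg_mem' := fun hf => hf.neg

/-- the subgroup of trace-zero functions (same carrier as `PermCount.Bsub`). -/
def triSub (τ : Equiv.Perm X) (A : Type*) [AddCommGroup A] : AddSubgroup (X → A) where
  carrier := {f | IsTri τ f}
  zero_mem' := isTri_zero τ
  add_mem' := fun hf hg => hf.add hg
  neg_mem' := fun hf => hf.neg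

theorem mem_antiSub {σ : Equiv.Perm X} {f : X → A} : f ∈ antiSub σ A ↔ IsAnti σ f := Iff.rfl

theorem mem_triSub {τ : Equiv.Perm X} {f : X → A} : f ∈ triSub τ A ↔ IsTri τ f := Iff.rfl

section single

variable [DecidableEq X]

/-- `δ_x a - δ_{σ x} a` is anti-invariant when `σ` is an involution. -/
theorem isAnti_single_sub (σ : Equiv.Perm X) (hσ : ∀ x, σ (σ x) = x) (x : X) (a : A) :
    IsAnti σ (Pi.single x a - Pi.single (σ x) a : X → A) := by
  have e1 : ∀ y, σ y = σ x ↔ y = x := fun y => σ.injective.eq_iff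
  have e2 : ∀ y, σ y = x ↔ y = σ x := fun y =>
    ⟨fun h => by rw [← h, hσ], fun h => by rw [h, hσ]⟩
  refine ⟨fun y => ?_, fun y hy => ?_⟩
  · simp only [Pi.sub_apply, Pi.single_apply, e1, e2]
    abel
  · have e3 : y = x ↔ y = σ x :=
      ⟨fun h => by rw [← h, hy], fun h => by rw [← hy, h, hσ]⟩
    simp only [Pi.sub_apply, Pi.single_apply, e3, sub_self]

/-- `δ_x a - δ_{τ x} a` is trace-zero when `τ` has order dividing three. -/
theorem isTri_single_sub (τ : Equiv.Perm X) (hτ : ∀ x, τ (τ (τ x)) = x) (x : X) (a : A) :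
    IsTri τ (Pi.single x a - Pi.single (τ x) a : X → A) := by
  have e1 : ∀ y, τ y = τ x ↔ y = x := fun y => τ.injective.eq_iff
  have e3 : ∀ y, τ (τ y) = x ↔ y = τ x := fun y =>
    ⟨fun h => by rw [← h, hτ], fun h => by rw [h, hτ]⟩
  refine ⟨fun y => ?_, fun y hy => ?_⟩
  · simp only [Pi.sub_apply, Pi.single_apply, e1, e3]
    abel
  · have e4 : y = x ↔ y = τ x := by
      constructor
      · intro h; rw [← h, hy]
      · intro h
        have h2 : τ x = x := by
          have := hy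
          rw [h] at this
          exact τ.injective this
        rw [h, h2]
    simp only [Pi.sub_apply, Pi.single_apply, e4, sub_self]

end single

/-- **L2.** If the only non-empty `σ`- and `τ`-stable subset of the finite set `X` is `X` itself,
`σ² = 1`, `τ³ = 1`, then every `F : X → A` of total sum zero lies in `antiSub σ A ⊔ triSub τ A`. -/
theorem mem_sup_of_sum_eq_zero [Fintype X] (σ τ : Equiv.Perm X)
    (hσ : ∀ x, σ (σ x) = x) (hτ : ∀ x, τ (τ (τ x)) = x)
    (hconn : ∀ S : Set X, S.Nonempty → (∀ x ∈ S, σ x ∈ S ∧ τ x ∈ S) → S = Set.univ)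
    (F : X → A) (hF : ∑ x, F x = 0) : F ∈ antiSub σ A ⊔ triSub τ A := by
  classical
  rcases isEmpty_or_nonempty X with hX | ⟨⟨x0⟩⟩
  · have : F = 0 := Subsingleton.elim _ _
    rw [this]; exact zero_mem _
  set W : AddSubgroup (X → A) := antiSub σ A ⊔ triSub τ A with hW
  have hAW : ∀ y a, (Pi.single y a - Pi.single (σ y) a : X → A) ∈ W := fun y a =>
    AddSubgroup.mem_sup_left (isAnti_single_sub σ hσ y a)
  have hBW : ∀ y a, (Pi.single y a - Pi.single (τ y) a : X → A) ∈ W := fun y a =>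
    AddSubgroup.mem_sup_right (isTri_single_sub τ hτ y a)
  -- the set of points reachable from `x0`
  let S : Set X := {y | ∀ a : A, (Pi.single x0 a - Pi.single y a : X → A) ∈ W}
  have hS : S = Set.univ := by
    refine hconn S ⟨x0, fun a => ?_⟩ (fun y hy => ⟨fun a => ?_, fun a => ?_⟩)
    · rw [sub_self]; exact zero_mem _
    · have := add_mem (hy a) (hAW y a)
      rwa [sub_add_sub_cancel] at this
    · have := add_mem (hy a) (hBW y a)
      rwa [sub_add_sub_cancel] at this
  have hall : ∀ y a, (Pi.single x0 a - Pi.single y a : X → A) ∈ W := fun y a => by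
    have : y ∈ S := by rw [hS]; trivial
    exact this a
  -- decompose `F`
  have h1 : F = ∑ x, (Pi.single x (F x) : X → A) := (Finset.univ_sum_single F).symm
  have h2 : ∑ x, (Pi.single x0 (F x) : X → A) = 0 := by
    have : (Pi.single x0 (∑ x, F x) : X → A) = ∑ x, (Pi.single x0 (F x) : X → A) :=
      map_sum (AddMonoidHom.single (fun _ : X => A) x0) F Finset.univ
    rw [← this, hF, Pi.single_zero]
  have h3 : F = -∑ x, ((Pi.single x0 (F x) : X → A) - Pi.single x (F x)) := by
    rw [Finset.sum_sub_distrib, h2, zero_sub, neg_neg]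
    exact h1
  rw [h3]
  exact neg_mem (sum_mem fun x _ => hall x (F x))

/-- **L2, unbundled form** (the shape asked for in board #784, with the carrier conditions of
`Asub`/`Bsub` spelled out): `F = g - f`. -/
theorem exists_sub_of_sum_eq_zero [Fintype X] (σ τ : Equiv.Perm X)
    (hσ : ∀ x, σ (σ x) = x) (hτ : ∀ x, τ (τ (τ x)) = x)
    (hconn : ∀ S : Set X, S.Nonempty → (∀ x ∈ S, σ x ∈ S ∧ τ x ∈ S) → S = Set.univ)
    (F : X → A) (hF : ∑ x, F x = 0) :
    ∃ f : X → A, ((∀ x, f x + f (σ x) = 0) ∧ ∀ x, σ x = x → f x = 0) ∧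
      ∃ g : X → A, ((∀ x, g x + g (τ x) + g (τ (τ x)) = 0) ∧ ∀ x, τ x = x → g x = 0) ∧
        F = g - f := by
  obtain ⟨f', hf', g, hg, hfg⟩ :=
    AddSubgroup.mem_sup.1 (mem_sup_of_sum_eq_zero σ τ hσ hτ hconn F hF)
  refine ⟨-f', (mem_antiSub.1 hf').neg, g, mem_triSub.1 hg, ?_⟩
  rw [sub_neg_eq_add, ← hfg, add_comm]

end Fermat.Agent.S16.Lower.SumZero

namespace Fermat.Agent.S16.Lower

/-- **L2, bundled form** for the subgroups `Asub A σ`, `Bsub A τ` of `Lower/Defs.lean`
(exact shape of board #793). -/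
theorem exists_sub_of_sum_eq_zero {X : Type*} (A : Type*) [AddCommGroup A] [Fintype X]
    (σ τ : Equiv.Perm X)
    (hσ : ∀ x, σ (σ x) = x) (hτ : ∀ x, τ (τ (τ x)) = x)
    (hconn : ∀ S : Set X, S.Nonempty → (∀ x ∈ S, σ x ∈ S ∧ τ x ∈ S) → S = Set.univ)
    (F : X → A) (hF : ∑ x, F x = 0) :
    ∃ f ∈ Asub A σ, ∃ g ∈ Bsub A τ, F = g - f := by
  obtain ⟨f, hf, g, hg, h⟩ := SumZero.exists_sub_of_sum_eq_zero σ τ hσ hτ hconn F hF
  exact ⟨f, hf, g, hg, h⟩

/-- every sum-zero function lies in `Asub A σ ⊔ Bsub A τ`. -/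
theorem mem_Asub_sup_Bsub_of_sum_eq_zero {X : Type*} (A : Type*) [AddCommGroup A] [Fintype X]
    (σ τ : Equiv.Perm X)
    (hσ : ∀ x, σ (σ x) = x) (hτ : ∀ x, τ (τ (τ x)) = x)
    (hconn : ∀ S : Set X, S.Nonempty → (∀ x ∈ S, σ x ∈ S ∧ τ x ∈ S) → S = Set.univ)
    (F : X → A) (hF : ∑ x, F x = 0) : F ∈ Asub A σ ⊔ Bsub A τ := by
  obtain ⟨f, hf, g, hg, h⟩ := exists_sub_of_sum_eq_zero A σ τ hσ hτ hconn F hF
  rw [h, sub_eq_add_neg]
  exact add_mem (AddSubgroup.mem_sup_right hg) (AddSubgroup.mem_sup_left (neg_mem hf))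

end Fermat.Agent.S16.Lower
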