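import Fermat.Agent.S16.Lower.Count
import Fermat.Agent.S16.Lower.PermCountDefs
import Fermat.Agent.S16.Lower.SumZero
import Fermat.Agent.S21.ParHomBound_h18
import Fermat.Agent.S20

/-!
# S16 (F), lower bound: the count for `Γ₀(N)`

The unconditional counting inequality (`Count.card_hom_bound_of` + L1 + L2) and its instance for
`Γ₀(N) ≤ SL(2,ℤ)`: a subgroup `H` of `Hom(Γ₀(N), A)` (`A` a finite abelian group) all of whose
elements kill the elements of trace `±2` and the elements of finite order has at most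
`|A|^(2g)` elements, `g = dim S₂(Γ₀(N))`.
-/

set_option autoImplicit false
set_option linter.unusedSectionVars false

namespace Fermat.Agent.S16.Lower.CountGamma0

open Fermat.Agent.S16.Lower Fermat.Agent.S16.Lower.Count

noncomputable section

section generic

variable {G : Type*} [Group G] (Γ : Subgroup G) [Fintype (G ⧸ Γ)] [DecidableEq (G ⧸ Γ)]
variable (A : Type*) [AddCommGroup A] [Finite A]

/-- **The counting inequality** (unconditional generic form). -/
theorem card_hom_bound (z s u : G) (hzΓ : z ∈ Γ) (hzc : ∀ g, g * z = z * g)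
    (hs : s * s = z) (hu : u * u * u = z)
    (hgen : Subgroup.closure ({s, u} : Set G) = ⊤)
    (H : AddSubgroup (Additive Γ →+ A))
    (hpar : ∀ ψ ∈ H, ∀ (m : ℕ) (g : G) (h : g⁻¹ * ((s⁻¹ * u) ^ m * g) ∈ Γ),
      ψ (Additive.ofMul ⟨_, h⟩) = 0)
    (hell : ∀ ψ ∈ H, ∀ γ : Γ, ((γ : G) * γ = z ∨ (γ : G) * γ * γ = z ∨ (γ : G) = z) →
      ψ (Additive.ofMul γ) = 0) :
    Nat.card H ^ 6 * Nat.card A ^ (3 * Nat.card {x : G ⧸ Γ // permInv Γ s x = x} +
        4 * Nat.card {x : G ⧸ Γ // permInv Γ u x = x} + 6 * Nat.card (Orb Γ (s⁻¹ * u))) ≤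
      Nat.card A ^ (Nat.card (G ⧸ Γ) + 12) := by
  have hzfix : ∀ x : G ⧸ Γ, z⁻¹ • x = x := fun x => by
    rw [inv_smul_eq_iff, central_smul' hzΓ hzc]
  have hσ : ∀ x : G ⧸ Γ, permInv Γ s (permInv Γ s x) = x := by
    intro x
    simp only [MulAction.toPerm_apply]
    rw [← mul_smul, ← mul_inv_rev, hs, hzfix]
  have hτ : ∀ x : G ⧸ Γ, permInv Γ u (permInv Γ u (permInv Γ u x)) = x := by
    intro x
    simp only [MulAction.toPerm_apply]
    rw [← mul_smul, ← mul_smul, ← mul_inv_rev, ← mul_inv_rev, ← mul_assoc, hu, hzfix]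
  have hconn : ∀ S : Set (G ⧸ Γ), S.Nonempty →
      (∀ x ∈ S, permInv Γ s x ∈ S ∧ permInv Γ u x ∈ S) → S = Set.univ := by
    intro S hne hS
    have hall : ∀ g : G, ∀ x ∈ S, g • x ∈ S ∧ g⁻¹ • x ∈ S := by
      intro g
      have hg : g ∈ Subgroup.closure ({s, u} : Set G) := by rw [hgen]; trivial
      induction hg using Subgroup.closure_induction with
      | mem g hg =>
        intro x hx
        rcases hg with rfl | hg
        · refine ⟨?_, (hS x hx).1⟩
          have : g • x = permInv Γ g x := by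
            simp only [MulAction.toPerm_apply]
            have h1 : g = g⁻¹ * z := by rw [← hs, ← mul_assoc, inv_mul_cancel, one_mul]
            conv_lhs => rw [h1, mul_smul, central_smul' hzΓ hzc]
          rw [this]
          exact (hS x hx).1
        · rw [Set.mem_singleton_iff] at hg
          subst hg
          refine ⟨?_, (hS x hx).2⟩
          have : g • x = permInv Γ g (permInv Γ g x) := by
            simp only [MulAction.toPerm_apply]
            have h1 : g = g⁻¹ * (g⁻¹ * z) := by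
              rw [← hu]; group
            conv_lhs => rw [h1, mul_smul, mul_smul, central_smul' hzΓ hzc]
          rw [this]
          exact (hS _ (hS x hx).2).2
      | one => intro x hx; simpa using hx
      | mul a b _ _ ha hb =>
        intro x hx
        refine ⟨?_, ?_⟩
        · rw [mul_smul]; exact (ha _ (hb x hx).1).1
        · rw [mul_inv_rev, mul_smul]; exact (hb _ (ha x hx).2).2
      | inv a _ ha =>
        intro x hx
        rw [inv_inv]
        exact ⟨(ha x hx).2, (ha x hx).1⟩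
    obtain ⟨x0, hx0⟩ := hne
    rw [Set.eq_univ_iff_forall]
    intro y
    obtain ⟨g, hg⟩ := MulAction.exists_smul_eq G x0 y
    rw [← hg]
    exact (hall g x0 hx0).1
  exact card_hom_bound_of Γ A z s u hzΓ hzc hs hu hgen H hpar hell
    (card_Asub_le A (permInv Γ s) hσ) (card_Bsub_le A (permInv Γ u) hτ)
    (exists_sub_of_sum_eq_zero A (permInv Γ s) (permInv Γ u) hσ hτ hconn)

end generic

section gamma0

open CongruenceSubgroup ModularGroup ModularCurve
open scoped MatrixGroups

variable (N : ℕ) [NeZero N] (A : Type*) [AddCommGroup A] [Finite A]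

/-- **The count for `Γ₀(N)`**: homomorphisms to a finite abelian group killing the elements of
trace `±2` and the elements of finite order. -/
theorem card_le_of_par_ell (H : AddSubgroup (Additive ↥(Gamma0 N) →+ A))
    (hpar : ∀ ψ ∈ H, ∀ γ : ↥(Gamma0 N),
      ((γ : SL(2, ℤ)) : Matrix (Fin 2) (Fin 2) ℤ).trace ^ 2 = 4 → ψ (Additive.ofMul γ) = 0)
    (hell : ∀ ψ ∈ H, ∀ γ : ↥(Gamma0 N), γ ^ 12 = 1 → ψ (Additive.ofMul γ) = 0) :
    Nat.card H ≤ Nat.card A ^ (2 * Module.finrank ℂ (CuspForm (Gamma0 N) 2)) := by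
  classical
  have : (Gamma0 N).FiniteIndex := inferInstance
  have : Finite (SL(2, ℤ) ⧸ Gamma0 N) := Subgroup.finite_quotient_of_finiteIndex
  have : Fintype (SL(2, ℤ) ⧸ Gamma0 N) := Fintype.ofFinite _
  have key := card_hom_bound (Gamma0 N) A (-1) S (S * T) (Fermat.Agent.S21.neg_one_mem_Gamma0 N)
    (fun g => by rw [mul_neg, neg_mul, mul_one, one_mul])
    Fermat.Agent.S21.sl2_S_mul_S Fermat.Agent.S21.sl2_ST_cube Fermat.Agent.S21.sl2_closure_S_ST H
    (by
      intro ψ hψ m g h
      apply hpar ψ hψ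
      have := Fermat.Agent.S21.PHB18.trace_conj_T_pow g m
      rw [← Fermat.Agent.S21.PHB18.s_inv_mul_st] at this
      show ((g⁻¹ * ((S⁻¹ * (S * T)) ^ m * g) : SL(2, ℤ)) : Matrix (Fin 2) (Fin 2) ℤ).trace ^ 2 = 4
      rw [this]; norm_num)
    (by
      intro ψ hψ γ hγ
      apply hell ψ hψ
      apply Subtype.ext
      rw [Subgroup.coe_pow, Subgroup.coe_one]
      have hneg : ((-1 : SL(2, ℤ)) ^ 2) = 1 := by rw [neg_one_sq]
      rcases hγ with h | h | h
      · calc (γ : SL(2, ℤ)) ^ 12 = (((γ : SL(2, ℤ)) * γ) ^ 2) ^ 3 := by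
              rw [← pow_two, ← pow_mul, ← pow_mul]
          _ = 1 := by rw [h, hneg, one_pow]
      · have h3 : (γ : SL(2, ℤ)) * γ * γ = (γ : SL(2, ℤ)) ^ 3 := by
          rw [pow_succ, pow_two]
        calc (γ : SL(2, ℤ)) ^ 12 = (((γ : SL(2, ℤ)) * γ * γ) ^ 2) ^ 2 := by
              rw [h3, ← pow_mul, ← pow_mul]
          _ = 1 := by rw [h, hneg, one_pow]
      · calc (γ : SL(2, ℤ)) ^ 12 = ((γ : SL(2, ℤ)) ^ 2) ^ 6 := by rw [← pow_mul]
          _ = 1 := by rw [h, hneg, one_pow])
  rw [Fermat.Agent.S21.PHB18.s_inv_mul_st] at key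
  -- translate the counts
  have e1 : Nat.card {x : SL(2, ℤ) ⧸ Gamma0 N // permInv (Gamma0 N) S x = x} = nuTwo N := by
    rw [← Fermat.Agent.S20.card_fixedBy_S N]
    exact Nat.card_congr (Equiv.subtypeEquivRight fun x => by
      simp only [MulAction.toPerm_apply, MulAction.mem_fixedBy]
      rw [inv_smul_eq_iff, eq_comm])
  have e2 : Nat.card {x : SL(2, ℤ) ⧸ Gamma0 N // permInv (Gamma0 N) (S * T) x = x} =
      nuThree N := by
    rw [← Fermat.Agent.S20.card_fixedBy_ST N]
    exact Nat.card_congr (Equiv.subtypeEquivRight fun x => by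
      simp only [MulAction.toPerm_apply, MulAction.mem_fixedBy]
      rw [inv_smul_eq_iff, eq_comm])
  have e3 : Nat.card (Orb (Gamma0 N) T) = cuspCount N := Fermat.Agent.S20.card_orbits_T N
  have e4 : Nat.card (SL(2, ℤ) ⧸ Gamma0 N) = dedekindPsi N := Fermat.Agent.S20.card_quotient_Gamma0 N
  rw [e1, e2, e3, e4] at key
  -- the genus formula
  have hg := Fermat.Agent.S20.result N
  rw [genusFormula] at hg
  set g := Module.finrank ℂ (CuspForm (Gamma0 N) 2) with hgdef
  have hnat : 12 * g + 3 * nuTwo N + 4 * nuThree N + 6 * cuspCount N = dedekindPsi N + 12 := by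
    have : ((12 * g + 3 * nuTwo N + 4 * nuThree N + 6 * cuspCount N : ℕ) : ℚ) =
        ((dedekindPsi N + 12 : ℕ) : ℚ) := by
      push_cast
      rw [hg]
      ring
    exact_mod_cast this
  set a := Nat.card A with ha
  have hapos : 0 < a := Nat.card_pos
  have k2 : Nat.card H ^ 6 * a ^ (3 * nuTwo N + 4 * nuThree N + 6 * cuspCount N) ≤
      (a ^ (2 * g)) ^ 6 * a ^ (3 * nuTwo N + 4 * nuThree N + 6 * cuspCount N) := by
    calc Nat.card H ^ 6 * a ^ (3 * nuTwo N + 4 * nuThree N + 6 * cuspCount N)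
        ≤ a ^ (dedekindPsi N + 12) := key
      _ = (a ^ (2 * g)) ^ 6 * a ^ (3 * nuTwo N + 4 * nuThree N + 6 * cuspCount N) := by
        rw [← pow_mul, ← pow_add]
        congr 1
        omega
  have k3 : Nat.card H ^ 6 ≤ (a ^ (2 * g)) ^ 6 := Nat.le_of_mul_le_mul_right k2 (pow_pos hapos _)
  exact (Nat.pow_le_pow_iff_left (by norm_num : (6 : ℕ) ≠ 0)).mp k3

end gamma0

end

end Fermat.Agent.S16.Lower.CountGamma0
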