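import Fermat.Agent.S16.Lower.Assembly
import Fermat.Agent.S16.Lower.CountGamma0

/-!
# S16 (F): the lower bound `n ∣ |T/I|`

`hlow p : HasEisHom (tGen p) (eisensteinSystem p) (eisensteinNumerator p)`: there is a ring
homomorphism from the Hecke algebra of the integral lattice of `S₂(Γ₀(p))` onto
`ℤ/n`, `n = (p-1)/gcd(p-1,12)`, with `T_ℓ ↦ 1 + ℓ` (`ℓ ≠ p`) and `U_p ↦ 1`.

Proof (route (S)): the Shimura homomorphism `Γ₀(p) → (ℤ/p)ˣ → ℤ/n` is an Eisenstein eigenvector
for the double coset Hecke action (`HeckeLattice`), kills parabolic and finite order elements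
(`ShimuraHom`), hence factors through the period lattice by the finite-coefficient Shapiro count
(`Count`, `CountGamma0`, `LatticeRank`); the Hecke algebra acts on the period lattice
(`LatticeAction`), and the assembly is `Assembly.hlow_of_count`.
-/

set_option autoImplicit false

namespace Fermat.Agent.S16.Lower

open Fermat.Agent.S16.Alg.AbstractCard Fermat.Agent.S16.Alg.Dictionary ModularCurve

/-- **The lower bound of S16.** -/
theorem hlow (p : ℕ) [Fact p.Prime] :
    HasEisHom (tGen p) (eisensteinSystem p) (eisensteinNumerator p) := by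
  have : NeZero (eisensteinNumerator p) := ShimuraHom.neZero_eisNum p
  exact Assembly.hlow_of_count p
    (CountGamma0.card_le_of_par_ell p (ZMod (eisensteinNumerator p))
      (Assembly.parEllHoms p (ZMod (eisensteinNumerator p)))
      (fun _ hψ => hψ.1) (fun _ hψ => hψ.2))

end Fermat.Agent.S16.Lower
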