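import Mathlib

/-!
# S16, lower bound (route S), L4a: the lower-right entry of `γ ∈ Γ₀(p)` as a unit mod `p`
-/

set_option autoImplicit false

open Matrix CongruenceSubgroup
open scoped MatrixGroups

namespace Fermat.Agent.S16.Lower

variable (p : ℕ) [Fact p.Prime]

/-- `a d ≡ 1 (mod p)` for `γ = [[a, b], [c, d]] ∈ Γ₀(p)`. -/
lemma gamma0_diag_mul (γ : ↥(Gamma0 p)) :
    ((γ.1 1 1 : ℤ) : ZMod p) * ((γ.1 0 0 : ℤ) : ZMod p) = 1 := by
  have hdet := γ.1.det_coe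
  rw [Matrix.det_fin_two] at hdet
  have hc : ((γ.1 1 0 : ℤ) : ZMod p) = 0 := Gamma0_mem.mp γ.2
  have h := congrArg (fun x : ℤ => (x : ZMod p)) hdet
  simp only [Int.cast_sub, Int.cast_mul, Int.cast_one] at h
  rw [hc, mul_zero, sub_zero] at h
  rw [mul_comm]
  exact h

/-- The lower-right entry of `γ ∈ Γ₀(p)` as a unit of `ZMod p`. -/
def unitD (γ : ↥(Gamma0 p)) : (ZMod p)ˣ :=
  Units.mkOfMulEqOne ((γ.1 1 1 : ℤ) : ZMod p) ((γ.1 0 0 : ℤ) : ZMod p) (gamma0_diag_mul p γ)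

@[simp] lemma coe_unitD (γ : ↥(Gamma0 p)) :
    ((unitD p γ : (ZMod p)ˣ) : ZMod p) = ((γ.1 1 1 : ℤ) : ZMod p) := rfl

lemma coe_inv_unitD (γ : ↥(Gamma0 p)) :
    (((unitD p γ)⁻¹ : (ZMod p)ˣ) : ZMod p) = ((γ.1 0 0 : ℤ) : ZMod p) := rfl

lemma unitD_mul (γ γ' : ↥(Gamma0 p)) : unitD p (γ * γ') = unitD p γ * unitD p γ' := by
  apply Units.ext
  rw [Units.val_mul, coe_unitD, coe_unitD, coe_unitD]
  have hc : ((γ.1 1 0 : ℤ) : ZMod p) = 0 := Gamma0_mem.mp γ.2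
  have h : (γ * γ').1 1 1 = γ.1 1 0 * γ'.1 0 1 + γ.1 1 1 * γ'.1 1 1 := by
    rw [Subgroup.coe_mul, Matrix.SpecialLinearGroup.coe_mul, Matrix.mul_apply, Fin.sum_univ_two]
  rw [h]
  push_cast
  rw [hc, zero_mul, zero_add]

@[simp] lemma unitD_one : unitD p 1 = 1 := by
  apply Units.ext
  rw [coe_unitD]
  simp

/-- `unitD` as a monoid homomorphism. -/
def unitDHom : ↥(Gamma0 p) →* (ZMod p)ˣ where
  toFun := unitD p
  map_one' := unitD_one p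
  map_mul' := unitD_mul p

@[simp] lemma unitDHom_apply (γ : ↥(Gamma0 p)) : unitDHom p γ = unitD p γ := rfl

lemma unitD_inv (γ : ↥(Gamma0 p)) : unitD p γ⁻¹ = (unitD p γ)⁻¹ :=
  map_inv (unitDHom p) γ

lemma unitD_pow (γ : ↥(Gamma0 p)) (n : ℕ) : unitD p (γ ^ n) = unitD p γ ^ n :=
  map_pow (unitDHom p) γ n

lemma unitD_list_prod (l : List ↥(Gamma0 p)) :
    unitD p l.prod = (l.map (unitD p)).prod :=
  map_list_prod (unitDHom p) l

/-- The value of `unitD` only depends on the lower-right entry mod `p`. -/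
lemma unitD_eq_iff (γ γ' : ↥(Gamma0 p)) :
    unitD p γ = unitD p γ' ↔ ((γ.1 1 1 : ℤ) : ZMod p) = ((γ'.1 1 1 : ℤ) : ZMod p) := by
  rw [Units.ext_iff, coe_unitD, coe_unitD]

/-- The upper-left entry is the inverse of the lower-right one mod `p`. -/
lemma unitD_mul_upper (γ : ↥(Gamma0 p)) :
    ((unitD p γ : (ZMod p)ˣ) : ZMod p) * ((γ.1 0 0 : ℤ) : ZMod p) = 1 :=
  gamma0_diag_mul p γ

end Fermat.Agent.S16.Lower
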