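import Fermat.Agent.S22.HeckeRel
import Fermat.Agent.S23.PeriodLattice
import Fermat.Agent.S16.Lower.UnitD

/-!
# S16, lower bound (route S), L5: the Hecke action on period functionals, with explicit cosets

For `γ ∈ Γ₀(p)` the functional `perFun p γ ∘ T_ℓ` (resp. `∘ U_p`) is a sum of period functionals
`perFun p (γ' x)` where the `γ' x` come from the matrix relations
`α_x γ = γ'_x α_{σ x}`; reading off the lower right entries modulo `p` gives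
`∏ unitD (γ' x) = unitD γ ^ (ℓ + 1)` (resp. `unitD (γ' j) = unitD γ`).
-/

set_option autoImplicit false

namespace Fermat.Agent.S16.Lower

open UpperHalfPlane CongruenceSubgroup Matrix.SpecialLinearGroup Polynomial
open ModularCurve ModularCurve.Period Fermat.Agent.S22 Fermat.Agent.S21 Fermat.Agent.S23
open ModularForm
open P2MW.S_ModularForm_heckeT_slash_eq_self_of_mem_Gamma0.ModularForm.HeckeSlashInvariance
open scoped MatrixGroups ModularForm Manifold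

noncomputable section

/-! ### Explicit versions of the S22 Hecke relations -/

/-- `S22.periodPoly_heckeT` with the cosets `γ'` as an input. -/
theorem periodPoly_heckeT_explicit (n : ℕ) {N : ℕ} [NeZero N] {ℓ : ℕ} [Fact ℓ.Prime]
    (hℓ : ℓ.Prime) (hℓN : ¬ ℓ ∣ N) (γ : SL(2, ℤ))
    (γ' : OnePoint (ZMod ℓ) → SL(2, ℤ)) (hγ'mem : ∀ x, γ' x ∈ Gamma0 N)
    (hrel : ∀ x, heckeRep ℓ x * mapGL ℝ γ = mapGL ℝ (γ' x) * heckeRep ℓ (redMatrix ℓ γ • x))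
    (f : CuspForm (Gamma0 N) ((n : ℤ) + 2)) :
    periodPoly n ⇑(CuspForm.heckeTLin ((n : ℤ) + 2) hℓ hℓN f) (mapGL ℝ γ) =
      ∑ x, polyAct n (heckeRep ℓ (redMatrix ℓ γ • x)) (periodPoly n ⇑f (mapGL ℝ (γ' x))) := by
  have hp0 : ℓ ≠ 0 := hℓ.ne_zero
  let σ : Equiv.Perm (OnePoint (ZMod ℓ)) := MulAction.toPerm (redMatrix ℓ γ)
  have hupper : ∀ x : OnePoint (ZMod ℓ),
      heckeRep ℓ x 1 0 = 0 ∧ 0 < heckeRep ℓ x 0 0 ∧ 0 < heckeRep ℓ x 1 1 := by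
    intro x
    induction x using OnePoint.rec with
    | infty => exact hr_heckeDiagMatrix_upper hp0
    | coe j => exact hr_heckeMatrix_upper hp0 j.val
  have hf := isDecayHolo_cuspForm f
  have hfα : ∀ x : OnePoint (ZMod ℓ), IsDecayHolo ℓ (⇑f ∣[(n : ℤ) + 2] heckeRep ℓ x) := by
    intro x
    induction x using OnePoint.rec with
    | infty => exact hr_isDecayHolo_slash_heckeDiagMatrix hf _ hp0
    | coe j => exact hr_isDecayHolo_slash_heckeMatrix hf _ hp0 j.val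
  have hsum : ⇑(CuspForm.heckeTLin ((n : ℤ) + 2) hℓ hℓN f) =
      ∑ x : OnePoint (ZMod ℓ), ⇑f ∣[(n : ℤ) + 2] heckeRep ℓ x := by
    rw [CuspForm.coe_heckeTLin_apply, heckeT_eq_sum_onePoint]
  rw [hsum]
  exact periodPoly_sum_slash n (heckeRep ℓ) hupper σ γ γ' hrel one_pos
    (by exact_mod_cast Nat.pos_of_ne_zero hp0) hf hfα
    (fun x => slash_eq_of_mem_Gamma0 f (hγ'mem x))

/-- `S22.periodPoly_heckeU` with the cosets `γ'` as an input. -/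
theorem periodPoly_heckeU_explicit (n : ℕ) {N : ℕ} [NeZero N] {q : ℕ} [NeZero q] (hqN : q ∣ N)
    (γ : SL(2, ℤ)) (hc0 : ((γ 1 0 : ℤ) : ZMod q) = 0)
    (γ' : ZMod q → SL(2, ℤ)) (hγ'mem : ∀ x, γ' x ∈ Gamma0 N)
    (hrel : ∀ x : ZMod q, heckeMatrix q x.val * mapGL ℝ γ =
      mapGL ℝ (γ' x) * heckeMatrix q (affinePerm γ hc0 x).val)
    (f : CuspForm (Gamma0 N) ((n : ℤ) + 2)) :
    periodPoly n ⇑(CuspForm.heckeULin ((n : ℤ) + 2) hqN f) (mapGL ℝ γ) =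
      ∑ x, polyAct n (heckeMatrix q (affinePerm γ hc0 x).val)
        (periodPoly n ⇑f (mapGL ℝ (γ' x))) := by
  have hq0 : q ≠ 0 := NeZero.ne q
  let σ : Equiv.Perm (ZMod q) := affinePerm γ hc0
  have hf := isDecayHolo_cuspForm f
  have hsum : ⇑(CuspForm.heckeULin ((n : ℤ) + 2) hqN f) =
      ∑ x : ZMod q, ⇑f ∣[(n : ℤ) + 2] heckeMatrix q x.val := by
    rw [CuspForm.coe_heckeULin_apply, heckeU_eq_sum_zmod]
  rw [hsum]
  exact periodPoly_sum_slash n (fun x : ZMod q => heckeMatrix q x.val)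
    (fun x => hr_heckeMatrix_upper hq0 x.val) σ γ γ' hrel one_pos
    (by exact_mod_cast Nat.pos_of_ne_zero hq0) hf
    (fun x => hr_isDecayHolo_slash_heckeMatrix hf _ hq0 x.val)
    (fun x => slash_eq_of_mem_Gamma0 f (hγ'mem x))

/-! ### Weight two: period functionals -/

/-- In weight two, a Hecke relation for period polynomials is a relation of period functionals. -/
theorem perFun_comp_eq_sum (N : ℕ) [NeZero N] {ι : Type} [Fintype ι]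
    (t : Module.End ℂ (CuspForm (Gamma0 N) 2)) (γ : Gamma0 N) (γ' : ι → Gamma0 N)
    (B : ι → GL (Fin 2) ℝ)
    (hrel : ∀ f : CuspForm (Gamma0 N) 2, periodPoly 0 ⇑(t f) (mapGL ℝ (γ : SL(2, ℤ))) =
      ∑ i, polyAct 0 (B i) (periodPoly 0 ⇑f (mapGL ℝ ((γ' i : Gamma0 N) : SL(2, ℤ))))) :
    (perFun N γ).comp t = ∑ i, perFun N (γ' i) := by
  ext f
  rw [LinearMap.comp_apply, LinearMap.sum_apply, perFun_apply]
  have h1 := hrel f
  have h2 := periodPoly_zero_cusp N (t f) γ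
  have h3 : ∀ i, periodPoly 0 ⇑f (mapGL ℝ ((γ' i : Gamma0 N) : SL(2, ℤ))) =
      C (periodMap N f (Additive.ofMul (γ' i))) :=
    fun i => periodPoly_zero_cusp N f (γ' i)
  rw [h2] at h1
  simp only [h3, polyAct_zero_C] at h1
  rw [← map_sum] at h1
  simpa using C_injective h1

/-! ### Reading off the lower right entries -/

/-- the `(1,1)` entry of a relation `A γ = γ' A'` with `A` upper triangular. -/
theorem entry_rel (A A' : GL (Fin 2) ℝ) (γ γ' : SL(2, ℤ))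
    (h : A * mapGL ℝ γ = mapGL ℝ γ' * A') (hA : A 1 0 = 0) :
    A 1 1 * ((γ 1 1 : ℤ) : ℝ) = ((γ' 1 0 : ℤ) : ℝ) * A' 0 1 + ((γ' 1 1 : ℤ) : ℝ) * A' 1 1 := by
  have h1 := congrArg (fun M : GL (Fin 2) ℝ => (M : Matrix (Fin 2) (Fin 2) ℝ) 1 1) h
  simp only [Matrix.GeneralLinearGroup.coe_mul, Matrix.mul_apply, Fin.sum_univ_two] at h1
  rw [mapGL_apply, mapGL_apply, mapGL_apply, mapGL_apply] at h1
  rw [show (A : Matrix (Fin 2) (Fin 2) ℝ) 1 0 = 0 from hA, zero_mul, zero_add] at h1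
  exact h1

/-- the lower right entry of `heckeRep ℓ x`. -/
def dOf (ℓ : ℕ) (x : OnePoint (ZMod ℓ)) : ℕ := x.elim 1 (fun _ => ℓ)

/-- the upper right entry of `heckeRep ℓ x`. -/
def bOf (ℓ : ℕ) (x : OnePoint (ZMod ℓ)) : ℕ := x.elim 0 (fun j => j.val)

theorem heckeRep_one_one {ℓ : ℕ} (hℓ : ℓ ≠ 0) (x : OnePoint (ZMod ℓ)) :
    heckeRep ℓ x 1 1 = (dOf ℓ x : ℝ) := by
  induction x using OnePoint.rec with
  | infty => simp [heckeRep, dOf, val_heckeDiagMatrix hℓ]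
  | coe j => simp [heckeRep, dOf, val_heckeMatrix hℓ]

theorem heckeRep_zero_one {ℓ : ℕ} (hℓ : ℓ ≠ 0) (x : OnePoint (ZMod ℓ)) :
    heckeRep ℓ x 0 1 = (bOf ℓ x : ℝ) := by
  induction x using OnePoint.rec with
  | infty => simp [heckeRep, bOf, val_heckeDiagMatrix hℓ]
  | coe j => simp [heckeRep, bOf, val_heckeMatrix hℓ]

theorem heckeRep_one_zero {ℓ : ℕ} (hℓ : ℓ ≠ 0) (x : OnePoint (ZMod ℓ)) :
    heckeRep ℓ x 1 0 = 0 := by
  induction x using OnePoint.rec with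
  | infty => simp [heckeRep, val_heckeDiagMatrix hℓ]
  | coe j => simp [heckeRep, val_heckeMatrix hℓ]

/-- the integer form of the `(1,1)`-entry relation for `T_ℓ`. -/
theorem heckeRep_entry_int {ℓ : ℕ} (hℓ : ℓ ≠ 0) (γ γ' : SL(2, ℤ)) (x y : OnePoint (ZMod ℓ))
    (h : heckeRep ℓ x * mapGL ℝ γ = mapGL ℝ γ' * heckeRep ℓ y) :
    (dOf ℓ x : ℤ) * γ 1 1 = γ' 1 0 * (bOf ℓ y : ℤ) + γ' 1 1 * (dOf ℓ y : ℤ) := by
  have h1 := entry_rel _ _ γ γ' h (heckeRep_one_zero hℓ x)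
  rw [heckeRep_one_one hℓ, heckeRep_one_one hℓ, heckeRep_zero_one hℓ] at h1
  exact_mod_cast h1

end

section prime

variable (p : ℕ) [Fact p.Prime]

/-- the relation modulo `p`. -/
theorem heckeRep_entry_zmod {ℓ : ℕ} (hℓ : ℓ ≠ 0) (γ γ' : ↥(Gamma0 p)) (x y : OnePoint (ZMod ℓ))
    (h : heckeRep ℓ x * mapGL ℝ (γ : SL(2, ℤ)) = mapGL ℝ (γ' : SL(2, ℤ)) * heckeRep ℓ y) :
    ((dOf ℓ x : ℕ) : ZMod p) * (unitD p γ : ZMod p) =
      (unitD p γ' : ZMod p) * ((dOf ℓ y : ℕ) : ZMod p) := by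
  have h1 := heckeRep_entry_int hℓ (γ : SL(2, ℤ)) (γ' : SL(2, ℤ)) x y h
  have h2 := congrArg (fun z : ℤ => (z : ZMod p)) h1
  simp only [Int.cast_mul, Int.cast_add, Int.cast_natCast] at h2
  have hc : (((γ' : SL(2, ℤ)) 1 0 : ℤ) : ZMod p) = 0 := Gamma0_mem.mp γ'.2
  rw [hc, zero_mul, zero_add] at h2
  rw [coe_unitD, coe_unitD]
  exact h2

end prime

noncomputable section

variable (p : ℕ) [Fact p.Prime]

theorem dOf_ne_zero {ℓ : ℕ} (hℓ : ℓ.Prime) (hℓp : ¬ ℓ ∣ p) (x : OnePoint (ZMod ℓ)) :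
    ((dOf ℓ x : ℕ) : ZMod p) ≠ 0 := by
  have hp : p.Prime := Fact.out
  have hℓ' : ((ℓ : ℕ) : ZMod p) ≠ 0 := by
    rw [Ne, ZMod.natCast_eq_zero_iff]
    intro h
    exact hℓp (((Nat.prime_dvd_prime_iff_eq hp hℓ).mp h) ▸ dvd_refl _)
  induction x using OnePoint.rec with
  | infty => simp [dOf]
  | coe j => simpa [dOf] using hℓ'

theorem card_onePoint_zmod (ℓ : ℕ) [NeZero ℓ] :
    (Finset.univ : Finset (OnePoint (ZMod ℓ))).card = ℓ + 1 := by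
  rw [Finset.card_univ]
  show Fintype.card (Option (ZMod ℓ)) = ℓ + 1
  rw [Fintype.card_option, ZMod.card]

/-- **L5 (T).**  `perFun γ ∘ T_ℓ = ∑ perFun (γ' x)` with `∏ unitD (γ' x) = unitD γ ^ (ℓ + 1)`. -/
theorem perFun_comp_heckeT' (ℓ : ℕ) [Fact ℓ.Prime] (hℓ : ℓ.Prime) (hℓp : ¬ ℓ ∣ p)
    (γ : ↥(Gamma0 p)) :
    ∃ γ' : OnePoint (ZMod ℓ) → ↥(Gamma0 p),
      (perFun p γ).comp (CuspForm.heckeTLin 2 hℓ hℓp) = ∑ x, perFun p (γ' x) ∧
      ∏ x, unitD p (γ' x) = unitD p γ ^ (ℓ + 1) := by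
  have hℓ0 : ℓ ≠ 0 := hℓ.ne_zero
  have hcN : (p : ℤ) ∣ (γ : SL(2, ℤ)) 1 0 :=
    (ZMod.intCast_zmod_eq_zero_iff_dvd _ _).mp (Gamma0_mem.mp γ.2)
  choose g hgN hgrel using fun x => heckeRep_mul hℓp (γ : SL(2, ℤ)) hcN x
  have hgmem : ∀ x, g x ∈ Gamma0 p := fun x =>
    Gamma0_mem.mpr ((ZMod.intCast_zmod_eq_zero_iff_dvd _ _).mpr (hgN x))
  refine ⟨fun x => ⟨g x, hgmem x⟩, ?_, ?_⟩
  · exact perFun_comp_eq_sum p (CuspForm.heckeTLin 2 hℓ hℓp) γ (fun x => ⟨g x, hgmem x⟩)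
      (fun x => heckeRep ℓ (redMatrix ℓ (γ : SL(2, ℤ)) • x))
      (fun f => periodPoly_heckeT_explicit 0 hℓ hℓp (γ : SL(2, ℤ)) g hgmem hgrel f)
  · set σ : Equiv.Perm (OnePoint (ZMod ℓ)) := MulAction.toPerm (redMatrix ℓ (γ : SL(2, ℤ)))
      with hσ
    have hrel : ∀ x : OnePoint (ZMod ℓ), ((dOf ℓ x : ℕ) : ZMod p) * (unitD p γ : ZMod p) =
        (unitD p (⟨g x, hgmem x⟩ : ↥(Gamma0 p)) : ZMod p) * ((dOf ℓ (σ x) : ℕ) : ZMod p) :=
      fun x => heckeRep_entry_zmod p hℓ0 γ ⟨g x, hgmem x⟩ x (σ x) (hgrel x)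
    have hprod : ∏ x : OnePoint (ZMod ℓ), (((dOf ℓ x : ℕ) : ZMod p) * (unitD p γ : ZMod p)) =
        ∏ x : OnePoint (ZMod ℓ), ((unitD p (⟨g x, hgmem x⟩ : ↥(Gamma0 p)) : ZMod p) *
          ((dOf ℓ (σ x) : ℕ) : ZMod p)) :=
      Finset.prod_congr rfl fun x _ => hrel x
    rw [Finset.prod_mul_distrib, Finset.prod_mul_distrib, Finset.prod_const,
      Equiv.prod_comp σ (fun x => ((dOf ℓ x : ℕ) : ZMod p)), card_onePoint_zmod] at hprod
    have hD : ∏ x : OnePoint (ZMod ℓ), ((dOf ℓ x : ℕ) : ZMod p) ≠ 0 :=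
      Finset.prod_ne_zero_iff.mpr fun x _ => dOf_ne_zero p hℓ hℓp x
    apply Units.ext
    rw [Units.val_pow_eq_pow_val, Units.coe_prod]
    apply mul_left_cancel₀ hD
    rw [hprod, mul_comm]

/-- **L5 (T)** with the primality proof taken from the instance. -/
theorem perFun_comp_heckeT (ℓ : ℕ) [Fact ℓ.Prime] (hℓp : ¬ ℓ ∣ p) (γ : ↥(Gamma0 p)) :
    ∃ γ' : OnePoint (ZMod ℓ) → ↥(Gamma0 p),
      (perFun p γ).comp (CuspForm.heckeTLin 2 (Fact.out : ℓ.Prime) hℓp) = ∑ x, perFun p (γ' x) ∧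
      ∏ x, unitD p (γ' x) = unitD p γ ^ (ℓ + 1) :=
  perFun_comp_heckeT' p ℓ Fact.out hℓp γ

/-- the integer form of the `(1,1)`-entry relation for `U_p`. -/
theorem heckeMatrix_entry_int {q : ℕ} (hq : q ≠ 0) (γ γ' : SL(2, ℤ)) (j j' : ℕ)
    (h : heckeMatrix q j * mapGL ℝ γ = mapGL ℝ γ' * heckeMatrix q j')
    (h10 : γ' 1 0 = q * γ 1 0) :
    γ 1 1 = γ 1 0 * (j' : ℤ) + γ' 1 1 := by
  have hA : heckeMatrix q j 1 0 = 0 := by simp [val_heckeMatrix hq]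
  have h1 := entry_rel _ _ γ γ' h hA
  have e1 : heckeMatrix q j 1 1 = (q : ℝ) := by simp [val_heckeMatrix hq]
  have e2 : heckeMatrix q j' 0 1 = (j' : ℝ) := by simp [val_heckeMatrix hq]
  have e3 : heckeMatrix q j' 1 1 = (q : ℝ) := by simp [val_heckeMatrix hq]
  rw [e1, e2, e3, h10] at h1
  have h2 : (q : ℤ) * γ 1 1 = (q : ℤ) * (γ 1 0 * (j' : ℤ) + γ' 1 1) := by
    have : ((q : ℤ) : ℝ) * ((γ 1 1 : ℤ) : ℝ) =
        ((q : ℤ) : ℝ) * (((γ 1 0 : ℤ) : ℝ) * ((j' : ℤ) : ℝ) + ((γ' 1 1 : ℤ) : ℝ)) := by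
      push_cast at h1 ⊢
      linear_combination h1
    exact_mod_cast this
  exact mul_left_cancel₀ (by exact_mod_cast hq) h2

/-- **L5 (U).**  `perFun γ ∘ U_p = ∑ perFun (γ' j)` with `unitD (γ' j) = unitD γ` for all `j`. -/
theorem perFun_comp_heckeU (γ : ↥(Gamma0 p)) :
    ∃ γ' : ZMod p → ↥(Gamma0 p),
      (perFun p γ).comp (CuspForm.heckeULin 2 (dvd_refl p)) = ∑ j, perFun p (γ' j) ∧
      ∀ j, unitD p (γ' j) = unitD p γ := by
  have hp0 : p ≠ 0 := (Fact.out : p.Prime).ne_zero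
  have hc0 : ((((γ : SL(2, ℤ)) 1 0 : ℤ)) : ZMod p) = 0 := Gamma0_mem.mp γ.2
  have hc : (p : ℤ) ∣ (γ : SL(2, ℤ)) 1 0 := (ZMod.intCast_zmod_eq_zero_iff_dvd _ _).mp hc0
  choose g hg10 hgrel using fun x => heckeMatrix_mul_of_dvd (γ : SL(2, ℤ)) hc x
  have hgmem : ∀ x, g x ∈ Gamma0 p := by
    intro x
    rw [Gamma0_mem, hg10 x]
    push_cast
    rw [hc0, mul_zero]
  refine ⟨fun x => ⟨g x, hgmem x⟩, ?_, ?_⟩
  · exact perFun_comp_eq_sum p (CuspForm.heckeULin 2 (dvd_refl p)) γ (fun x => ⟨g x, hgmem x⟩)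
      (fun x => heckeMatrix p (affinePerm (γ : SL(2, ℤ)) hc0 x).val)
      (fun f => periodPoly_heckeU_explicit 0 (dvd_refl p) (γ : SL(2, ℤ)) hc0 g hgmem hgrel f)
  · intro x
    rw [unitD_eq_iff]
    have h1 := heckeMatrix_entry_int hp0 (γ : SL(2, ℤ)) (g x) _ _ (hgrel x) (hg10 x)
    have h2 := congrArg (fun z : ℤ => (z : ZMod p)) h1
    simp only [Int.cast_add, Int.cast_mul] at h2
    show (((g x) 1 1 : ℤ) : ZMod p) = _
    linear_combination (-1 : ZMod p) * h2 -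
      ((((affinePerm (γ : SL(2, ℤ)) hc0 x).val : ℕ) : ℤ) : ZMod p) * hc0

end

end Fermat.Agent.S16.Lower
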