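import Mathlib

/-!
# Counting homomorphisms from a lattice to a finite abelian group

Mathlib-only algebra for the lower bound (F) of S16:

* `card_addMonoidHom` : for a free `ℤ`-module `M` of finite rank and a finite abelian group `A`,
  `Nat.card (M →+ A) = Nat.card A ^ finrank ℤ M`;
* `comp_injective_of_span` : if the range of `φ : G →+ M` spans `M` then `α ↦ α ∘ φ` is injective;
* `exists_factor_of_card_le` : if moreover all `α ∘ φ` lie in a finite subgroup `H` of `G →+ A` with
  `Nat.card H ≤ Nat.card A ^ finrank ℤ M`, then every member of `H` factors through `φ`;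
* `map_aeval_smul`, `dvd_aeval_of_eigen` : a functional which is an eigenvector for commuting
  operators is an eigenvector for every polynomial in them; divisibility consequence.
-/

namespace Fermat.Agent.S16.Lower.HomCard

section Card

variable (M A : Type*) [AddCommGroup M] [AddCommGroup A]

/-- `M →+ A` is in bijection with the functions on a `ℤ`-basis of `M`. -/
noncomputable def homEquivFun {ι : Type*} (b : Module.Basis ι ℤ M) : (M →+ A) ≃ (ι → A) :=
  (addMonoidHomLequivInt (A := M) (B := A) ℤ).toEquiv.trans (b.constr ℤ).symm.toEquiv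

/-- **Number of homomorphisms from a lattice to a finite abelian group.** -/
theorem card_addMonoidHom [Module.Free ℤ M] [Module.Finite ℤ M] [Finite A] :
    Nat.card (M →+ A) = Nat.card A ^ Module.finrank ℤ M := by
  let b := Module.Free.chooseBasis ℤ M
  rw [Nat.card_congr (homEquivFun M A b), Nat.card_fun, Module.finrank_eq_nat_card_basis b]

instance finite_addMonoidHom [Module.Free ℤ M] [Module.Finite ℤ M] [Finite A] :
    Finite (M →+ A) :=
  Finite.of_equiv _ (homEquivFun M A (Module.Free.chooseBasis ℤ M)).symm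

end Card

section Factor

variable {G M A : Type*} [AddCommGroup M] [AddCommGroup A] [AddZeroClass G]

/-- If the range of `φ` spans `M` over `ℤ` then composition with `φ` is injective on `M →+ A`. -/
theorem comp_injective_of_span (φ : G →+ M)
    (hφ : Submodule.span ℤ (Set.range φ) = ⊤) :
    Function.Injective (fun α : M →+ A => α.comp φ) := by
  intro α β h
  have h' : ∀ g, α (φ g) = β (φ g) := fun g => DFunLike.congr_fun h g
  have hlin : α.toIntLinearMap = β.toIntLinearMap := by
    apply LinearMap.ext_on hφ
    rintro _ ⟨g, rfl⟩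
    exact h' g
  ext x
  exact DFunLike.congr_fun hlin x

/-- **Factorisation by counting.**  Let the range of `φ : G →+ M` span the lattice `M`, and let `H`
be a finite subgroup of `G →+ A` containing all `α ∘ φ` and with at most `|A| ^ rank M` elements.
Then every member of `H` factors through `φ`. -/
theorem exists_factor_of_card_le [Module.Free ℤ M] [Module.Finite ℤ M] [Finite A]
    (φ : G →+ M) (hφ : Submodule.span ℤ (Set.range φ) = ⊤)
    (H : Set (G →+ A)) [Finite H] (hH : ∀ α : M →+ A, α.comp φ ∈ H)
    (hcard : Nat.card H ≤ Nat.card A ^ Module.finrank ℤ M) :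
    ∀ ψ ∈ H, ∃ α : M →+ A, ψ = α.comp φ := by
  let Ψ : (M →+ A) → H := fun α => ⟨α.comp φ, hH α⟩
  have hinj : Function.Injective Ψ := by
    intro α β h
    exact comp_injective_of_span φ hφ (congrArg Subtype.val h)
  have hbij : Function.Bijective Ψ :=
    hinj.bijective_of_nat_card_le (by rw [card_addMonoidHom]; exact hcard)
  intro ψ hψ
  obtain ⟨α, hα⟩ := hbij.2 ⟨ψ, hψ⟩
  exact ⟨α, (congrArg Subtype.val hα).symm⟩

end Factor

section Eigen

variable {σ T M A : Type*} [CommRing T] [AddCommGroup M] [AddCommGroup A]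

/-- A functional `α` which is a simultaneous eigenvector (eigenvalues `lam i`) for the operators
`ρ (gen i)` is an eigenvector for `ρ (P(gen))` with eigenvalue `P(lam)`. -/
theorem map_aeval_smul (ρ : T →+* Module.End ℤ M) (gen : σ → T) (lam : σ → ℤ) (α : M →+ A)
    (h : ∀ i ξ, α (ρ (gen i) ξ) = lam i • α ξ) (P : MvPolynomial σ ℤ) (ξ : M) :
    α (ρ (MvPolynomial.aeval gen P) ξ) = MvPolynomial.aeval lam P • α ξ := by
  induction P using MvPolynomial.induction_on generalizing ξ with
  | C r =>
    rw [MvPolynomial.aeval_C, MvPolynomial.aeval_C]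
    have : ρ (algebraMap ℤ T r) = (r : Module.End ℤ M) := by
      rw [eq_intCast, map_intCast]
    rw [this]
    simp only [Module.End.intCast_apply, map_zsmul, eq_intCast, Int.cast_id]
  | add P Q hP hQ =>
    rw [map_add, map_add, LinearMap.add_apply, map_add, hP, hQ, map_add, add_smul]
  | mul_X P i hP =>
    rw [map_mul, map_mul, MvPolynomial.aeval_X, Module.End.mul_apply, hP, h, map_mul,
      MvPolynomial.aeval_X, mul_smul]

/-- If moreover `ρ (P(gen))` kills `M` and `α` is onto `ZMod n`, then `n ∣ P(lam)`. -/
theorem dvd_aeval_of_eigen {n : ℕ} (ρ : T →+* Module.End ℤ M) (gen : σ → T) (lam : σ → ℤ)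
    (α : M →+ ZMod n) (hα : Function.Surjective α)
    (h : ∀ i ξ, α (ρ (gen i) ξ) = lam i • α ξ) (P : MvPolynomial σ ℤ)
    (hP : ∀ ξ, ρ (MvPolynomial.aeval gen P) ξ = 0) :
    (n : ℤ) ∣ MvPolynomial.aeval lam P := by
  obtain ⟨ξ, hξ⟩ := hα 1
  have h1 := map_aeval_smul ρ gen lam α h P ξ
  rw [hP ξ, map_zero, hξ, zsmul_eq_mul, mul_one] at h1
  exact (ZMod.intCast_zmod_eq_zero_iff_dvd _ _).mp h1.symm

end Eigen

end Fermat.Agent.S16.Lower.HomCard
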