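import Fermat.Agent.S21
import Fermat.Agent.S23.PeriodLattice
import Fermat.Agent.S16.Lower.HomCard

/-!
S16 (F), lower bound: the period lattice `S23.perLattice N` of weight two cusp forms on `Γ₀(N)`
is a free `ℤ`-module of rank `2 g`, `g = dim_ℂ S₂(Γ₀(N))` (helper24).

Exports: `finiteDimensional_cuspForm`, instances `finite_perLattice`, `free_perLattice`,
`finrank_perLattice`, `card_hom_perLattice`.
-/

set_option autoImplicit false

namespace Fermat.Agent.S16.Lower.LatticeRank

open CongruenceSubgroup ModularCurve ModularCurve.Period Fermat.Agent.S23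

variable (N : ℕ) [NeZero N]

/-- Weight two cusp forms on `Γ₀(N)` are finite dimensional (from S20/S21). -/
theorem finiteDimensional_cuspForm : FiniteDimensional ℂ (CuspForm (Gamma0 N) 2) := by
  obtain ⟨hinj, hrange⟩ := Fermat.Agent.S21.result N
  have hfdP : FiniteDimensional ℂ (parabolicHoms ℂ (Gamma0 N) ℂ) :=
    (Fermat.Agent.S21.finrank_parabolicHoms_Gamma0_le N).1
  have hle : LinearMap.range (periodHomPair N) ≤ parabolicHoms ℂ (Gamma0 N) ℂ := hrange.le
  let φ : (CuspForm (Gamma0 N) 2 × CuspForm (Gamma0 N) 2) →ₗ[ℂ] parabolicHoms ℂ (Gamma0 N) ℂ :=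
    (periodHomPair N).codRestrict _ (fun p => hle ⟨p, rfl⟩)
  have hφ : Function.Injective φ := by
    intro p q hpq
    apply hinj
    exact congrArg Subtype.val hpq
  have hfdS : FiniteDimensional ℂ (CuspForm (Gamma0 N) 2 × CuspForm (Gamma0 N) 2) :=
    FiniteDimensional.of_injective φ hφ
  exact FiniteDimensional.of_injective (LinearMap.inl ℂ _ (CuspForm (Gamma0 N) 2))
    LinearMap.inl_injective

instance finite_perLattice : Module.Finite ℤ (perLattice N) :=
  Module.Finite.iff_fg.mpr (perLattice_fg N)

instance free_perLattice : Module.Free ℤ (perLattice N) := inferInstance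

/-- The conjugation hypothesis of `S23.perLattice_re_separating`. -/
theorem exists_conj (f : CuspForm (Gamma0 N) 2) : ∃ f' : CuspForm (Gamma0 N) 2,
    ∀ γ : Gamma0 N, periodMap N f (Additive.ofMul (jConjGamma0 N γ)) =
      - (starRingEnd ℂ) (periodMap N f' (Additive.ofMul γ)) := by
  refine ⟨Fermat.Agent.S21.conjCF N f, fun γ => ?_⟩
  have := Fermat.Agent.S21.charInvolution_periodMap (N := N) (f := f)
    ⟨_, Fermat.Agent.S21.hasEquivariantPrimitive N f⟩ (Additive.ofMul γ)
  rw [charInvolution_apply] at this
  exact this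

/-- The period lattice is real-separating. -/
theorem re_separating (f : CuspForm (Gamma0 N) 2)
    (h : ∀ ξ ∈ perLattice N, (ξ f).re = 0) : f = 0 :=
  perLattice_re_separating N (Fermat.Agent.S21.result N).1 (exists_conj N) f h

/-- **The period lattice has rank `2 g`.** -/
theorem finrank_perLattice :
    Module.finrank ℤ (perLattice N) = 2 * Module.finrank ℂ (CuspForm (Gamma0 N) 2) := by
  classical
  have := finiteDimensional_cuspForm N
  obtain ⟨hinj, hrange⟩ := Fermat.Agent.S21.result N
  apply le_antisymm (finrank_perLattice_le N hinj hrange)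
  -- the real-part map `V → ℝ^r` is injective
  set r := Module.finrank ℤ (perLattice N) with hr
  let b := Module.finBasis ℤ (perLattice N)
  let E : CuspForm (Gamma0 N) 2 →ₗ[ℝ] (Fin r → ℝ) :=
    LinearMap.pi (fun a => Complex.reLm ∘ₗ
      ((b a : perLattice N) : Module.Dual ℂ (CuspForm (Gamma0 N) 2)).restrictScalars ℝ)
  have hE : ∀ f a, E f a =
      (((b a : perLattice N) : Module.Dual ℂ (CuspForm (Gamma0 N) 2)) f).re := fun f a => rfl
  have hE_inj : Function.Injective E := by
    rw [injective_iff_map_eq_zero]
    intro f hf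
    apply re_separating N f
    intro ξ hξ
    have hrepr := b.sum_repr ⟨ξ, hξ⟩
    have hξ' : ξ = ∑ a, (b.repr ⟨ξ, hξ⟩ a) •
        ((b a : perLattice N) : Module.Dual ℂ (CuspForm (Gamma0 N) 2)) := by
      have := congrArg (fun x : perLattice N =>
        (x : Module.Dual ℂ (CuspForm (Gamma0 N) 2))) hrepr
      simp only [AddSubmonoidClass.coe_finsetSum, Submodule.coe_smul_of_tower] at this
      exact this.symm
    rw [hξ']
    simp only [LinearMap.sum_apply, LinearMap.smul_apply, Complex.re_sum]
    refine Finset.sum_eq_zero fun a _ => ?_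
    have h0 : (((b a : perLattice N) : Module.Dual ℂ (CuspForm (Gamma0 N) 2)) f).re = 0 := by
      rw [← hE, hf]; rfl
    rw [zsmul_eq_mul, ← Complex.ofReal_intCast, Complex.re_ofReal_mul, h0, mul_zero]
  have h1 := LinearMap.finrank_le_finrank_of_injective hE_inj
  rw [Module.finrank_fin_fun, finrank_real_of_complex] at h1
  exact h1

/-- Number of homomorphisms from the period lattice to a finite abelian group. -/
theorem card_hom_perLattice (A : Type*) [AddCommGroup A] [Finite A] :
    Nat.card (perLattice N →+ A) =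
      Nat.card A ^ (2 * Module.finrank ℂ (CuspForm (Gamma0 N) 2)) := by
  rw [HomCard.card_addMonoidHom, finrank_perLattice]

end Fermat.Agent.S16.Lower.LatticeRank
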