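import Mathlib
import Fermat.Prelude.Def_ModularCurve_ModularUnit
import Fermat.Prelude.Def_ModularCurve_PeriodMap
import Fermat.Agent.S16.Lower.UnitD

/-!
# S16, lower bound (route S), L4b: the Shimura homomorphism

`shimuraHom p : Γ₀(p) → (ℤ/p)ˣ → (ℤ/p)ˣ / μ_ν ≅ ℤ/n`, `ν = gcd (p - 1) 12`,
`n = eisensteinNumerator p = (p - 1)/ν`, `γ ↦ class of its lower-right entry`.
It vanishes on parabolic and on finite-order elements and is surjective.
-/

set_option autoImplicit false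

open Matrix CongruenceSubgroup ModularCurve
open scoped MatrixGroups

namespace Fermat.Agent.S16.Lower.ShimuraHom

open Fermat.Agent.S16.Lower

variable (p : ℕ) [Fact p.Prime]

/-! ### Arithmetic of `n = (p - 1) / gcd (p - 1) 12` -/

lemma eisNum_mul_gcd : eisensteinNumerator p * Nat.gcd (p - 1) 12 = p - 1 :=
  Nat.div_mul_cancel (Nat.gcd_dvd_left _ _)

lemma eisNum_dvd : eisensteinNumerator p ∣ p - 1 :=
  Dvd.intro _ (eisNum_mul_gcd p)

lemma pred_pos : 0 < p - 1 := Nat.sub_pos_of_lt (Fact.out : p.Prime).one_lt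

lemma eisNum_pos : 0 < eisensteinNumerator p := by
  rcases Nat.eq_zero_or_pos (eisensteinNumerator p) with h | h
  · have := eisNum_mul_gcd p
    rw [h, zero_mul] at this
    exact absurd this.symm (pred_pos p).ne'
  · exact h

instance neZero_eisNum : NeZero (eisensteinNumerator p) := ⟨(eisNum_pos p).ne'⟩

/-- `p = 1` in `ℤ/n`. -/
lemma natCast_p : ((p : ℕ) : ZMod (eisensteinNumerator p)) = 1 := by
  have h2 : (((p - 1 : ℕ)) : ZMod (eisensteinNumerator p)) = 0 :=
    (ZMod.natCast_eq_zero_iff _ _).mpr (eisNum_dvd p)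
  have e : ((((p - 1) + 1 : ℕ)) : ZMod (eisensteinNumerator p)) =
      ((p : ℕ) : ZMod (eisensteinNumerator p)) := by
    rw [Nat.sub_add_cancel (Fact.out : p.Prime).one_lt.le]
  rw [← e, Nat.cast_add, h2, zero_add, Nat.cast_one]

/-! ### The character `chi : (ℤ/p)ˣ → ℤ/n` -/

/-- A generator of `(ℤ/p)ˣ`. -/
noncomputable def gen : (ZMod p)ˣ :=
  Classical.choose (IsCyclic.exists_generator (α := (ZMod p)ˣ))

lemma gen_spec : ∀ x : (ZMod p)ˣ, x ∈ Subgroup.zpowers (gen p) :=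
  Classical.choose_spec (IsCyclic.exists_generator (α := (ZMod p)ˣ))

lemma orderOf_gen : orderOf (gen p) = p - 1 := by
  rw [orderOf_eq_card_of_forall_mem_zpowers (gen_spec p), Nat.card_eq_fintype_card,
    ZMod.card_units]

lemma orderOf_ofAdd_one :
    orderOf (Multiplicative.ofAdd (1 : ZMod (eisensteinNumerator p))) = eisensteinNumerator p := by
  rw [orderOf_ofAdd_eq_addOrderOf, ZMod.addOrderOf_one]

/-- The character `(ℤ/p)ˣ → ℤ/n` sending the chosen generator to `1`. -/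
noncomputable def chi : (ZMod p)ˣ →* Multiplicative (ZMod (eisensteinNumerator p)) :=
  monoidHomOfForallMemZpowers (gen_spec p)
    (g' := Multiplicative.ofAdd (1 : ZMod (eisensteinNumerator p)))
    (by rw [orderOf_ofAdd_one, orderOf_gen]; exact eisNum_dvd p)

lemma chi_gen : chi p (gen p) = Multiplicative.ofAdd (1 : ZMod (eisensteinNumerator p)) :=
  monoidHomOfForallMemZpowers_apply_gen _ _

lemma chi_gen_zpow (k : ℤ) :
    chi p (gen p ^ k) = Multiplicative.ofAdd ((k : ZMod (eisensteinNumerator p))) := by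
  rw [map_zpow, chi_gen, ← ofAdd_zsmul]
  simp

lemma chi_surjective : Function.Surjective (chi p) := by
  intro y
  refine ⟨gen p ^ ((Multiplicative.toAdd y).val : ℤ), ?_⟩
  rw [chi_gen_zpow]
  simp

/-- `chi` kills every `x` with `x ^ ν = 1`, `ν = gcd (p - 1) 12`. -/
lemma chi_eq_one_of_pow_gcd (x : (ZMod p)ˣ) (h : x ^ Nat.gcd (p - 1) 12 = 1) : chi p x = 1 := by
  obtain ⟨k, rfl⟩ := Subgroup.mem_zpowers_iff.mp (gen_spec p x)
  rw [chi_gen_zpow]
  have h1 : gen p ^ (k * (Nat.gcd (p - 1) 12 : ℤ)) = 1 := by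
    rw [_root_.zpow_mul, zpow_natCast]
    exact h
  have h2 : ((orderOf (gen p) : ℕ) : ℤ) ∣ k * (Nat.gcd (p - 1) 12 : ℤ) :=
    orderOf_dvd_iff_zpow_eq_one.mpr h1
  rw [orderOf_gen] at h2
  rw [show ((p - 1 : ℕ) : ℤ) =
      ((eisensteinNumerator p : ℕ) : ℤ) * ((Nat.gcd (p - 1) 12 : ℕ) : ℤ) by
    rw [← Nat.cast_mul, eisNum_mul_gcd]] at h2
  have hν : ((Nat.gcd (p - 1) 12 : ℕ) : ℤ) ≠ 0 := by
    have : 0 < Nat.gcd (p - 1) 12 := Nat.gcd_pos_of_pos_right _ (by norm_num)
    exact_mod_cast this.ne'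
  have h3 : ((eisensteinNumerator p : ℕ) : ℤ) ∣ k := (mul_dvd_mul_iff_right hν).mp h2
  have h4 : ((k : ℤ) : ZMod (eisensteinNumerator p)) = 0 :=
    (ZMod.intCast_zmod_eq_zero_iff_dvd k _).mpr h3
  rw [h4]
  rfl

/-- `chi` kills every `x` with `x ^ 12 = 1`. -/
lemma chi_eq_one_of_pow_twelve (x : (ZMod p)ˣ) (h : x ^ 12 = 1) : chi p x = 1 := by
  apply chi_eq_one_of_pow_gcd
  have h1 : orderOf x ∣ 12 := orderOf_dvd_of_pow_eq_one h
  have h2 : orderOf x ∣ p - 1 := by
    rw [← ZMod.card_units p]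
    exact orderOf_dvd_card
  exact orderOf_dvd_iff_pow_eq_one.mp (Nat.dvd_gcd h2 h1)

/-! ### The Shimura homomorphism -/

/-- The Shimura homomorphism `Γ₀(p) → ℤ/n`. -/
noncomputable def shimuraHom : Additive ↥(Gamma0 p) →+ ZMod (eisensteinNumerator p) :=
  MonoidHom.toAdditiveLeft ((chi p).comp (unitDHom p))

lemma shimuraHom_apply (γ : ↥(Gamma0 p)) :
    shimuraHom p (Additive.ofMul γ) = Multiplicative.toAdd (chi p (unitD p γ)) := rfl

lemma shimuraHom_eq_zero_of_unitD_pow (γ : ↥(Gamma0 p)) (h : unitD p γ ^ 12 = 1) :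
    shimuraHom p (Additive.ofMul γ) = 0 := by
  rw [shimuraHom_apply, chi_eq_one_of_pow_twelve p _ h]
  rfl

/-- The Shimura homomorphism vanishes on elements of finite order (`γ ^ 12 = 1` covers all of
them in `SL(2, ℤ)`). -/
theorem shimuraHom_eq_zero_of_finite_order (γ : ↥(Gamma0 p)) (h : γ ^ 12 = 1) :
    shimuraHom p (Additive.ofMul γ) = 0 := by
  apply shimuraHom_eq_zero_of_unitD_pow
  rw [← unitD_pow, h, unitD_one]

/-- The Shimura homomorphism vanishes on parabolic elements (and on `±1`): `tr² = 4`. -/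
theorem shimuraHom_eq_zero_of_trace (γ : ↥(Gamma0 p))
    (h : (γ.1 0 0 + γ.1 1 1) ^ 2 = 4) :
    shimuraHom p (Additive.ofMul γ) = 0 := by
  apply shimuraHom_eq_zero_of_unitD_pow
  -- `a d = 1` and `(a + d)² = 4` give `(a - d)² = 0`, so `a = d` and `d² = 1` mod `p`.
  have had := gamma0_diag_mul p γ
  set a : ZMod p := ((γ.1 0 0 : ℤ) : ZMod p) with ha
  set d : ZMod p := ((γ.1 1 1 : ℤ) : ZMod p) with hd
  have h4 : (a + d) ^ 2 = 4 := by
    have := congrArg (fun x : ℤ => (x : ZMod p)) h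
    simpa [ha, hd] using this
  have hsq : (a - d) ^ 2 = 0 := by
    have : (a - d) ^ 2 = (a + d) ^ 2 - 4 * (d * a) := by ring
    rw [this, h4, had]
    ring
  have hEq : a = d := sub_eq_zero.mp ((pow_eq_zero_iff (two_ne_zero)).mp hsq)
  have hd2 : d ^ 2 = 1 := by
    rw [← hEq] at had
    rw [← hEq, sq]
    exact had
  have hu : unitD p γ ^ 2 = 1 := by
    apply Units.ext
    rw [Units.val_pow_eq_pow_val, coe_unitD, Units.val_one]
    exact hd2
  calc unitD p γ ^ 12 = (unitD p γ ^ 2) ^ 6 := by rw [← pow_mul]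
    _ = 1 := by rw [hu, one_pow]

/-- The Shimura homomorphism is a parabolic homomorphism in the sense of the Prelude. -/
theorem isParabolicHom_shimuraHom :
    ModularCurve.Period.IsParabolicHom (Gamma0 p) (shimuraHom p) := by
  intro γ h
  apply shimuraHom_eq_zero_of_trace
  rwa [Matrix.trace_fin_two] at h

/-- Every unit mod `p` is the lower-right entry of some element of `Γ₀(p)`. -/
lemma exists_unitD_eq (x : (ZMod p)ˣ) : ∃ γ : ↥(Gamma0 p), unitD p γ = x := by
  have : NeZero p := ⟨(Fact.out : p.Prime).ne_zero⟩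
  set d : ℕ := (x : ZMod p).val with hd
  have hdx : ((d : ℕ) : ZMod p) = (x : ZMod p) := ZMod.natCast_zmod_val _
  have hcop : Nat.Coprime d p := by
    rw [← ZMod.isUnit_iff_coprime, hdx]
    exact x.isUnit
  have hcopZ : IsCoprime (d : ℤ) (p : ℤ) := Nat.isCoprime_iff_coprime.mpr hcop
  obtain ⟨u, v, huv⟩ := hcopZ
  -- the matrix `[[u, -v], [p, d]]`
  have hdet : (!![u, -v; (p : ℤ), (d : ℤ)] : Matrix (Fin 2) (Fin 2) ℤ).det = 1 := by
    rw [Matrix.det_fin_two_of]
    linear_combination huv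
  let g : SL(2, ℤ) := ⟨!![u, -v; (p : ℤ), (d : ℤ)], hdet⟩
  have hg : g ∈ Gamma0 p := by
    rw [Gamma0_mem]
    show (((p : ℤ) : ℤ) : ZMod p) = 0
    simp
  refine ⟨⟨g, hg⟩, ?_⟩
  apply Units.ext
  rw [coe_unitD]
  show (((d : ℤ) : ℤ) : ZMod p) = _
  rw [Int.cast_natCast, hdx]

theorem shimuraHom_surjective : Function.Surjective (shimuraHom p) := by
  intro y
  obtain ⟨x, hx⟩ := chi_surjective p (Multiplicative.ofAdd y)
  -- realise `x` as the lower-right entry of an element of `Γ₀(p)`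
  obtain ⟨γ, hγ⟩ := exists_unitD_eq p x
  refine ⟨Additive.ofMul γ, ?_⟩
  rw [shimuraHom_apply, hγ, hx]
  rfl

/-- Sums of values of the Shimura homomorphism. -/
theorem sum_shimuraHom {ι : Type*} (s : Finset ι) (γ : ι → ↥(Gamma0 p)) :
    ∑ i ∈ s, shimuraHom p (Additive.ofMul (γ i)) =
      Multiplicative.toAdd (chi p (∏ i ∈ s, unitD p (γ i))) := by
  rw [map_prod, toAdd_prod]
  rfl

end Fermat.Agent.S16.Lower.ShimuraHom
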