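import Fermat.Agent.S16.Lower.LatticeAction
import Fermat.Agent.S16.Lower.ShimuraHom
import Fermat.Agent.S16.Lower.HeckeLattice
import Fermat.Agent.S16.Lower.LatticeRank

/-!
# S16 (F): assembly of the lower bound

From a factorisation `shimuraHom p = α ∘ perHomL p` of the Shimura homomorphism through the period
lattice we derive `HasEisHom (tGen p) (eisensteinSystem p) (eisensteinNumerator p)`.
-/

set_option autoImplicit false

namespace Fermat.Agent.S16.Lower.Assembly

open Fermat.Agent.S23 CongruenceSubgroup ModularCurve CuspForm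
open Fermat.Agent.S16.Alg.AbstractCard Fermat.Agent.S16.Alg.Dictionary
open Fermat.Agent.S16.Lower Fermat.Agent.S16.Lower.LatticeAction
open Fermat.Agent.S16.Lower.ShimuraHom
open scoped MatrixGroups

noncomputable section

variable (p : ℕ) [Fact p.Prime]

/-- A sum of period functionals as an element of the lattice. -/
theorem eq_sum_perHomL {ι : Type*} [Fintype ι] (ξ : perLattice p) (γ' : ι → ↥(Gamma0 p))
    (h : (ξ : Module.Dual ℂ (CuspForm (Gamma0 p) 2)) = ∑ x, perFun p (γ' x)) :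
    ξ = ∑ x, perHomL p (Additive.ofMul (γ' x)) := by
  apply Subtype.ext
  rw [h, AddSubmonoidClass.coe_finsetSum]
  rfl

/-- **Generic assembly** (shape of helper2 #835). -/
theorem hlow_of {n : ℕ} (a : Additive ↥(Gamma0 p) →+ ZMod n) (ha : Function.Surjective a)
    (α : perLattice p →+ ZMod n) (hα : a = α.comp (perHomL p))
    (hT : ∀ (ℓ : ℕ) (hℓ : ℓ.Prime) (hℓp : ¬ ℓ ∣ p) (γ : ↥(Gamma0 p)),
      ∃ (ι : Type) (_ : Fintype ι) (γ' : ι → ↥(Gamma0 p)),
        (perFun p γ).comp (CuspForm.heckeTLin 2 hℓ hℓp) = ∑ x, perFun p (γ' x) ∧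
        ∑ x, a (Additive.ofMul (γ' x)) = ((1 : ℤ) + (ℓ : ℤ)) • a (Additive.ofMul γ))
    (hU : ∀ γ : ↥(Gamma0 p),
      ∃ (ι : Type) (_ : Fintype ι) (γ' : ι → ↥(Gamma0 p)),
        (perFun p γ).comp (CuspForm.heckeULin 2 (dvd_refl p)) = ∑ x, perFun p (γ' x) ∧
        ∑ x, a (Additive.ofMul (γ' x)) = a (Additive.ofMul γ)) :
    HasEisHom (tGen p) (eisensteinSystem p) n := by
  have hαa : ∀ γ, α (perHomL p γ) = a γ := fun γ => by rw [hα]; rfl
  refine hasEisHom_of_eigen_functional p α ?_ ?_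
  · intro y
    obtain ⟨γ, hγ⟩ := ha y
    exact ⟨perHomL p γ, by rw [hαa, hγ]⟩
  · rintro ⟨q, hq⟩ γ
    set γ0 : ↥(Gamma0 p) := Additive.toMul γ with hγ0
    have hγ : γ = Additive.ofMul γ0 := rfl
    rw [hγ]
    by_cases hdvd : q ∣ p
    · -- the operator `U_p`
      obtain rfl : q = p := (Nat.prime_dvd_prime_iff_eq hq Fact.out).mp hdvd
      obtain ⟨ι, _, γ', h1, h2⟩ := hU γ0
      have hgen : heckeFormsGen q 2 ⟨q, hq⟩ =
          heckeAlgebra.U hq (dvd_refl q) (Set.notMem_empty _) := heckeFormsGen_of_dvd (dvd_refl q)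
      have hsum := eq_sum_perHomL q
        (latAct q (heckeFormsGen q 2 ⟨q, hq⟩) (perHomL q (Additive.ofMul γ0))) γ' (by
          rw [latAct_perHomL_coe, hgen]
          exact h1)
      rw [hsum, map_sum]
      simp only [hαa]
      rw [h2, eisensteinSystem_of_dvd (show ((⟨q, hq⟩ : Nat.Primes) : ℕ) ∣ q from dvd_refl q),
        one_smul]
    · -- the operators `T_ℓ`
      obtain ⟨ι, _, γ', h1, h2⟩ := hT q hq hdvd γ0
      have hgen : heckeFormsGen p 2 ⟨q, hq⟩ =
          heckeAlgebra.T hq hdvd (Set.notMem_empty _) := heckeFormsGen_of_not_dvd hdvd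
      have hsum := eq_sum_perHomL p
        (latAct p (heckeFormsGen p 2 ⟨q, hq⟩) (perHomL p (Additive.ofMul γ0))) γ' (by
          rw [latAct_perHomL_coe, hgen]
          exact h1)
      rw [hsum, map_sum]
      simp only [hαa]
      rw [h2, eisensteinSystem_of_not_dvd (show ¬ ((⟨q, hq⟩ : Nat.Primes) : ℕ) ∣ p from hdvd)]

/-- **Assembly for the Shimura homomorphism**: if it factors through the period lattice, the lower
bound holds. -/
theorem hlow_of_factor (α : perLattice p →+ ZMod (eisensteinNumerator p))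
    (hα : ∀ γ : Additive ↥(Gamma0 p), α (perHomL p γ) = shimuraHom p γ) :
    HasEisHom (tGen p) (eisensteinSystem p) (eisensteinNumerator p) := by
  refine hlow_of p (shimuraHom p) (shimuraHom_surjective p) α ?_ ?_ ?_
  · ext γ
    exact (hα γ).symm
  · intro ℓ hℓ hℓp γ
    have : Fact ℓ.Prime := ⟨hℓ⟩
    obtain ⟨γ', h1, h2⟩ := perFun_comp_heckeT' p ℓ hℓ hℓp γ
    refine ⟨OnePoint (ZMod ℓ), inferInstance, γ', h1, ?_⟩
    rw [sum_shimuraHom, h2, map_pow, toAdd_pow, shimuraHom_apply, add_comm (1 : ℤ) (ℓ : ℤ)]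
    rw [← natCast_zsmul]
    push_cast
    rfl
  · intro γ
    obtain ⟨γ', h1, h2⟩ := perFun_comp_heckeU p γ
    refine ⟨ZMod p, inferInstance, γ', h1, ?_⟩
    have : ∀ j, shimuraHom p (Additive.ofMul (γ' j)) = shimuraHom p (Additive.ofMul γ) := by
      intro j
      rw [shimuraHom_apply, shimuraHom_apply, h2 j]
    simp only [this]
    rw [Finset.sum_const, Finset.card_univ, ZMod.card, nsmul_eq_mul, natCast_p, one_mul]

/-! ### Factorisation of the Shimura homomorphism from the counting bound -/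

/-- Homomorphisms from a finitely generated group to a finite group form a finite set. -/
theorem finite_addMonoidHom_of_fg (G A : Type*) [AddGroup G] [AddGroup.FG G] [AddCommGroup A]
    [Finite A] : Finite (G →+ A) := by
  obtain ⟨S, hS⟩ := (AddGroup.fg_def.mp (inferInstance : AddGroup.FG G))
  let r : (G →+ A) → ({x : G // x ∈ S} → A) := fun ψ s => ψ s.1
  refine Finite.of_injective r ?_
  intro ψ ψ' h
  refine AddMonoidHom.eq_of_eqOn_dense hS ?_
  intro x hx
  exact congrFun h ⟨x, hx⟩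

instance finite_hom_gamma0 (A : Type*) [AddCommGroup A] [Finite A] :
    Finite (Additive ↥(Gamma0 p) →+ A) := by
  have : Group.FG ↥(Gamma0 p) :=
    (Group.fg_iff_subgroup_fg _).mpr (Fermat.Agent.S22.gamma0_fg p)
  exact finite_addMonoidHom_of_fg _ _

/-- The homomorphisms `Γ₀(p) → A` killing the parabolic elements (`trace ^ 2 = 4`) and the elements
of finite order (`γ ^ 12 = 1`). -/
def parEllHoms (A : Type*) [AddCommGroup A] : AddSubgroup (Additive ↥(Gamma0 p) →+ A) where
  carrier := {ψ | (∀ γ : ↥(Gamma0 p),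
      ((γ : SL(2, ℤ)) : Matrix (Fin 2) (Fin 2) ℤ).trace ^ 2 = 4 → ψ (Additive.ofMul γ) = 0) ∧
    ∀ γ : ↥(Gamma0 p), γ ^ 12 = 1 → ψ (Additive.ofMul γ) = 0}
  zero_mem' := ⟨fun _ _ => rfl, fun _ _ => rfl⟩
  add_mem' := by
    rintro ψ ψ' ⟨h1, h2⟩ ⟨h1', h2'⟩
    refine ⟨fun γ hγ => ?_, fun γ hγ => ?_⟩
    · rw [AddMonoidHom.add_apply, h1 γ hγ, h1' γ hγ, add_zero]
    · rw [AddMonoidHom.add_apply, h2 γ hγ, h2' γ hγ, add_zero]
  neg_mem' := by
    rintro ψ ⟨h1, h2⟩
    refine ⟨fun γ hγ => ?_, fun γ hγ => ?_⟩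
    · rw [AddMonoidHom.neg_apply, h1 γ hγ, neg_zero]
    · rw [AddMonoidHom.neg_apply, h2 γ hγ, neg_zero]

omit [Fact p.Prime] in
theorem mem_parEllHoms {A : Type*} [AddCommGroup A] {ψ : Additive ↥(Gamma0 p) →+ A} :
    ψ ∈ parEllHoms p A ↔ (∀ γ : ↥(Gamma0 p),
      ((γ : SL(2, ℤ)) : Matrix (Fin 2) (Fin 2) ℤ).trace ^ 2 = 4 → ψ (Additive.ofMul γ) = 0) ∧
    ∀ γ : ↥(Gamma0 p), γ ^ 12 = 1 → ψ (Additive.ofMul γ) = 0 := Iff.rfl

/-- The period functional of an element of finite order vanishes. -/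
theorem perHomL_eq_zero_of_pow (γ : ↥(Gamma0 p)) {m : ℕ} (hm : m ≠ 0) (h : γ ^ m = 1) :
    perHomL p (Additive.ofMul γ) = 0 := by
  have h1 : m • perHomL p (Additive.ofMul γ) = 0 := by
    rw [← map_nsmul, ← ofMul_pow, h]
    exact map_zero _
  have h2 : (m : ℂ) • ((perHomL p (Additive.ofMul γ) : perLattice p) :
      Module.Dual ℂ (CuspForm (Gamma0 p) 2)) = 0 := by
    have := congrArg (fun ξ : perLattice p => (ξ : Module.Dual ℂ (CuspForm (Gamma0 p) 2))) h1
    simp only [Submodule.coe_smul_of_tower, ZeroMemClass.coe_zero] at this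
    rw [Nat.cast_smul_eq_nsmul]
    exact this
  apply Subtype.ext
  exact (smul_eq_zero.mp h2).resolve_left (Nat.cast_ne_zero.mpr hm)

/-- Every homomorphism factoring through the period lattice kills parabolic and finite-order
elements. -/
theorem comp_perHomL_mem (A : Type*) [AddCommGroup A] (α : perLattice p →+ A) :
    α.comp (perHomL p) ∈ parEllHoms p A := by
  refine ⟨fun γ hγ => ?_, fun γ hγ => ?_⟩
  · have : perHomL p (Additive.ofMul γ) = 0 := by
      apply Subtype.ext
      exact perFun_eq_zero_of_trace p γ hγ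
    rw [AddMonoidHom.comp_apply, this, map_zero]
  · rw [AddMonoidHom.comp_apply, perHomL_eq_zero_of_pow p γ (by norm_num) hγ, map_zero]

/-- The Shimura homomorphism kills parabolic and finite-order elements. -/
theorem shimuraHom_mem : shimuraHom p ∈ parEllHoms p (ZMod (eisensteinNumerator p)) := by
  refine ⟨fun γ hγ => ?_, fun γ hγ => shimuraHom_eq_zero_of_finite_order p γ hγ⟩
  apply shimuraHom_eq_zero_of_trace
  rw [Matrix.trace_fin_two] at hγ
  exact hγ

/-- **Factorisation by counting**: under the counting bound `|H| ≤ |A| ^ (2 g)` for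
`H = parEllHoms p A`, every member of `H` factors through the period lattice. -/
theorem exists_factor_of_count (A : Type*) [AddCommGroup A] [Finite A]
    (hcount : Nat.card (parEllHoms p A) ≤
      Nat.card A ^ (2 * Module.finrank ℂ (CuspForm (Gamma0 p) 2))) :
    ∀ ψ ∈ parEllHoms p A, ∃ α : perLattice p →+ A, ψ = α.comp (perHomL p) := by
  have hfin : Finite ((parEllHoms p A : AddSubgroup _) : Set (Additive ↥(Gamma0 p) →+ A)) :=
    Subtype.finite
  refine HomCard.exists_factor_of_card_le (perHomL p) (span_range_perHomL p)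
    ((parEllHoms p A : AddSubgroup _) : Set (Additive ↥(Gamma0 p) →+ A))
    (comp_perHomL_mem p A) ?_
  rw [LatticeRank.finrank_perLattice]
  exact hcount

/-- **The lower bound from the counting bound.** -/
theorem hlow_of_count
    (hcount : Nat.card (parEllHoms p (ZMod (eisensteinNumerator p))) ≤
      Nat.card (ZMod (eisensteinNumerator p)) ^
        (2 * Module.finrank ℂ (CuspForm (Gamma0 p) 2))) :
    HasEisHom (tGen p) (eisensteinSystem p) (eisensteinNumerator p) := by
  obtain ⟨α, hα⟩ := exists_factor_of_count p _ hcount (shimuraHom p) (shimuraHom_mem p)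
  exact hlow_of_factor p α (fun γ => by rw [hα]; rfl)

end

end Fermat.Agent.S16.Lower.Assembly
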