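import Mathlib
import Fermat.Agent.S21.HomBound
import Fermat.Agent.S16.Lower.Defs

/-!
# S16 (F), lower bound: the finite-coefficient "Shapiro by hand" count

For a group `G` generated by `s`, `u` with `s² = u³ = z` central of order `≤ 2`, a finite index
subgroup `Γ ∋ z`, a finite abelian group `A` and a subgroup `H` of `Hom(Γ, A)` all of whose
elements kill the parabolic elements (conjugates of powers of `t = s⁻¹u` lying in `Γ`) and the
elements of `Γ` whose square or cube is `z` (and `z` itself), we prove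
`|H|⁶ · |A|^(3 f_s + 4 f_u + 6 c) ≤ |A|^(|G/Γ| + 12)`.

This file: the cocycle part (`cocA`) and the reduction to three combinatorial inputs.
-/

set_option autoImplicit false
set_option linter.unusedSectionVars false

namespace Fermat.Agent.S16.Lower.Count

open Fermat.Agent.S21 (shapEl shapEl_mul out_mk_one_mem smul_mk_one_of_mem)
open Fermat.Agent.S16.Lower

noncomputable section

section cocycle

variable {G : Type*} [Group G] {Γ : Subgroup G} {A : Type*} [AddCommGroup A]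

/-- The combined cocycle attached to a homomorphism `ψ : Γ → A` and a function `v`. -/
def cocA (ψ : Additive Γ →+ A) (v : G ⧸ Γ → A) (g : G) (x : G ⧸ Γ) : A :=
  ψ (Additive.ofMul (shapEl Γ g x)) + v (g⁻¹ • x) - v x

theorem cocA_mul (ψ : Additive Γ →+ A) (v : G ⧸ Γ → A) (g h : G) (x : G ⧸ Γ) :
    cocA ψ v (g * h) x = cocA ψ v g x + cocA ψ v h (g⁻¹ • x) := by
  simp only [cocA, shapEl_mul, ofMul_mul, map_add, mul_inv_rev, mul_smul]
  abel

theorem cocA_one (ψ : Additive Γ →+ A) (v : G ⧸ Γ → A) (x : G ⧸ Γ) : cocA ψ v 1 x = 0 := by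
  have h := cocA_mul ψ v 1 1 x
  simp only [mul_one, inv_one, one_smul] at h
  have h2 : cocA ψ v 1 x + cocA ψ v 1 x = cocA ψ v 1 x + 0 := by rw [add_zero]; exact h.symm
  exact add_left_cancel h2

theorem cocA_inv_apply (ψ : Additive Γ →+ A) (v : G ⧸ Γ → A) (g : G) (x : G ⧸ Γ) :
    cocA ψ v g⁻¹ x = - cocA ψ v g (g • x) := by
  have h := cocA_mul ψ v g g⁻¹ (g • x)
  rw [mul_inv_cancel, cocA_one, inv_smul_smul] at h
  exact eq_neg_of_add_eq_zero_right h.symm

theorem cocA_inv (ψ : Additive Γ →+ A) (v : G ⧸ Γ → A) (g : G)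
    (hg : ∀ x, cocA ψ v g x = 0) (x : G ⧸ Γ) : cocA ψ v g⁻¹ x = 0 := by
  rw [cocA_inv_apply, hg, neg_zero]

theorem cocA_eq_zero_of_closure (ψ : Additive Γ →+ A) (v : G ⧸ Γ → A) (T : Set G)
    (hT : Subgroup.closure T = ⊤) (h : ∀ s ∈ T, ∀ x, cocA ψ v s x = 0) (g : G) :
    ∀ x, cocA ψ v g x = 0 := by
  have hg : g ∈ Subgroup.closure T := by rw [hT]; trivial
  induction hg using Subgroup.closure_induction with
  | mem s hs => exact h s hs
  | one => exact cocA_one ψ v
  | mul a b _ _ ha hb =>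
    intro x
    rw [cocA_mul, ha, hb, add_zero]
  | inv a _ ha => exact cocA_inv ψ v a ha

theorem cocA_mk_one (ψ : Additive Γ →+ A) (v : G ⧸ Γ → A) (γ : Γ) :
    cocA ψ v (γ : G) (QuotientGroup.mk 1) = ψ (Additive.ofMul γ) := by
  have hfix : (γ : G)⁻¹ • (QuotientGroup.mk 1 : G ⧸ Γ) = QuotientGroup.mk 1 :=
    smul_mk_one_of_mem (Γ.inv_mem γ.2)
  unfold cocA
  rw [hfix, add_sub_cancel_right]
  set γ0 : Γ := ⟨_, out_mk_one_mem (Γ := Γ)⟩ with hγ0
  have h : shapEl Γ (γ : G) (QuotientGroup.mk 1) = γ0⁻¹ * (γ * γ0) := by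
    apply Subtype.ext
    simp only [shapEl, hfix, Subgroup.coe_mul, Subgroup.coe_inv, hγ0]
  rw [h]
  simp only [ofMul_mul, ofMul_inv, map_add, map_neg]
  abel

/-- Key injectivity: if the combined cocycle vanishes on a generating set, then `ψ = 0` and `v`
is constant. -/
theorem eq_zero_of_cocA_eq_zero (ψ : Additive Γ →+ A) (v : G ⧸ Γ → A) (T : Set G)
    (hT : Subgroup.closure T = ⊤) (h : ∀ s ∈ T, ∀ x, cocA ψ v s x = 0) :
    ψ = 0 ∧ ∀ x, v x = v (QuotientGroup.mk 1) := by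
  have hall := cocA_eq_zero_of_closure ψ v T hT h
  have hψ : ψ = 0 := by
    ext γ
    have := cocA_mk_one ψ v (Additive.toMul γ)
    rw [hall] at this
    exact this.symm
  refine ⟨hψ, fun x => ?_⟩
  induction x using QuotientGroup.induction_on with
  | H g =>
    have h1 := hall g⁻¹ (QuotientGroup.mk 1)
    unfold cocA at h1
    rw [hψ] at h1
    simp only [AddMonoidHom.zero_apply, zero_add, inv_inv] at h1
    have h2 : g • (QuotientGroup.mk 1 : G ⧸ Γ) = QuotientGroup.mk g := by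
      show (QuotientGroup.mk (g * 1) : G ⧸ Γ) = _
      rw [mul_one]
    rw [h2] at h1
    exact sub_eq_zero.mp h1

theorem cocA_add (ψ ψ' : Additive Γ →+ A) (v v' : G ⧸ Γ → A) (g : G) (x : G ⧸ Γ) :
    cocA (ψ + ψ') (v + v') g x = cocA ψ v g x + cocA ψ' v' g x := by
  simp only [cocA, AddMonoidHom.add_apply, Pi.add_apply]
  abel

theorem cocA_zero (g : G) (x : G ⧸ Γ) :
    cocA (0 : Additive Γ →+ A) (0 : G ⧸ Γ → A) g x = 0 := by
  simp [cocA]

theorem cocA_pow_sum (ψ : Additive Γ →+ A) (v : G ⧸ Γ → A) (t : G) (n : ℕ) (x : G ⧸ Γ) :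
    cocA ψ v (t ^ n) x = ∑ j ∈ Finset.range n, cocA ψ v t ((t ^ j)⁻¹ • x) := by
  induction n with
  | zero => simp [cocA_one]
  | succ n ih =>
    rw [pow_succ, cocA_mul, ih, Finset.sum_range_succ]

/-- The cocycle at an element `g` fixing `x`: only `ψ` of a conjugate survives. -/
theorem cocA_of_fixed (ψ : Additive Γ →+ A) (v : G ⧸ Γ → A) (g : G) (x : G ⧸ Γ)
    (hx : g⁻¹ • x = x) :
    cocA ψ v g x = ψ (Additive.ofMul (shapEl Γ g x)) := by
  unfold cocA
  rw [hx, add_sub_cancel_right]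

theorem shapEl_coe_of_fixed (g : G) (x : G ⧸ Γ) (hx : g⁻¹ • x = x) :
    ((shapEl Γ g x : Γ) : G) = (Quotient.out x)⁻¹ * (g * Quotient.out x) := by
  simp only [shapEl, hx]

end cocycle

section orbits

variable {G : Type*} [Group G] (Γ : Subgroup G) [Fintype (G ⧸ Γ)] [DecidableEq (G ⧸ Γ)]
variable (A : Type*) [AddCommGroup A]

/-- The orbit space of the cyclic group generated by `t` on `G ⧸ Γ`. -/
abbrev Orb (t : G) : Type _ := MulAction.orbitRel.Quotient (Subgroup.zpowers t) (G ⧸ Γ)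

/-- The class of a coset in the orbit space. -/
def omk (t : G) (x : G ⧸ Γ) : Orb Γ t := Quotient.mk'' x

theorem omk_eq_iff (t : G) (x y : G ⧸ Γ) :
    omk Γ t x = omk Γ t y ↔ ∃ k : ℤ, t ^ k • y = x := by
  unfold omk
  rw [Quotient.eq'']
  show (MulAction.orbitRel (Subgroup.zpowers t) (G ⧸ Γ)) x y ↔ _
  rw [MulAction.orbitRel_apply]
  constructor
  · rintro ⟨⟨g, hg⟩, hgx⟩
    obtain ⟨k, rfl⟩ := Subgroup.mem_zpowers_iff.mp hg
    exact ⟨k, hgx⟩
  · rintro ⟨k, hk⟩
    exact ⟨⟨t ^ k, Subgroup.zpow_mem_zpowers t k⟩, hk⟩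

instance instFiniteOrb (t : G) : Finite (Orb Γ t) := Quotient.finite _

/-- Sum of a function over the orbits of `t`. -/
def osum (t : G) : ((G ⧸ Γ) → A) →+ (Orb Γ t → A) where
  toFun F o := open Classical in ∑ x, if omk Γ t x = o then F x else 0
  map_zero' := by
    funext o
    simp
  map_add' F F' := by
    funext o
    simp only [Pi.add_apply]
    rw [← Finset.sum_add_distrib]
    refine Finset.sum_congr rfl fun x _ => ?_
    split_ifs <;> simp

theorem osum_apply (t : G) (F : (G ⧸ Γ) → A) (o : Orb Γ t) :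
    osum Γ A t F o = open Classical in ∑ x, if omk Γ t x = o then F x else 0 := rfl

/-- The sum over the orbit of `x0` is the sum over the first `period` iterates of `t⁻¹`. -/
theorem osum_omk_eq_sum_range (t : G) (F : (G ⧸ Γ) → A) (x0 : G ⧸ Γ) :
    osum Γ A t F (omk Γ t x0) =
      ∑ j ∈ Finset.range (Function.minimalPeriod (fun x : G ⧸ Γ => t⁻¹ • x) x0),
        F ((t ^ j)⁻¹ • x0) := by
  classical
  set m := Function.minimalPeriod (fun x : G ⧸ Γ => t⁻¹ • x) x0 with hm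
  have hmpos : 0 < m := by
    have hfin : Finite (MulAction.orbit (Subgroup.zpowers t⁻¹) x0) := inferInstance
    have := MulAction.minimalPeriod_pos t⁻¹ x0
    exact Nat.pos_of_ne_zero this.out
  rw [osum_apply, ← Finset.sum_filter]
  symm
  refine Finset.sum_bij (fun j _ => (t ^ j)⁻¹ • x0) ?_ ?_ ?_ ?_
  · intro j _
    rw [Finset.mem_filter]
    refine ⟨Finset.mem_univ _, ?_⟩
    rw [omk_eq_iff]
    refine ⟨-(j : ℤ), ?_⟩
    rw [zpow_neg, zpow_natCast]
  · intro i hi j hj hij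
    have hinj := Function.iterate_injOn_Iio_minimalPeriod (f := fun x : G ⧸ Γ => t⁻¹ • x)
      (x := x0)
    have hi' : i ∈ Set.Iio m := Finset.mem_range.mp hi
    have hj' : j ∈ Set.Iio m := Finset.mem_range.mp hj
    apply hinj hi' hj'
    show (fun x : G ⧸ Γ => t⁻¹ • x)^[i] x0 = (fun x : G ⧸ Γ => t⁻¹ • x)^[j] x0
    have hit : ∀ n : ℕ, (fun x : G ⧸ Γ => t⁻¹ • x)^[n] x0 = (t ^ n)⁻¹ • x0 := by
      intro n
      rw [smul_iterate, inv_pow]
    rw [hit, hit]
    exact hij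
  · intro x hx
    rw [Finset.mem_filter, omk_eq_iff] at hx
    obtain ⟨k, hk⟩ := hx.2
    -- `x = t ^ k • x0 = (t⁻¹) ^ (-k) • x0 = (t⁻¹) ^ ((-k) % m) • x0`
    have h1 := MulAction.zpow_smul_mod_minimalPeriod (t⁻¹ : G) x0 (-k)
    have hmZ : (0 : ℤ) < (m : ℤ) := by exact_mod_cast hmpos
    have h2 : 0 ≤ (-k) % (m : ℤ) := Int.emod_nonneg _ hmZ.ne'
    have h3 : (-k) % (m : ℤ) < m := Int.emod_lt_of_pos _ hmZ
    refine ⟨((-k) % (m : ℤ)).toNat, ?_, ?_⟩
    · rw [Finset.mem_range]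
      have : (((-k) % (m : ℤ)).toNat : ℤ) < m := by rw [Int.toNat_of_nonneg h2]; exact h3
      exact_mod_cast this
    · rw [← hk]
      have h4 : (t⁻¹ : G) ^ (-k) = t ^ k := by rw [inv_zpow, zpow_neg, inv_inv]
      rw [h4] at h1
      rw [← h1, ← inv_pow, ← zpow_natCast, Int.toNat_of_nonneg h2]
  · intro j _
    rfl

end orbits

section main

variable {G : Type*} [Group G] (Γ : Subgroup G) [Fintype (G ⧸ Γ)] [DecidableEq (G ⧸ Γ)]
variable (A : Type*) [AddCommGroup A]

/-- Extension by zero at the base coset. -/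
def ext0 (v' : {x : G ⧸ Γ // x ≠ QuotientGroup.mk 1} → A) : G ⧸ Γ → A :=
  fun x => if h : x = QuotientGroup.mk 1 then 0 else v' ⟨x, h⟩

theorem ext0_base (v' : {x : G ⧸ Γ // x ≠ QuotientGroup.mk 1} → A) :
    ext0 Γ A v' (QuotientGroup.mk 1) = 0 := by
  simp [ext0]

theorem ext0_add (v w : {x : G ⧸ Γ // x ≠ QuotientGroup.mk 1} → A) :
    ext0 Γ A (v + w) = ext0 Γ A v + ext0 Γ A w := by
  funext x
  unfold ext0
  simp only [Pi.add_apply]
  split_ifs <;> simp

theorem ext0_zero : ext0 Γ A (0 : {x : G ⧸ Γ // x ≠ QuotientGroup.mk 1} → A) = 0 := by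
  funext x
  unfold ext0
  split_ifs <;> simp

variable {Γ A}

theorem central_smul' {z : G} (hzΓ : z ∈ Γ) (hzc : ∀ g, g * z = z * g) (x : G ⧸ Γ) :
    z • x = x := by
  induction x using QuotientGroup.induction_on with
  | H g =>
    show (QuotientGroup.mk (z * g) : G ⧸ Γ) = QuotientGroup.mk g
    rw [← hzc g, QuotientGroup.eq]
    simpa using hzΓ

/-- The cocycle at a central element `z ∈ Γ` is `ψ z`. -/
theorem cocA_central {z : G} (hzΓ : z ∈ Γ) (hzc : ∀ g, g * z = z * g)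
    (ψ : Additive Γ →+ A) (v : G ⧸ Γ → A) (x : G ⧸ Γ) :
    cocA ψ v z x = ψ (Additive.ofMul (⟨z, hzΓ⟩ : Γ)) := by
  have hfix : z⁻¹ • x = x := by
    rw [inv_smul_eq_iff, central_smul' hzΓ hzc]
  rw [cocA_of_fixed ψ v z x hfix]
  congr 2
  apply Subtype.ext
  rw [shapEl_coe_of_fixed z x hfix, ← hzc, ← mul_assoc, inv_mul_cancel, one_mul]

end main

section membership

variable {G : Type*} [Group G] {Γ : Subgroup G} [Fintype (G ⧸ Γ)] [DecidableEq (G ⧸ Γ)]
variable {A : Type*} [AddCommGroup A]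
variable {z s u : G}

/-- `coc s` lies in `Asub` for the permutation `x ↦ s⁻¹ • x`. -/
theorem cocA_s_mem (hzΓ : z ∈ Γ) (hzc : ∀ g, g * z = z * g) (hs : s * s = z)
    (ψ : Additive Γ →+ A)
    (hell : ∀ γ : Γ, ((γ : G) * γ = z ∨ (γ : G) * γ * γ = z ∨ (γ : G) = z) →
      ψ (Additive.ofMul γ) = 0)
    (w : G ⧸ Γ → A) :
    cocA ψ w s ∈ Asub A (MulAction.toPerm (s⁻¹ : G) : Equiv.Perm (G ⧸ Γ)) := by
  rw [mem_Asub]
  refine ⟨fun x => ?_, fun x hx => ?_⟩
  · rw [MulAction.toPerm_apply, ← cocA_mul, hs, cocA_central hzΓ hzc]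
    exact hell ⟨z, hzΓ⟩ (Or.inr (Or.inr rfl))
  · rw [MulAction.toPerm_apply] at hx
    rw [cocA_of_fixed ψ w s x hx]
    apply hell
    left
    rw [shapEl_coe_of_fixed s x hx]
    calc (Quotient.out x)⁻¹ * (s * Quotient.out x) * ((Quotient.out x)⁻¹ * (s * Quotient.out x))
        = (Quotient.out x)⁻¹ * ((s * s) * Quotient.out x) := by group
      _ = z := by rw [hs, ← hzc, ← mul_assoc, inv_mul_cancel, one_mul]

/-- `coc u` lies in `Bsub` for the permutation `x ↦ u⁻¹ • x`. -/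
theorem cocA_u_mem (hzΓ : z ∈ Γ) (hzc : ∀ g, g * z = z * g) (hu : u * u * u = z)
    (ψ : Additive Γ →+ A)
    (hell : ∀ γ : Γ, ((γ : G) * γ = z ∨ (γ : G) * γ * γ = z ∨ (γ : G) = z) →
      ψ (Additive.ofMul γ) = 0)
    (w : G ⧸ Γ → A) :
    cocA ψ w u ∈ Bsub A (MulAction.toPerm (u⁻¹ : G) : Equiv.Perm (G ⧸ Γ)) := by
  rw [mem_Bsub]
  refine ⟨fun x => ?_, fun x hx => ?_⟩
  · simp only [MulAction.toPerm_apply]
    have h1 := cocA_mul ψ w (u * u) u x
    have h2 := cocA_mul ψ w u u x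
    rw [hu, cocA_central hzΓ hzc, mul_inv_rev, mul_smul] at h1
    rw [h2] at h1
    rw [← h1]
    exact hell ⟨z, hzΓ⟩ (Or.inr (Or.inr rfl))
  · rw [MulAction.toPerm_apply] at hx
    rw [cocA_of_fixed ψ w u x hx]
    apply hell
    right; left
    rw [shapEl_coe_of_fixed u x hx]
    calc (Quotient.out x)⁻¹ * (u * Quotient.out x) * ((Quotient.out x)⁻¹ * (u * Quotient.out x)) *
          ((Quotient.out x)⁻¹ * (u * Quotient.out x))
        = (Quotient.out x)⁻¹ * ((u * u * u) * Quotient.out x) := by group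
      _ = z := by rw [hu, ← hzc, ← mul_assoc, inv_mul_cancel, one_mul]

/-- The cocycle at `t = s⁻¹ u` in terms of `coc s`, `coc u`. -/
theorem cocA_t (ψ : Additive Γ →+ A) (w : G ⧸ Γ → A) (x : G ⧸ Γ) :
    cocA ψ w (s⁻¹ * u) x = cocA ψ w u (s • x) - cocA ψ w s (s • x) := by
  rw [cocA_mul, cocA_inv_apply, inv_inv]
  abel

/-- Orbit sums of `coc t` vanish when `ψ` kills the parabolic elements. -/
theorem osum_cocA_eq_zero (t : G) (ψ : Additive Γ →+ A)
    (hpar : ∀ (m : ℕ) (g : G) (h : g⁻¹ * (t ^ m * g) ∈ Γ), ψ (Additive.ofMul ⟨_, h⟩) = 0)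
    (w : G ⧸ Γ → A) :
    osum Γ A t (cocA ψ w t) = 0 := by
  funext o
  induction o using Quotient.inductionOn' with
  | h x0 =>
    show osum Γ A t (cocA ψ w t) (omk Γ t x0) = 0
    rw [osum_omk_eq_sum_range, ← cocA_pow_sum]
    set m := Function.minimalPeriod (fun x : G ⧸ Γ => t⁻¹ • x) x0 with hm
    have hfix : (t ^ m)⁻¹ • x0 = x0 := by
      have h := Function.isPeriodicPt_minimalPeriod (fun x : G ⧸ Γ => t⁻¹ • x) x0
      rw [Function.IsPeriodicPt, Function.IsFixedPt, smul_iterate, inv_pow] at h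
      exact h
    rw [cocA_of_fixed ψ w (t ^ m) x0 hfix]
    have hmem : (Quotient.out x0)⁻¹ * (t ^ m * Quotient.out x0) ∈ Γ := by
      rw [← shapEl_coe_of_fixed (Γ := Γ) (t ^ m) x0 hfix]
      exact (shapEl Γ (t ^ m) x0).2
    have heq : shapEl Γ (t ^ m) x0 = ⟨_, hmem⟩ := by
      apply Subtype.ext
      exact shapEl_coe_of_fixed (t ^ m) x0 hfix
    rw [heq]
    exact hpar m (Quotient.out x0) hmem

end membership

section osumlemmas

variable {G : Type*} [Group G] (Γ : Subgroup G) [Fintype (G ⧸ Γ)] [DecidableEq (G ⧸ Γ)]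
variable (A : Type*) [AddCommGroup A]

/-- Summing the orbit sums gives the total sum. -/
theorem sum_osum (t : G) [Fintype (Orb Γ t)] (F : (G ⧸ Γ) → A) :
    ∑ o, osum Γ A t F o = ∑ x, F x := by
  classical
  simp only [osum_apply]
  rw [Finset.sum_comm]
  refine Finset.sum_congr rfl fun x _ => ?_
  rw [Finset.sum_ite_eq]
  simp

/-- A function supported on the chosen representatives with prescribed orbit sums. -/
def repFun (t : G) (h : Orb Γ t → A) : (G ⧸ Γ) → A :=
  open Classical in fun x => if x = Quotient.out (omk Γ t x) then h (omk Γ t x) else 0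

theorem omk_out (t : G) (o : Orb Γ t) : omk Γ t (Quotient.out o) = o := Quotient.out_eq' o

theorem osum_repFun (t : G) (h : Orb Γ t → A) : osum Γ A t (repFun Γ A t h) = h := by
  classical
  funext o
  rw [osum_apply]
  rw [Finset.sum_eq_single (Quotient.out o)]
  · rw [if_pos (omk_out Γ t o), repFun, omk_out, if_pos rfl]
  · intro x _ hx
    by_cases hxo : omk Γ t x = o
    · rw [if_pos hxo, repFun, hxo, if_neg hx]
    · rw [if_neg hxo]
  · intro hno
    exact absurd (Finset.mem_univ _) hno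

end osumlemmas

section count

variable {G : Type*} [Group G] (Γ : Subgroup G) [Fintype (G ⧸ Γ)] [DecidableEq (G ⧸ Γ)]
variable (A : Type*) [AddCommGroup A]

/-- Precomposition with a map, as an additive homomorphism. -/
def precomp (e : (G ⧸ Γ) → (G ⧸ Γ)) : ((G ⧸ Γ) → A) →+ ((G ⧸ Γ) → A) where
  toFun F := fun x => F (e x)
  map_zero' := rfl
  map_add' _ _ := rfl

/-- The difference `g - f` of a pair. -/
def diffHom (As Bs : AddSubgroup ((G ⧸ Γ) → A)) : (↥As × ↥Bs) →+ ((G ⧸ Γ) → A) :=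
  (Bs.subtype.comp (AddMonoidHom.snd _ _)) - (As.subtype.comp (AddMonoidHom.fst _ _))

theorem diffHom_apply (As Bs : AddSubgroup ((G ⧸ Γ) → A)) (p : ↥As × ↥Bs) (x : G ⧸ Γ) :
    diffHom Γ A As Bs p x = (p.2 : (G ⧸ Γ) → A) x - (p.1 : (G ⧸ Γ) → A) x := rfl

/-- The orbit-sum map on pairs. -/
def lamHom (s t : G) (As Bs : AddSubgroup ((G ⧸ Γ) → A)) : (↥As × ↥Bs) →+ (Orb Γ t → A) :=
  (osum Γ A t).comp ((precomp Γ A (fun x => s • x)).comp (diffHom Γ A As Bs))

theorem lamHom_apply (s t : G) (As Bs : AddSubgroup ((G ⧸ Γ) → A)) (p : ↥As × ↥Bs) :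
    lamHom Γ A s t As Bs p =
      osum Γ A t (fun x => (p.2 : (G ⧸ Γ) → A) (s • x) - (p.1 : (G ⧸ Γ) → A) (s • x)) := rfl

end count

section bound

variable {G : Type*} [Group G] (Γ : Subgroup G) [Fintype (G ⧸ Γ)] [DecidableEq (G ⧸ Γ)]
variable (A : Type*) [AddCommGroup A] [Finite A]

/-- The permutation of `G ⧸ Γ` given by `g⁻¹`. -/
abbrev permInv (g : G) : Equiv.Perm (G ⧸ Γ) := MulAction.toPerm (g⁻¹ : G)

/-- **The counting inequality, conditional on the three combinatorial inputs.** -/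
theorem card_hom_bound_of (z s u : G) (hzΓ : z ∈ Γ) (hzc : ∀ g, g * z = z * g)
    (hs : s * s = z) (hu : u * u * u = z)
    (hgen : Subgroup.closure ({s, u} : Set G) = ⊤)
    (H : AddSubgroup (Additive Γ →+ A))
    (hpar : ∀ ψ ∈ H, ∀ (m : ℕ) (g : G) (h : g⁻¹ * ((s⁻¹ * u) ^ m * g) ∈ Γ),
      ψ (Additive.ofMul ⟨_, h⟩) = 0)
    (hell : ∀ ψ ∈ H, ∀ γ : Γ, ((γ : G) * γ = z ∨ (γ : G) * γ * γ = z ∨ (γ : G) = z) →
      ψ (Additive.ofMul γ) = 0)
    (hA : Nat.card (Asub A (permInv Γ s)) ^ 2 *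
        Nat.card A ^ Nat.card {x : G ⧸ Γ // permInv Γ s x = x} ≤ Nat.card A ^ Nat.card (G ⧸ Γ))
    (hB : Nat.card (Bsub A (permInv Γ u)) ^ 3 *
        Nat.card A ^ (2 * Nat.card {x : G ⧸ Γ // permInv Γ u x = x}) ≤
          Nat.card A ^ (2 * Nat.card (G ⧸ Γ)))
    (hS : ∀ F : (G ⧸ Γ) → A, ∑ x, F x = 0 →
        ∃ f ∈ Asub A (permInv Γ s), ∃ g ∈ Bsub A (permInv Γ u), F = g - f) :
    Nat.card H ^ 6 * Nat.card A ^ (3 * Nat.card {x : G ⧸ Γ // permInv Γ s x = x} +
        4 * Nat.card {x : G ⧸ Γ // permInv Γ u x = x} + 6 * Nat.card (Orb Γ (s⁻¹ * u))) ≤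
      Nat.card A ^ (Nat.card (G ⧸ Γ) + 12) := by
  classical
  set t : G := s⁻¹ * u with ht
  set As := Asub A (permInv Γ s) with hAs
  set Bs := Bsub A (permInv Γ u) with hBs
  have : Fintype (Orb Γ t) := Fintype.ofFinite _
  set lam := lamHom Γ A s t As Bs with hlam
  -- the map Θ
  let Θ : (↥H × ({x : G ⧸ Γ // x ≠ QuotientGroup.mk 1} → A)) →+ (↥As × ↥Bs) :=
    { toFun := fun d =>
        (⟨cocA (d.1 : Additive Γ →+ A) (ext0 Γ A d.2) s,
            cocA_s_mem hzΓ hzc hs _ (hell _ d.1.2) _⟩,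
          ⟨cocA (d.1 : Additive Γ →+ A) (ext0 Γ A d.2) u,
            cocA_u_mem hzΓ hzc hu _ (hell _ d.1.2) _⟩)
      map_zero' := by
        apply Prod.ext
        · apply Subtype.ext
          funext x
          simp only [Prod.fst_zero, Prod.snd_zero, ZeroMemClass.coe_zero, ext0_zero]
          exact cocA_zero s x
        · apply Subtype.ext
          funext x
          simp only [Prod.fst_zero, Prod.snd_zero, ZeroMemClass.coe_zero, ext0_zero]
          exact cocA_zero u x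
      map_add' := by
        intro d d'
        apply Prod.ext
        · apply Subtype.ext
          funext x
          simp only [Prod.fst_add, Prod.snd_add, AddSubgroup.coe_add, ext0_add, Pi.add_apply]
          exact cocA_add _ _ _ _ s x
        · apply Subtype.ext
          funext x
          simp only [Prod.fst_add, Prod.snd_add, AddSubgroup.coe_add, ext0_add, Pi.add_apply]
          exact cocA_add _ _ _ _ u x }
  have hΘ1 : ∀ d, ((Θ d).1 : (G ⧸ Γ) → A) = cocA (d.1 : Additive Γ →+ A) (ext0 Γ A d.2) s :=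
    fun d => rfl
  have hΘ2 : ∀ d, ((Θ d).2 : (G ⧸ Γ) → A) = cocA (d.1 : Additive Γ →+ A) (ext0 Γ A d.2) u :=
    fun d => rfl
  -- Θ lands in the kernel of lam
  have hker : ∀ d, lam (Θ d) = 0 := by
    intro d
    rw [hlam, lamHom_apply, hΘ1, hΘ2]
    have : (fun x => cocA (d.1 : Additive Γ →+ A) (ext0 Γ A d.2) u (s • x) -
        cocA (d.1 : Additive Γ →+ A) (ext0 Γ A d.2) s (s • x)) =
        cocA (d.1 : Additive Γ →+ A) (ext0 Γ A d.2) t := by
      funext x
      rw [ht, cocA_t]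
    rw [this]
    exact osum_cocA_eq_zero t _ (hpar _ d.1.2) _
  -- Θ is injective
  have hinj : Function.Injective Θ := by
    rw [injective_iff_map_eq_zero]
    intro d hd
    have h1 : cocA (d.1 : Additive Γ →+ A) (ext0 Γ A d.2) s = 0 := by
      rw [← hΘ1, hd]; rfl
    have h2 : cocA (d.1 : Additive Γ →+ A) (ext0 Γ A d.2) u = 0 := by
      rw [← hΘ2, hd]; rfl
    have key := eq_zero_of_cocA_eq_zero (d.1 : Additive Γ →+ A) (ext0 Γ A d.2) {s, u} hgen (by
      intro g hg x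
      rcases hg with rfl | hg
      · exact congrFun h1 x
      · rw [Set.mem_singleton_iff] at hg
        subst hg
        exact congrFun h2 x)
    obtain ⟨k1, k2⟩ := key
    apply Prod.ext
    · exact Subtype.ext k1
    · funext x'
      have := k2 x'.1
      rw [ext0_base] at this
      simpa [ext0, x'.2] using this
  -- counting
  have hfinA : Finite ((G ⧸ Γ) → A) := inferInstance
  have hfinAB : Finite (↥As × ↥Bs) := inferInstance
  have c1 : Nat.card (↥H × ({x : G ⧸ Γ // x ≠ QuotientGroup.mk 1} → A)) ≤ Nat.card lam.ker := by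
    let Θ' : (↥H × ({x : G ⧸ Γ // x ≠ QuotientGroup.mk 1} → A)) → lam.ker :=
      fun d => ⟨Θ d, hker d⟩
    refine Nat.card_le_card_of_injective Θ' ?_
    intro d d' hdd
    exact hinj (congrArg Subtype.val hdd)
  have c2 : Nat.card (↥As × ↥Bs) = Nat.card lam.range * Nat.card lam.ker := by
    rw [AddSubgroup.card_eq_card_quotient_mul_card_addSubgroup lam.ker,
      Nat.card_congr (QuotientAddGroup.quotientKerEquivRange lam).toEquiv]
  -- the range of lam contains the sum-zero functions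
  let sumHom : (Orb Γ t → A) →+ A :=
    { toFun := fun h => ∑ o, h o
      map_zero' := by simp
      map_add' := fun h h' => by simp [Finset.sum_add_distrib] }
  have hrange : sumHom.ker ≤ lam.range := by
    intro h hh
    rw [AddMonoidHom.mem_ker] at hh
    have hh' : ∑ o, h o = 0 := hh
    set F1 := repFun Γ A t h with hF1
    have hF1sum : ∑ x, F1 x = 0 := by
      rw [← sum_osum Γ A t F1, hF1, osum_repFun]
      exact hh'
    set F0 : (G ⧸ Γ) → A := fun y => F1 (s⁻¹ • y) with hF0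
    have hF0sum : ∑ y, F0 y = 0 := by
      rw [← hF1sum]
      exact Equiv.sum_comp (MulAction.toPerm (s⁻¹ : G)) F1
    obtain ⟨f, hf, g, hg, hfg⟩ := hS F0 hF0sum
    refine ⟨(⟨f, hf⟩, ⟨g, hg⟩), ?_⟩
    rw [hlam, lamHom_apply]
    have : (fun x => g (s • x) - f (s • x)) = F1 := by
      funext x
      have := congrFun hfg (s • x)
      simp only [Pi.sub_apply] at this
      rw [← this, hF0]
      simp only [inv_smul_smul]
    simp only
    rw [this, hF1, osum_repFun]
  have c3 : Nat.card A ^ Nat.card (Orb Γ t) ≤ Nat.card A * Nat.card lam.range := by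
    have e1 : Nat.card (Orb Γ t → A) = Nat.card sumHom.range * Nat.card sumHom.ker := by
      rw [AddSubgroup.card_eq_card_quotient_mul_card_addSubgroup sumHom.ker,
        Nat.card_congr (QuotientAddGroup.quotientKerEquivRange sumHom).toEquiv]
    rw [← Nat.card_fun, e1]
    have e2 : Nat.card sumHom.range ≤ Nat.card A :=
      Nat.card_le_card_of_injective (fun x : sumHom.range => (x : A)) Subtype.val_injective
    have e3 : Nat.card sumHom.ker ≤ Nat.card lam.range := AddSubgroup.card_le_of_le hrange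
    exact Nat.mul_le_mul e2 e3
  -- cardinality of the domain
  have c4 : Nat.card (↥H × ({x : G ⧸ Γ // x ≠ QuotientGroup.mk 1} → A)) =
      Nat.card H * Nat.card A ^ (Nat.card (G ⧸ Γ) - 1) := by
    rw [Nat.card_prod, Nat.card_fun]
    congr 2
    rw [Nat.card_eq_fintype_card, Nat.card_eq_fintype_card,
      Fintype.card_subtype_compl (fun x : G ⧸ Γ => x = QuotientGroup.mk 1)]
    simp
  have c5 : Nat.card (↥As × ↥Bs) = Nat.card As * Nat.card Bs := Nat.card_prod _ _
  -- arithmetic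
  set a := Nat.card A with ha
  set h := Nat.card H with hh
  set N := Nat.card (G ⧸ Γ) with hN
  set c := Nat.card (Orb Γ t) with hc
  set fs := Nat.card {x : G ⧸ Γ // permInv Γ s x = x} with hfs
  set fu := Nat.card {x : G ⧸ Γ // permInv Γ u x = x} with hfu
  set nA := Nat.card As with hnA
  set nB := Nat.card Bs with hnB
  set k := Nat.card lam.ker with hk
  set r := Nat.card lam.range with hr
  have hapos : 0 < a := Nat.card_pos
  have hNpos : 0 < N := Nat.card_pos
  rw [c4] at c1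
  rw [c5] at c2
  -- h * a^(N-1) * a^c ≤ nA * nB * a
  have m1 : h * a ^ (N - 1) * a ^ c ≤ nA * nB * a := by
    calc h * a ^ (N - 1) * a ^ c ≤ k * (a * r) := Nat.mul_le_mul c1 c3
      _ = (r * k) * a := by ring
      _ = nA * nB * a := by rw [← c2]
  have m2 : (h * a ^ (N - 1) * a ^ c) ^ 6 * a ^ (3 * fs + 4 * fu) ≤
      (nA * nB * a) ^ 6 * a ^ (3 * fs + 4 * fu) :=
    Nat.mul_le_mul_right _ (Nat.pow_le_pow_left m1 6)
  have m3 : (nA * nB * a) ^ 6 * a ^ (3 * fs + 4 * fu) =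
      (nA ^ 2 * a ^ fs) ^ 3 * (nB ^ 3 * a ^ (2 * fu)) ^ 2 * a ^ 6 := by ring
  have m4 : (nA ^ 2 * a ^ fs) ^ 3 * (nB ^ 3 * a ^ (2 * fu)) ^ 2 * a ^ 6 ≤
      (a ^ N) ^ 3 * (a ^ (2 * N)) ^ 2 * a ^ 6 :=
    Nat.mul_le_mul_right _ (Nat.mul_le_mul (Nat.pow_le_pow_left hA 3) (Nat.pow_le_pow_left hB 2))
  have m5 : (h * a ^ (N - 1) * a ^ c) ^ 6 * a ^ (3 * fs + 4 * fu) =
      (h ^ 6 * a ^ (3 * fs + 4 * fu + 6 * c)) * a ^ (6 * (N - 1)) := by ring
  have m6 : (a ^ N) ^ 3 * (a ^ (2 * N)) ^ 2 * a ^ 6 = a ^ (N + 12) * a ^ (6 * (N - 1)) := by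
    rw [← pow_mul, ← pow_mul, ← pow_add, ← pow_add, ← pow_add]
    congr 1
    omega
  have m7 : (h ^ 6 * a ^ (3 * fs + 4 * fu + 6 * c)) * a ^ (6 * (N - 1)) ≤
      a ^ (N + 12) * a ^ (6 * (N - 1)) := by
    rw [← m5, ← m6]
    exact le_trans m2 (le_trans (le_of_eq m3) m4)
  exact Nat.le_of_mul_le_mul_right m7 (pow_pos hapos _)

end bound

end

end Fermat.Agent.S16.Lower.Count
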