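import Mathlib
import Fermat.Prelude.Def_ModularCurve_PeriodMap
import Fermat.Prelude.Def_ModularCurve_GenusNumerics
import Fermat.Agent.S21.HomBound
import Fermat.Agent.S21.ParHomBound_h18
import Fermat.Agent.S20.Psi
import Fermat.Agent.S20.FixPoints
import Fermat.Agent.S20.Cusps
import Fermat.Agent.S16.Lower.PermCount
import Fermat.Agent.S16.Lower.SumZero

/-!
# S16 (F), lower bound, L3 (hedge copy by helper9): the finite-coefficient "Shapiro count"

`G` a group generated by `s, u` with `s² = u³ = z` central of order `≤ 2`, `Γ ≤ G` of finite index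
containing `z`, `A` a finite abelian group, `H` a subgroup of `Hom(Γ, A)` all of whose elements kill
the parabolic elements (conjugates of powers of `t = s⁻¹u` lying in `Γ`) and the elements of order
dividing `12`.  Then

`|H|⁶ · |A|^(3 f_s + 4 f_u + 6 c) ≤ |A|^(|G/Γ| + 12)`,

`f_s, f_u` the numbers of fixed points of `s, u` on `G/Γ` and `c` the number of `t`-orbits.
For `Γ₀(N) ≤ SL₂(ℤ)` this reads `|H| ≤ |A|^(2g)`.
-/

set_option autoImplicit false
set_option linter.unusedSectionVars false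

namespace Fermat.Agent.S16.Lower.CountH9

open Fermat.Agent.S21

noncomputable section

section cocycle

variable {G : Type*} [Group G] {Γ : Subgroup G} {A : Type*} [AddCommGroup A]

/-- The combined cocycle attached to a homomorphism `ψ : Γ → A` and a function `v : G/Γ → A`. -/
def cocA (ψ : Additive Γ →+ A) (v : G ⧸ Γ → A) (g : G) (x : G ⧸ Γ) : A :=
  ψ (Additive.ofMul (shapEl Γ g x)) + v (g⁻¹ • x) - v x

theorem cocA_mul (ψ : Additive Γ →+ A) (v : G ⧸ Γ → A) (g h : G) (x : G ⧸ Γ) :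
    cocA ψ v (g * h) x = cocA ψ v g x + cocA ψ v h (g⁻¹ • x) := by
  simp only [cocA, shapEl_mul, ofMul_mul, map_add, mul_inv_rev, mul_smul]
  abel

theorem cocA_one (ψ : Additive Γ →+ A) (v : G ⧸ Γ → A) (x : G ⧸ Γ) : cocA ψ v 1 x = 0 := by
  have h := cocA_mul ψ v 1 1 x
  simp only [mul_one, inv_one, one_smul] at h
  exact left_eq_add.mp h

theorem cocA_inv (ψ : Additive Γ →+ A) (v : G ⧸ Γ → A) (g : G)
    (hg : ∀ x, cocA ψ v g x = 0) (x : G ⧸ Γ) : cocA ψ v g⁻¹ x = 0 := by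
  have h := cocA_mul ψ v g g⁻¹ (g • x)
  rw [mul_inv_cancel, cocA_one, hg, inv_smul_smul, zero_add] at h
  exact h.symm

theorem cocA_eq_zero_of_closure (ψ : Additive Γ →+ A) (v : G ⧸ Γ → A) (T : Set G)
    (hT : Subgroup.closure T = ⊤) (h : ∀ s ∈ T, ∀ x, cocA ψ v s x = 0) (g : G) :
    ∀ x, cocA ψ v g x = 0 := by
  have hg : g ∈ Subgroup.closure T := by rw [hT]; trivial
  induction hg using Subgroup.closure_induction with
  | mem s hs => exact h s hs
  | one => exact cocA_one ψ v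
  | mul a b _ _ ha hb =>
    intro x
    rw [cocA_mul, ha, hb, add_zero]
  | inv a _ ha => exact cocA_inv ψ v a ha

theorem cocA_mk_one (ψ : Additive Γ →+ A) (v : G ⧸ Γ → A) (γ : Γ) :
    cocA ψ v (γ : G) (QuotientGroup.mk 1) = ψ (Additive.ofMul γ) := by
  have hfix : (γ : G)⁻¹ • (QuotientGroup.mk 1 : G ⧸ Γ) = QuotientGroup.mk 1 :=
    smul_mk_one_of_mem (Γ.inv_mem γ.2)
  unfold cocA
  rw [hfix, add_sub_cancel_right]
  set γ0 : Γ := ⟨_, out_mk_one_mem (Γ := Γ)⟩ with hγ0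
  have h : shapEl Γ (γ : G) (QuotientGroup.mk 1) = γ0⁻¹ * (γ * γ0) := by
    apply Subtype.ext
    simp only [shapEl, hfix, Subgroup.coe_mul, Subgroup.coe_inv, hγ0]
  rw [h]
  simp only [ofMul_mul, ofMul_inv, map_add, map_neg]
  abel

/-- Key injectivity: if the combined cocycle vanishes on a generating set, then `ψ = 0` and `v`
is constant. -/
theorem eq_zero_of_cocA_eq_zero (ψ : Additive Γ →+ A) (v : G ⧸ Γ → A) (T : Set G)
    (hT : Subgroup.closure T = ⊤) (h : ∀ s ∈ T, ∀ x, cocA ψ v s x = 0) :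
    ψ = 0 ∧ ∀ x, v x = v (QuotientGroup.mk 1) := by
  have hall := cocA_eq_zero_of_closure ψ v T hT h
  have hψ : ψ = 0 := by
    ext γ
    have := cocA_mk_one ψ v (Additive.toMul γ)
    rw [hall] at this
    exact this.symm
  refine ⟨hψ, fun x => ?_⟩
  induction x using QuotientGroup.induction_on with
  | H g =>
    have h1 := hall g⁻¹ (QuotientGroup.mk 1)
    unfold cocA at h1
    rw [hψ] at h1
    simp only [AddMonoidHom.zero_apply, zero_add, inv_inv] at h1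
    have h2 : g • (QuotientGroup.mk 1 : G ⧸ Γ) = QuotientGroup.mk g := by
      show (QuotientGroup.mk (g * 1) : G ⧸ Γ) = _
      rw [mul_one]
    rw [h2] at h1
    exact sub_eq_zero.mp h1

theorem cocA_sub (ψ ψ' : Additive Γ →+ A) (v v' : G ⧸ Γ → A) (g : G) (x : G ⧸ Γ) :
    cocA (ψ - ψ') (v - v') g x = cocA ψ v g x - cocA ψ' v' g x := by
  simp only [cocA, AddMonoidHom.sub_apply, Pi.sub_apply]
  abel

theorem cocA_pow_sum (ψ : Additive Γ →+ A) (v : G ⧸ Γ → A) (t : G) (n : ℕ) (x : G ⧸ Γ) :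
    cocA ψ v (t ^ n) x = ∑ j ∈ Finset.range n, cocA ψ v t ((t ^ j)⁻¹ • x) := by
  induction n with
  | zero => simp [cocA_one]
  | succ n ih =>
    rw [pow_succ, cocA_mul, ih, Finset.sum_range_succ]

end cocycle

section members

variable {G : Type*} [Group G] (Γ : Subgroup G) {A : Type*} [AddCommGroup A]

theorem pow_twelve_of_sq {z s : G} (hz2 : z * z = 1) (hs : s * s = z) : s ^ 12 = 1 := by
  have h2 : s ^ 2 = z := by rw [pow_two, hs]
  have h4 : s ^ 4 = 1 := by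
    calc s ^ 4 = s ^ 2 * s ^ 2 := by rw [← pow_add]
      _ = 1 := by rw [h2, hz2]
  calc s ^ 12 = (s ^ 4) ^ 3 := by rw [← pow_mul]
    _ = 1 := by rw [h4, one_pow]

theorem pow_twelve_of_cube {z u : G} (hz2 : z * z = 1) (hu : u * u * u = z) : u ^ 12 = 1 := by
  have h3 : u ^ 3 = z := by rw [pow_succ, pow_two, hu]
  have h6 : u ^ 6 = 1 := by
    calc u ^ 6 = u ^ 3 * u ^ 3 := by rw [← pow_add]
      _ = 1 := by rw [h3, hz2]
  calc u ^ 12 = (u ^ 6) ^ 2 := by rw [← pow_mul]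
    _ = 1 := by rw [h6, one_pow]

/-- At a fixed point of `g` (of order dividing `12`) the cocycle is a value of `ψ` on an element
of order dividing `12`. -/
theorem cocA_fixed (ψ : Additive Γ →+ A) (v : G ⧸ Γ → A)
    (hell : ∀ γ : Γ, γ ^ 12 = 1 → ψ (Additive.ofMul γ) = 0)
    {g : G} (hg : g ^ 12 = 1) {x : G ⧸ Γ} (hx : g⁻¹ • x = x) : cocA ψ v g x = 0 := by
  unfold cocA
  rw [hx, add_sub_cancel_right]
  apply hell
  apply Subtype.ext
  simp only [shapEl, hx, SubmonoidClass.coe_pow, OneMemClass.coe_one]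
  rw [← mul_assoc]
  have : ∀ n : ℕ, ((Quotient.out x)⁻¹ * g * Quotient.out x) ^ n
      = (Quotient.out x)⁻¹ * g ^ n * Quotient.out x := by
    intro n
    induction n with
    | zero => simp
    | succ n ih => rw [pow_succ, ih, pow_succ]; group
  rw [this, hg]
  group

variable {z s u : G} (hzΓ : z ∈ Γ) (hzc : ∀ g, g * z = z * g) (hz2 : z * z = 1)

include hzΓ hzc in
theorem z_inv_smul (x : G ⧸ Γ) : z⁻¹ • x = x := by
  rw [inv_smul_eq_iff, central_smul Γ hzΓ hzc x]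

include hzΓ hzc in
theorem cocA_central (ψ : Additive Γ →+ A) (v : G ⧸ Γ → A)
    (hψz : ψ (Additive.ofMul (⟨z, hzΓ⟩ : Γ)) = 0) (x : G ⧸ Γ) : cocA ψ v z x = 0 := by
  have hfix : z⁻¹ • x = x := z_inv_smul Γ hzΓ hzc x
  unfold cocA
  rw [hfix, add_sub_cancel_right]
  have h : shapEl Γ z x = ⟨z, hzΓ⟩ := by
    apply Subtype.ext
    simp only [shapEl, hfix]
    rw [← hzc, inv_mul_cancel_left]
  rw [h, hψz]

include hzΓ hzc in
theorem cocA_s_add (hs : s * s = z) (ψ : Additive Γ →+ A) (v : G ⧸ Γ → A)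
    (hψz : ψ (Additive.ofMul (⟨z, hzΓ⟩ : Γ)) = 0) (x : G ⧸ Γ) :
    cocA ψ v s x + cocA ψ v s (s⁻¹ • x) = 0 := by
  rw [← cocA_mul, hs]
  exact cocA_central Γ hzΓ hzc ψ v hψz x

include hzΓ hzc in
theorem cocA_u_add (hu : u * u * u = z) (ψ : Additive Γ →+ A) (v : G ⧸ Γ → A)
    (hψz : ψ (Additive.ofMul (⟨z, hzΓ⟩ : Γ)) = 0) (x : G ⧸ Γ) :
    cocA ψ v u x + cocA ψ v u (u⁻¹ • x) + cocA ψ v u (u⁻¹ • u⁻¹ • x) = 0 := by
  have h1 := cocA_mul ψ v (u * u) u x
  have h2 := cocA_mul ψ v u u x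
  rw [hu, cocA_central Γ hzΓ hzc ψ v hψz, mul_inv_rev, mul_smul] at h1
  rw [h2] at h1
  exact h1.symm

/-- The cocycle at `t = s⁻¹ u` in terms of the cocycles at `s` and `u`. -/
theorem cocA_t (ψ : Additive Γ →+ A) (v : G ⧸ Γ → A) (x : G ⧸ Γ) :
    cocA ψ v (s⁻¹ * u) x = cocA ψ v u (s • x) - cocA ψ v s (s • x) := by
  have h1 := cocA_mul ψ v s⁻¹ u x
  have h2 := cocA_mul ψ v s⁻¹ s x
  rw [inv_mul_cancel, cocA_one, inv_inv] at h2
  rw [inv_inv] at h1
  rw [h1]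
  have h3 : cocA ψ v s⁻¹ x = - cocA ψ v s (s • x) := eq_neg_of_add_eq_zero_left h2.symm
  rw [h3]
  abel

/-- Parabolic vanishing: the sum of the cocycle at `t` along a closed `t`-path vanishes. -/
theorem sum_cocA_t_eq_zero (t : G) (ψ : Additive Γ →+ A) (v : G ⧸ Γ → A)
    (hpar : ∀ (m : ℕ) (g : G) (h : g⁻¹ * (t ^ m * g) ∈ Γ), ψ (Additive.ofMul (⟨_, h⟩ : Γ)) = 0)
    (m : ℕ) (x : G ⧸ Γ) (hx : t ^ m • x = x) :
    ∑ j ∈ Finset.range m, cocA ψ v t ((t ^ j)⁻¹ • x) = 0 := by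
  rw [← cocA_pow_sum]
  have hx' : (t ^ m)⁻¹ • x = x := by rw [inv_smul_eq_iff, hx]
  unfold cocA
  rw [hx', add_sub_cancel_right]
  have hmem : (Quotient.out x)⁻¹ * (t ^ m * Quotient.out x) ∈ Γ := by
    have := (shapEl Γ (t ^ m) x).2
    simp only [shapEl, hx'] at this
    exact this
  have hsh : shapEl Γ (t ^ m) x = ⟨_, hmem⟩ := by
    apply Subtype.ext
    simp only [shapEl, hx']
  rw [hsh]
  exact hpar m (Quotient.out x) hmem

end members

section lam

variable {G : Type*} [Group G] (Γ : Subgroup G) {A : Type*} [AddCommGroup A]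

/-- The `t`-orbits on `G/Γ`. -/
abbrev Orb (t : G) : Type _ := MulAction.orbitRel.Quotient (Subgroup.zpowers t) (G ⧸ Γ)

theorem omk_pow_inv_smul (t : G) (j : ℕ) (x : G ⧸ Γ) :
    (Quotient.mk'' ((t ^ j)⁻¹ • x) : Orb Γ t) = Quotient.mk'' x := by
  apply Quotient.sound'
  rw [MulAction.orbitRel_apply]
  exact ⟨⟨(t ^ j)⁻¹, Subgroup.inv_mem _ (Subgroup.pow_mem _ (Subgroup.mem_zpowers t) j)⟩, rfl⟩

/-- The orbit-sum map `w ↦ (o ↦ ∑_{y ∈ o} w (s y))`, written along the `t`-path through the chosen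
representative of `o`. -/
def lamHom (s t : G) : ((G ⧸ Γ) → A) →+ (Orb Γ t → A) where
  toFun w o := ∑ j ∈ Finset.range (MulAction.period t (Quotient.out o)),
    w (s • (t ^ j)⁻¹ • Quotient.out o)
  map_zero' := by funext o; simp
  map_add' w w' := by funext o; simp [Finset.sum_add_distrib]

theorem lamHom_apply (s t : G) (w : (G ⧸ Γ) → A) (o : Orb Γ t) :
    lamHom Γ s t w o = ∑ j ∈ Finset.range (MulAction.period t (Quotient.out o)),
      w (s • (t ^ j)⁻¹ • Quotient.out o) := rfl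

/-- Parabolic vanishing in terms of `lamHom`. -/
theorem lamHom_cocA (s u : G) (ψ : Additive Γ →+ A) (v : G ⧸ Γ → A)
    (hpar : ∀ (m : ℕ) (g : G) (h : g⁻¹ * ((s⁻¹ * u) ^ m * g) ∈ Γ),
      ψ (Additive.ofMul (⟨_, h⟩ : Γ)) = 0) :
    lamHom Γ s (s⁻¹ * u) (cocA ψ v u - cocA ψ v s) = 0 := by
  funext o
  rw [lamHom_apply, Pi.zero_apply]
  have h := sum_cocA_t_eq_zero Γ (s⁻¹ * u) ψ v hpar
    (MulAction.period (s⁻¹ * u) (Quotient.out o)) (Quotient.out o)
    (MulAction.pow_period_smul _ _)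
  rw [← h]
  apply Finset.sum_congr rfl
  intro j _
  rw [cocA_t, Pi.sub_apply]

open Classical in
/-- Every function on the orbits with total sum zero is an orbit sum of some `g - f` with
`f ∈ Asub`, `g ∈ Bsub`. -/
theorem exists_lamHom_eq [Fintype (G ⧸ Γ)] (s t : G) [Fintype (Orb Γ t)]
    (σ τ : Equiv.Perm (G ⧸ Γ)) (hσs : ∀ x, σ x = s⁻¹ • x)
    (hσ : ∀ x, σ (σ x) = x) (hτ : ∀ x, τ (τ (τ x)) = x)
    (hconn : ∀ S : Set (G ⧸ Γ), S.Nonempty → (∀ x ∈ S, σ x ∈ S ∧ τ x ∈ S) → S = Set.univ)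
    (hper : ∀ x : G ⧸ Γ, 0 < MulAction.period t x)
    (h : Orb Γ t → A) (hh : ∑ o, h o = 0) :
    ∃ f ∈ PermCount.Asub σ A, ∃ g ∈ PermCount.Bsub τ A, lamHom Γ s t (g - f) = h := by
  set F' : G ⧸ Γ → A := fun y => ∑ o : Orb Γ t, if y = Quotient.out o then h o else 0 with hF'
  set F : G ⧸ Γ → A := fun x => F' (σ x) with hF
  have hsum : ∑ x, F x = 0 := by
    have h1 : ∑ x, F x = ∑ o, h o := by
      rw [hF]
      rw [Equiv.sum_comp σ F', hF', Finset.sum_comm]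
      apply Finset.sum_congr rfl
      intro o _
      rw [Finset.sum_ite_eq']
      simp
    rw [h1, hh]
  obtain ⟨f, hf, g, hg, hFg⟩ := SumZero.exists_sub_of_sum_eq_zero σ τ hσ hτ hconn F hsum
  refine ⟨f, hf, g, hg, ?_⟩
  funext o
  rw [lamHom_apply, ← hFg]
  have hterm : ∀ j ∈ Finset.range (MulAction.period t (Quotient.out o)),
      F (s • (t ^ j)⁻¹ • Quotient.out o) = if j = 0 then h o else 0 := by
    intro j hj
    rw [Finset.mem_range] at hj
    have e1 : F (s • (t ^ j)⁻¹ • Quotient.out o) = F' ((t ^ j)⁻¹ • Quotient.out o) := by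
      rw [hF]
      simp only [hσs, inv_smul_smul]
    rw [e1, hF']
    simp only
    by_cases hj0 : j = 0
    · subst hj0
      simp only [pow_zero, inv_one, one_smul, if_true]
      rw [Finset.sum_eq_single o]
      · simp
      · intro o' _ ho'
        rw [if_neg]
        intro hc
        exact ho' (Quotient.out_injective hc).symm
      · intro ho; exact absurd (Finset.mem_univ o) ho
    · rw [if_neg hj0]
      apply Finset.sum_eq_zero
      intro o' _
      rw [if_neg]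
      intro hc
      have ho : o' = o := by
        have h1 := omk_pow_inv_smul Γ t j (Quotient.out o)
        rw [hc, Quotient.out_eq', Quotient.out_eq'] at h1
        exact h1
      subst ho
      have h2 : t ^ j • Quotient.out o' = Quotient.out o' := by
        rw [inv_smul_eq_iff] at hc
        exact hc.symm
      rw [MulAction.pow_smul_eq_iff_period_dvd] at h2
      exact hj0 (Nat.eq_zero_of_dvd_of_lt h2 hj)
  rw [Finset.sum_congr rfl hterm, Finset.sum_ite_eq']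
  simp [hper]

end lam

section arith

theorem count_arith (h a e n c k r α β fs fu : ℕ) (ha : 0 < a)
    (h1 : h * e ≤ k) (he : e * a = a ^ n) (h2 : a ^ c ≤ r * a) (h3 : k * r = α * β)
    (h4 : α ^ 2 * a ^ fs ≤ a ^ n) (h5 : β ^ 3 * a ^ (2 * fu) ≤ a ^ (2 * n)) :
    h ^ 6 * a ^ (3 * fs + 4 * fu + 6 * c) ≤ a ^ (n + 12) := by
  have s1 : h * a ^ n * a ^ c ≤ α * β * a ^ 2 := by
    calc h * a ^ n * a ^ c = (h * e) * a * a ^ c := by rw [← he]; ring
      _ ≤ k * a * (r * a) := Nat.mul_le_mul (Nat.mul_le_mul_right a h1) h2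
      _ = (k * r) * a ^ 2 := by ring
      _ = α * β * a ^ 2 := by rw [h3]
  have s2 : (h * a ^ n * a ^ c) ^ 6 ≤ (α * β * a ^ 2) ^ 6 := Nat.pow_le_pow_left s1 6
  have s3 : (α ^ 2 * a ^ fs) ^ 3 ≤ (a ^ n) ^ 3 := Nat.pow_le_pow_left h4 3
  have s4 : (β ^ 3 * a ^ (2 * fu)) ^ 2 ≤ (a ^ (2 * n)) ^ 2 := Nat.pow_le_pow_left h5 2
  have key : h ^ 6 * a ^ (3 * fs + 4 * fu + 6 * c) * a ^ (6 * n) ≤ a ^ (n + 12) * a ^ (6 * n) := by
    calc h ^ 6 * a ^ (3 * fs + 4 * fu + 6 * c) * a ^ (6 * n)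
        = (h * a ^ n * a ^ c) ^ 6 * a ^ (3 * fs + 4 * fu) := by ring
      _ ≤ (α * β * a ^ 2) ^ 6 * a ^ (3 * fs + 4 * fu) := Nat.mul_le_mul_right _ s2
      _ = (α ^ 2 * a ^ fs) ^ 3 * (β ^ 3 * a ^ (2 * fu)) ^ 2 * a ^ 12 := by ring
      _ ≤ (a ^ n) ^ 3 * (a ^ (2 * n)) ^ 2 * a ^ 12 :=
          Nat.mul_le_mul_right _ (Nat.mul_le_mul s3 s4)
      _ = a ^ (n + 12) * a ^ (6 * n) := by ring
  exact Nat.le_of_mul_le_mul_right key (pow_pos ha _)

end arith

section conn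

variable {G : Type*} [Group G] (Γ : Subgroup G)

theorem conn_of_closure {z s u : G} (hzΓ : z ∈ Γ) (hzc : ∀ g, g * z = z * g)
    (hs : s * s = z) (hu : u * u * u = z)
    (hgen : Subgroup.closure ({s, u} : Set G) = ⊤)
    (S : Set (G ⧸ Γ)) (hS : S.Nonempty) (hcl : ∀ x ∈ S, s⁻¹ • x ∈ S ∧ u⁻¹ • x ∈ S) :
    S = Set.univ := by
  have hz : ∀ x : G ⧸ Γ, z • x = x := central_smul Γ hzΓ hzc
  have hs' : ∀ x : G ⧸ Γ, s • x = s⁻¹ • x := by
    intro x
    rw [eq_inv_smul_iff, ← mul_smul, hs, hz]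
  have hu' : ∀ x : G ⧸ Γ, u • x = u⁻¹ • u⁻¹ • x := by
    intro x
    rw [eq_inv_smul_iff, eq_inv_smul_iff, ← mul_smul, ← mul_smul, hu, hz]
  have hall : ∀ g : G, ∀ x, x ∈ S ↔ g • x ∈ S := by
    intro g
    have hg : g ∈ Subgroup.closure ({s, u} : Set G) := by rw [hgen]; trivial
    induction hg using Subgroup.closure_induction with
    | mem a ha =>
      intro x
      rcases ha with rfl | ha
      · constructor
        · intro hx; rw [hs']; exact (hcl x hx).1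
        · intro hx
          have := (hcl _ hx).1
          rwa [inv_smul_smul] at this
      · rw [Set.mem_singleton_iff] at ha
        subst ha
        constructor
        · intro hx; rw [hu']; exact (hcl _ (hcl x hx).2).2
        · intro hx
          have := (hcl _ hx).2
          rwa [inv_smul_smul] at this
    | one => intro x; rw [one_smul]
    | mul a b _ _ ha hb =>
      intro x
      rw [mul_smul, ← ha, ← hb]
    | inv a _ ha =>
      intro x
      rw [ha (a⁻¹ • x), smul_inv_smul]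
  obtain ⟨x1, hx1⟩ := hS
  apply Set.eq_univ_of_forall
  intro x
  obtain ⟨g, rfl⟩ := MulAction.exists_smul_eq G x1 x
  exact (hall g x1).mp hx1

end conn

section main

variable {G : Type*} [Group G] (Γ : Subgroup G) {A : Type*} [AddCommGroup A]

open Classical in
/-- extension by zero at the base point -/
def ext0A (v' : {x : G ⧸ Γ // x ≠ QuotientGroup.mk 1} → A) : G ⧸ Γ → A :=
  fun x => if h : x = QuotientGroup.mk 1 then 0 else v' ⟨x, h⟩

theorem ext0A_base (v' : {x : G ⧸ Γ // x ≠ QuotientGroup.mk 1} → A) :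
    ext0A Γ v' (QuotientGroup.mk 1) = 0 := by
  simp [ext0A]

theorem ext0A_sub (v w : {x : G ⧸ Γ // x ≠ QuotientGroup.mk 1} → A) :
    ext0A Γ (v - w) = ext0A Γ v - ext0A Γ w := by
  funext x
  unfold ext0A
  simp only [Pi.sub_apply]
  split_ifs <;> simp

theorem ext0A_apply_ne (v' : {x : G ⧸ Γ // x ≠ QuotientGroup.mk 1} → A)
    (x : {x : G ⧸ Γ // x ≠ QuotientGroup.mk 1}) : ext0A Γ v' x.1 = v' x := by
  unfold ext0A
  rw [dif_neg x.2]

/-- **L3 (generic form).** -/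
theorem card_bound_generic [Finite (G ⧸ Γ)] [Finite A] (z s u : G) (hzΓ : z ∈ Γ)
    (hzc : ∀ g, g * z = z * g) (hz2 : z * z = 1) (hs : s * s = z) (hu : u * u * u = z)
    (hgen : Subgroup.closure ({s, u} : Set G) = ⊤)
    (H : AddSubgroup (Additive Γ →+ A))
    (hpar : ∀ ψ ∈ H, ∀ (m : ℕ) (g : G) (h : g⁻¹ * ((s⁻¹ * u) ^ m * g) ∈ Γ),
      ψ (Additive.ofMul (⟨_, h⟩ : Γ)) = 0)
    (hell : ∀ ψ ∈ H, ∀ γ : Γ, γ ^ 12 = 1 → ψ (Additive.ofMul γ) = 0) :
    Nat.card H ^ 6 * Nat.card A ^ (3 * Nat.card (MulAction.fixedBy (G ⧸ Γ) s) +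
        4 * Nat.card (MulAction.fixedBy (G ⧸ Γ) u) +
        6 * Nat.card (MulAction.orbitRel.Quotient (Subgroup.zpowers (s⁻¹ * u)) (G ⧸ Γ))) ≤
      Nat.card A ^ (Nat.card (G ⧸ Γ) + 12) := by
  classical
  have : Fintype (G ⧸ Γ) := Fintype.ofFinite _
  have : Fintype (Orb Γ (s⁻¹ * u)) := Fintype.ofFinite _
  set t : G := s⁻¹ * u with ht
  set σ : Equiv.Perm (G ⧸ Γ) := MulAction.toPerm s⁻¹ with hσdef
  set τ : Equiv.Perm (G ⧸ Γ) := MulAction.toPerm u⁻¹ with hτdef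
  have hσs : ∀ x, σ x = s⁻¹ • x := fun x => rfl
  have hτu : ∀ x, τ x = u⁻¹ • x := fun x => rfl
  have hztriv : ∀ x : G ⧸ Γ, z⁻¹ • x = x := z_inv_smul Γ hzΓ hzc
  have hσ : ∀ x, σ (σ x) = x := by
    intro x
    rw [hσs, hσs, ← mul_smul, ← mul_inv_rev, hs, hztriv]
  have hτ : ∀ x, τ (τ (τ x)) = x := by
    intro x
    rw [hτu, hτu, hτu, ← mul_smul, ← mul_smul, ← mul_inv_rev, ← mul_inv_rev, ← mul_assoc, hu,
      hztriv]
  have hconn : ∀ S : Set (G ⧸ Γ), S.Nonempty → (∀ x ∈ S, σ x ∈ S ∧ τ x ∈ S) → S = Set.univ :=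
    fun S hS hcl => conn_of_closure Γ hzΓ hzc hs hu hgen S hS hcl
  have hper : ∀ x : G ⧸ Γ, 0 < MulAction.period t x := by
    intro x
    have hpos : 0 < orderOf (MulAction.toPermHom G (G ⧸ Γ) t) := orderOf_pos _
    apply MulAction.period_pos_of_fixed hpos
    have h1 : MulAction.toPermHom G (G ⧸ Γ) (t ^ orderOf (MulAction.toPermHom G (G ⧸ Γ) t)) = 1 := by
      rw [map_pow, pow_orderOf_eq_one]
    have := congrArg (fun ρ : Equiv.Perm (G ⧸ Γ) => ρ x) h1
    simpa using this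
  have hz12 : (⟨z, hzΓ⟩ : Γ) ^ 12 = 1 := by
    apply Subtype.ext
    simp only [SubmonoidClass.coe_pow, OneMemClass.coe_one]
    calc z ^ 12 = (z * z) ^ 6 := by rw [← pow_two, ← pow_mul]
      _ = 1 := by rw [hz2, one_pow]
  have hψz : ∀ ψ ∈ H, ψ (Additive.ofMul (⟨z, hzΓ⟩ : Γ)) = 0 := fun ψ hψ => hell ψ hψ _ hz12
  have hs12 : s ^ 12 = 1 := pow_twelve_of_sq hz2 hs
  have hu12 : u ^ 12 = 1 := pow_twelve_of_cube hz2 hu
  have hmA : ∀ ψ ∈ H, ∀ v : G ⧸ Γ → A, cocA ψ v s ∈ PermCount.Asub σ A := by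
    intro ψ hψ v
    rw [PermCount.mem_Asub]
    refine ⟨fun x => ?_, fun x hx => ?_⟩
    · rw [hσs]; exact cocA_s_add Γ hzΓ hzc hs ψ v (hψz ψ hψ) x
    · rw [hσs] at hx
      exact cocA_fixed Γ ψ v (hell ψ hψ) hs12 hx
  have hmB : ∀ ψ ∈ H, ∀ v : G ⧸ Γ → A, cocA ψ v u ∈ PermCount.Bsub τ A := by
    intro ψ hψ v
    rw [PermCount.mem_Bsub]
    refine ⟨fun x => ?_, fun x hx => ?_⟩
    · rw [hτu, hτu]; exact cocA_u_add Γ hzΓ hzc hu ψ v (hψz ψ hψ) x
    · rw [hτu] at hx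
      exact cocA_fixed Γ ψ v (hell ψ hψ) hu12 hx
  -- the orbit-sum homomorphism on `Asub × Bsub`
  set L : ↥(PermCount.Asub σ A) × ↥(PermCount.Bsub τ A) →+ (Orb Γ t → A) :=
    (lamHom Γ s t).comp (((PermCount.Bsub τ A).subtype.comp (AddMonoidHom.snd _ _)) -
      ((PermCount.Asub σ A).subtype.comp (AddMonoidHom.fst _ _))) with hL
  have hLapply : ∀ (a : ↥(PermCount.Asub σ A)) (b : ↥(PermCount.Bsub τ A)),
      L (a, b) = lamHom Γ s t ((b : G ⧸ Γ → A) - (a : G ⧸ Γ → A)) := by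
    intro a b
    rfl
  -- the map Θ
  let Θ : ↥H × ({x : G ⧸ Γ // x ≠ QuotientGroup.mk 1} → A) → L.ker := fun p =>
    ⟨(⟨cocA (p.1 : Additive Γ →+ A) (ext0A Γ p.2) s, hmA _ p.1.2 _⟩,
      ⟨cocA (p.1 : Additive Γ →+ A) (ext0A Γ p.2) u, hmB _ p.1.2 _⟩), by
      rw [AddMonoidHom.mem_ker, hLapply]
      exact lamHom_cocA Γ s u _ _ (hpar _ p.1.2)⟩
  have hΘinj : Function.Injective Θ := by
    intro p q hpq
    have h1 : cocA (p.1 : Additive Γ →+ A) (ext0A Γ p.2) s =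
        cocA (q.1 : Additive Γ →+ A) (ext0A Γ q.2) s := by
      have := congrArg (fun r : L.ker => ((r.1.1 : ↥(PermCount.Asub σ A)) : G ⧸ Γ → A)) hpq
      exact this
    have h2 : cocA (p.1 : Additive Γ →+ A) (ext0A Γ p.2) u =
        cocA (q.1 : Additive Γ →+ A) (ext0A Γ q.2) u := by
      have := congrArg (fun r : L.ker => ((r.1.2 : ↥(PermCount.Bsub τ A)) : G ⧸ Γ → A)) hpq
      exact this
    have key := eq_zero_of_cocA_eq_zero ((p.1 : Additive Γ →+ A) - (q.1 : Additive Γ →+ A))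
      (ext0A Γ p.2 - ext0A Γ q.2) {s, u} hgen (by
        intro g hg x
        rw [cocA_sub]
        rcases hg with rfl | hg
        · rw [h1, sub_self]
        · rw [Set.mem_singleton_iff] at hg
          subst hg
          rw [h2, sub_self])
    obtain ⟨k1, k2⟩ := key
    apply Prod.ext
    · exact Subtype.ext (sub_eq_zero.mp k1)
    · funext x'
      have := k2 x'.1
      simp only [Pi.sub_apply, ext0A_base, sub_self] at this
      rw [ext0A_apply_ne, ext0A_apply_ne] at this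
      exact sub_eq_zero.mp this
  have h1 : Nat.card H * Nat.card A ^ Nat.card {x : G ⧸ Γ // x ≠ QuotientGroup.mk 1} ≤
      Nat.card L.ker := by
    have := Nat.card_le_card_of_injective Θ hΘinj
    rwa [Nat.card_prod, Nat.card_fun] at this
  have hX' : Nat.card {x : G ⧸ Γ // x ≠ QuotientGroup.mk 1} + 1 = Nat.card (G ⧸ Γ) := by
    rw [← Finite.card_option]
    exact Nat.card_congr (Equiv.optionSubtypeNe (QuotientGroup.mk 1 : G ⧸ Γ))
  have he : Nat.card A ^ Nat.card {x : G ⧸ Γ // x ≠ QuotientGroup.mk 1} * Nat.card A =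
      Nat.card A ^ Nat.card (G ⧸ Γ) := by
    rw [← hX', pow_succ]
  -- the range of `L`
  set sumH : (Orb Γ t → A) →+ A :=
    { toFun := fun h => ∑ o, h o
      map_zero' := by simp
      map_add' := fun a b => by simp [Finset.sum_add_distrib] } with hsumHdef
  have hrange : sumH.ker ≤ L.range := by
    intro h hh
    rw [AddMonoidHom.mem_ker] at hh
    obtain ⟨f, hf, g, hg, hfg⟩ := exists_lamHom_eq Γ s t σ τ hσs hσ hτ hconn hper h hh
    exact ⟨(⟨f, hf⟩, ⟨g, hg⟩), by rw [hLapply]; exact hfg⟩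
  have h2 : Nat.card A ^ Nat.card (Orb Γ t) ≤ Nat.card L.range * Nat.card A := by
    have e1 : Nat.card sumH.ker * sumH.ker.index = Nat.card (Orb Γ t → A) := sumH.ker.card_mul_index
    rw [AddSubgroup.index_ker, Nat.card_fun] at e1
    rw [← e1]
    exact Nat.mul_le_mul (AddSubgroup.card_le_of_le hrange) (Finite.card_subtype_le _)
  have h3 : Nat.card L.ker * Nat.card L.range =
      Nat.card (PermCount.Asub σ A) * Nat.card (PermCount.Bsub τ A) := by
    have e1 := L.ker.card_mul_index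
    rw [AddSubgroup.index_ker, Nat.card_prod] at e1
    exact e1
  have h4 := PermCount.card_Asub_le (A := A) hσ
  have h5 := PermCount.card_Bsub_le (A := A) hτ
  have hfs : Nat.card {x // σ x = x} = Nat.card (MulAction.fixedBy (G ⧸ Γ) s) := by
    apply Nat.card_congr
    refine Equiv.subtypeEquivRight fun x => ?_
    rw [MulAction.mem_fixedBy, hσs, inv_smul_eq_iff, eq_comm]
  have hfu : Nat.card {x // τ x = x} = Nat.card (MulAction.fixedBy (G ⧸ Γ) u) := by
    apply Nat.card_congr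
    refine Equiv.subtypeEquivRight fun x => ?_
    rw [MulAction.mem_fixedBy, hτu, inv_smul_eq_iff, eq_comm]
  rw [hfs] at h4
  rw [hfu] at h5
  exact count_arith (Nat.card H) (Nat.card A) _ (Nat.card (G ⧸ Γ)) (Nat.card (Orb Γ t))
    (Nat.card L.ker) (Nat.card L.range) _ _ _ _ Nat.card_pos h1 he h2 h3 h4 h5

end main

section sl2

open CongruenceSubgroup ModularGroup ModularCurve Module
open scoped MatrixGroups

variable {A : Type*} [AddCommGroup A] [Finite A]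

/-- **L3 for `Γ₀(N)`.** -/
theorem card_bound_Gamma0 (N : ℕ) [NeZero N] (H : AddSubgroup (Additive (Gamma0 N) →+ A))
    (hpar : ∀ ψ ∈ H, ∀ γ : Gamma0 N,
      ((γ : SL(2, ℤ)) : Matrix (Fin 2) (Fin 2) ℤ).trace ^ 2 = 4 → ψ (Additive.ofMul γ) = 0)
    (hell : ∀ ψ ∈ H, ∀ γ : Gamma0 N, γ ^ 12 = 1 → ψ (Additive.ofMul γ) = 0) :
    Nat.card H ^ 6 * Nat.card A ^ (3 * nuTwo N + 4 * nuThree N + 6 * cuspCount N) ≤
      Nat.card A ^ (dedekindPsi N + 12) := by
  have : (Gamma0 N).FiniteIndex := inferInstance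
  have : Finite (SL(2, ℤ) ⧸ Gamma0 N) := Subgroup.finite_quotient_of_finiteIndex
  have key := card_bound_generic (Gamma0 N) (-1) S (S * T) (neg_one_mem_Gamma0 N)
    (fun g => by rw [mul_neg, neg_mul, mul_one, one_mul]) (by rw [neg_mul_neg, one_mul])
    sl2_S_mul_S sl2_ST_cube sl2_closure_S_ST H (by
      intro ψ hψ m g h
      apply hpar ψ hψ
      have := PHB18.trace_conj_T_pow g m
      rw [← PHB18.s_inv_mul_st] at this
      show ((g⁻¹ * ((S⁻¹ * (S * T)) ^ m * g) : SL(2, ℤ)) : Matrix (Fin 2) (Fin 2) ℤ).trace ^ 2 = 4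
      rw [this]; norm_num) hell
  rw [PHB18.s_inv_mul_st, Fermat.Agent.S20.card_fixedBy_S, Fermat.Agent.S20.card_fixedBy_ST,
    Fermat.Agent.S20.card_orbits_T, Fermat.Agent.S20.card_quotient_Gamma0] at key
  exact key

/-- **L3 for `Γ₀(N)`, genus form** (the genus formula S20 is taken as a hypothesis, as in
`S21.finrank_parabolicHoms_le_two_mul`): `|H| ≤ |A|^(2g)`. -/
theorem card_le_pow_two_mul_genus (N : ℕ) [NeZero N]
    (hgenus : (finrank ℂ (CuspForm (Gamma0 N) 2) : ℚ) = genusFormula N)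
    (H : AddSubgroup (Additive (Gamma0 N) →+ A))
    (hpar : ∀ ψ ∈ H, ∀ γ : Gamma0 N,
      ((γ : SL(2, ℤ)) : Matrix (Fin 2) (Fin 2) ℤ).trace ^ 2 = 4 → ψ (Additive.ofMul γ) = 0)
    (hell : ∀ ψ ∈ H, ∀ γ : Gamma0 N, γ ^ 12 = 1 → ψ (Additive.ofMul γ) = 0) :
    Nat.card H ≤ Nat.card A ^ (2 * finrank ℂ (CuspForm (Gamma0 N) 2)) := by
  have key := card_bound_Gamma0 N H hpar hell
  set g := finrank ℂ (CuspForm (Gamma0 N) 2) with hg
  rw [genusFormula] at hgenus
  have hnum : 12 * g + (3 * nuTwo N + 4 * nuThree N + 6 * cuspCount N) = dedekindPsi N + 12 := by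
    have : ((12 * g + (3 * nuTwo N + 4 * nuThree N + 6 * cuspCount N) : ℕ) : ℚ) =
        ((dedekindPsi N + 12 : ℕ) : ℚ) := by
      push_cast
      rw [hgenus]
      ring
    exact_mod_cast this
  rw [← hnum, pow_add (Nat.card A) (12 * g)] at key
  have hpos : 0 < Nat.card A ^ (3 * nuTwo N + 4 * nuThree N + 6 * cuspCount N) :=
    pow_pos Nat.card_pos _
  have h6 : Nat.card H ^ 6 ≤ (Nat.card A ^ (2 * g)) ^ 6 := by
    have := Nat.le_of_mul_le_mul_right key hpos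
    calc Nat.card H ^ 6 ≤ Nat.card A ^ (12 * g) := this
      _ = (Nat.card A ^ (2 * g)) ^ 6 := by rw [← pow_mul]; ring_nf
  exact (Nat.pow_le_pow_iff_left (by norm_num)).mp h6

end sl2

end

end Fermat.Agent.S16.Lower.CountH9
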