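import Mathlib
import Fermat.Agent.S21.PeriodM2
import Fermat.Agent.S16.Estar
import Fermat.Agent.S16.EstarFricke
import Fermat.Agent.S28.DeltaConj

/-!
# S16 / Lower bound (F1): the Eisenstein period homomorphism (Dedekind–Rademacher)

`E = EstarMF N = (N E₂(N z) - E₂(z))/24` is a weight-2 form on `Γ₀(N)`.  Its normalised primitive
`F = mprim E` satisfies `exp(2πi·24·F(z)) = c · Δ(N z)/Δ(z)`, and `Δ(N z)/Δ(z)` is `Γ₀(N)`-invariant,
so `24 · modPeriod E γ ∈ ℤ`.  This gives `psi N : Additive Γ₀(N) →+ ℤ` with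
`psi_spec : (psi N γ : ℂ) = 24 * modPeriod N (EstarMF N) γ`.
(The evaluations `psi(T) = N - 1` and `psi((1 0; N 1)) = N - 1` are not in this file:
the Dedekind–Rademacher route is only the hedge of the lower bound.)
-/

set_option autoImplicit false

namespace Fermat.Agent.S16.Lower.DedekindRademacher

open UpperHalfPlane CongruenceSubgroup Matrix.SpecialLinearGroup Filter Topology EisensteinSeries
open Fermat.Agent.S20 Fermat.Agent.S20.Rank Fermat.Agent.S24.JConj Fermat.Agent.S21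
open Fermat.Agent.S16.Estar
open scoped MatrixGroups ModularForm Manifold Real

noncomputable section

local notation "Δ" => ModularForm.discriminant

variable (N : ℕ) [NeZero N]

/-- derivative of `η` at a point of the upper half plane -/
theorem hasDerivAt_eta (τ : ℍ) :
    HasDerivAt η ((π * Complex.I / 12) * E2 τ * η (τ : ℂ)) (τ : ℂ) := by
  have hd : DifferentiableAt ℂ η (τ : ℂ) :=
    ModularForm.differentiableAt_eta_of_mem_upperHalfPlaneSet τ.2
  have hne : η (τ : ℂ) ≠ 0 := ModularForm.eta_ne_zero τ.2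
  have hl := ModularForm.logDeriv_eta_eq_E2 τ
  rw [logDeriv_apply] at hl
  have : deriv η (τ : ℂ) = (π * Complex.I / 12) * E2 τ * η (τ : ℂ) := by
    rw [← hl]; field_simp
  rw [← this]
  exact hd.hasDerivAt

/-- the function `w ↦ η(N w)/η(w)` on `ℂ` -/
def etaQuot (w : ℂ) : ℂ := η ((N : ℂ) * w) / η w

theorem hasDerivAt_etaQuot (τ : ℍ) :
    HasDerivAt (etaQuot N) ((π * Complex.I / 12) * fE N τ * etaQuot N (τ : ℂ)) (τ : ℂ) := by
  have hN : (0 : ℝ) < (N : ℝ) := Nat.cast_pos.mpr (NeZero.pos N)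
  have hb := hasDerivAt_eta τ
  have ha0 := hasDerivAt_eta (mulN N τ)
  rw [coe_mulN] at ha0
  have hlin : HasDerivAt (fun w : ℂ => (N : ℂ) * w) (N : ℂ) (τ : ℂ) := by
    simpa using (hasDerivAt_id (τ : ℂ)).const_mul (N : ℂ)
  have ha : HasDerivAt (fun w : ℂ => η ((N : ℂ) * w))
      ((π * Complex.I / 12) * E2 (mulN N τ) * η ((N : ℂ) * (τ : ℂ)) * (N : ℂ)) (τ : ℂ) :=
    HasDerivAt.comp (τ : ℂ) ha0 hlin
  have hne : η (τ : ℂ) ≠ 0 := ModularForm.eta_ne_zero τ.2
  have hq := ha.div hb hne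
  refine hq.congr_deriv ?_
  unfold etaQuot fE
  field_simp

/-- `Φ(z) = Δ(N z)/Δ(z) = (η(N z)/η(z))^24` -/
def PhiFun (z : ℍ) : ℂ := Δ (mulN N z) / Δ z

theorem PhiFun_eq (z : ℍ) : PhiFun N z = etaQuot N (z : ℂ) ^ 24 := by
  unfold PhiFun etaQuot ModularForm.discriminant
  rw [coe_mulN, div_pow]

theorem PhiFun_ne_zero (z : ℍ) : PhiFun N z ≠ 0 :=
  div_ne_zero (ModularForm.discriminant_ne_zero _) (ModularForm.discriminant_ne_zero _)

theorem PhiFun_smul (γ : SL(2, ℤ)) (hγ : γ ∈ Gamma0 N) (z : ℍ) :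
    PhiFun N (γ • z) = PhiFun N z := by
  have h := Fermat.Agent.S28.DeltaConj.unit_smul_of_mem_Gamma0 N γ hγ z
  have hN : ((N : ℂ) ^ 12) ≠ 0 := pow_ne_zero _ (Nat.cast_ne_zero.mpr (NeZero.ne N))
  unfold PhiFun
  rw [mul_div_assoc, mul_div_assoc] at h
  exact mul_left_cancel₀ hN h

/-- the Eisenstein series `E* = (N E₂(N z) - E₂(z))/24` -/
abbrev Est : ModularForm (Gamma0 N) 2 := EstarMF N

/-- the normalised primitive of `E*` -/
def Fprim : ℍ → ℂ := mprim ⇑(Est N)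

theorem hasDerivAt_Fprim (τ : ℍ) :
    HasDerivAt (Fprim N ∘ ofComplex) ((1 / 24 : ℂ) * fE N τ) (τ : ℂ) := by
  have h := hasDerivAt_mprim_modularForm N (Est N) τ
  rwa [EstarMF_apply] at h

/-- `Ψ(z) = exp(-2πi·24·F(z)) · Φ(z)` -/
def PsiFun (z : ℍ) : ℂ := Complex.exp (-(2 * π * Complex.I * 24 * Fprim N z)) * PhiFun N z

theorem hasDerivAt_PsiFun (τ : ℍ) : HasDerivAt (PsiFun N ∘ ofComplex) 0 (τ : ℂ) := by
  have hF := hasDerivAt_Fprim N τ
  have hexp : HasDerivAt (fun w : ℂ => Complex.exp (-(2 * π * Complex.I * 24 *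
      (Fprim N ∘ ofComplex) w)))
      (Complex.exp (-(2 * π * Complex.I * 24 * (Fprim N ∘ ofComplex) (τ : ℂ))) *
        (-(2 * π * Complex.I * 24 * ((1 / 24 : ℂ) * fE N τ)))) (τ : ℂ) :=
    ((hF.const_mul (2 * π * Complex.I * 24)).neg).cexp
  have hq := (hasDerivAt_etaQuot N τ).pow 24
  have hprod := hexp.mul hq
  have hcongr : (PsiFun N ∘ ofComplex) =ᶠ[𝓝 (τ : ℂ)] fun w : ℂ =>
      Complex.exp (-(2 * π * Complex.I * 24 * (Fprim N ∘ ofComplex) w)) * etaQuot N w ^ 24 := by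
    filter_upwards [isOpen_upperHalfPlaneSet.mem_nhds τ.im_pos] with w hw
    simp only [Function.comp_apply, PsiFun, PhiFun_eq, ofComplex_apply_of_im_pos hw]
  refine (hprod.congr_of_eventuallyEq hcongr).congr_deriv ?_
  simp only [Function.comp_apply, Pi.pow_apply]
  ring

theorem exists_PsiFun_const : ∃ c : ℂ, ∀ z : ℍ, PsiFun N z = c := by
  obtain ⟨a, ha⟩ := Fermat.Agent.S22.exists_eq_add_const_of_hasDerivAt
    (G₁ := PsiFun N) (G₂ := fun _ => (0 : ℂ)) (g := fun _ => (0 : ℂ))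
    (hasDerivAt_PsiFun N) (fun τ => by
      have : ((fun _ : ℍ => (0 : ℂ)) ∘ ofComplex) = fun _ : ℂ => (0 : ℂ) := rfl
      rw [this]; exact hasDerivAt_const _ _)
  exact ⟨a, fun z => by rw [ha z, zero_add]⟩

/-- **Exponential form.** `exp(2πi·24·F(z)) = c · Δ(N z)/Δ(z)` with `c ≠ 0`. -/
theorem exists_exp_Fprim :
    ∃ c : ℂ, c ≠ 0 ∧ ∀ z : ℍ,
      Complex.exp (2 * π * Complex.I * 24 * Fprim N z) = c * PhiFun N z := by
  obtain ⟨a, ha⟩ := exists_PsiFun_const N
  have hane : a ≠ 0 := by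
    rw [← ha I]
    exact mul_ne_zero (Complex.exp_ne_zero _) (PhiFun_ne_zero N I)
  refine ⟨a⁻¹, inv_ne_zero hane, fun z => ?_⟩
  have h := ha z
  unfold PsiFun at h
  rw [Complex.exp_neg] at h
  have he : Complex.exp (2 * π * Complex.I * 24 * Fprim N z) ≠ 0 := Complex.exp_ne_zero _
  field_simp at h ⊢
  rw [h]

/-- Integrality of the Eisenstein periods: `24 · modPeriod E* γ ∈ ℤ`. -/
theorem exists_int_modPeriod (γ : Gamma0 N) :
    ∃ n : ℤ, 24 * modPeriod N (Est N) (Additive.ofMul γ) = (n : ℂ) := by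
  obtain ⟨c, -, h⟩ := exists_exp_Fprim N
  have h1 := h ((γ : SL(2, ℤ)) • I)
  have h2 := h I
  rw [PhiFun_smul N _ γ.2] at h1
  have h3 : Complex.exp (2 * π * Complex.I * 24 * Fprim N ((γ : SL(2, ℤ)) • I)) =
      Complex.exp (2 * π * Complex.I * 24 * Fprim N I) := by rw [h1, h2]
  obtain ⟨n, hn⟩ := Complex.exp_eq_exp_iff_exists_int.mp h3
  refine ⟨n, ?_⟩
  rw [modPeriod_apply N (Est N) γ I]
  have hpi : (2 * π * Complex.I : ℂ) ≠ 0 := Complex.two_pi_I_ne_zero
  have h4 : 2 * π * Complex.I * (24 * (Fprim N ((γ : SL(2, ℤ)) • I) - Fprim N I)) =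
      2 * π * Complex.I * (n : ℂ) := by
    linear_combination hn
  exact mul_left_cancel₀ hpi h4

/-- The integer `24 · modPeriod E* γ`. -/
def psiFun (γ : Additive (Gamma0 N)) : ℤ :=
  (exists_int_modPeriod N (Additive.toMul γ)).choose

theorem psiFun_spec (γ : Additive (Gamma0 N)) :
    ((psiFun N γ : ℤ) : ℂ) = 24 * modPeriod N (Est N) γ :=
  ((exists_int_modPeriod N (Additive.toMul γ)).choose_spec).symm

/-- The Eisenstein period homomorphism `ψ : Γ₀(N) → ℤ`, `ψ = 24 · modPeriod E*`. -/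
def psi : Additive (Gamma0 N) →+ ℤ where
  toFun := psiFun N
  map_zero' := by
    have h := psiFun_spec N 0
    rw [map_zero, mul_zero] at h
    exact_mod_cast h
  map_add' a b := by
    have h : ((psiFun N (a + b) : ℤ) : ℂ) = ((psiFun N a + psiFun N b : ℤ) : ℂ) := by
      push_cast
      rw [psiFun_spec, psiFun_spec, psiFun_spec, map_add]
      ring
    exact_mod_cast h

theorem psi_spec (γ : Additive (Gamma0 N)) :
    ((psi N γ : ℤ) : ℂ) = 24 * modPeriod N (Est N) γ :=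
  psiFun_spec N γ

end

end Fermat.Agent.S16.Lower.DedekindRademacher
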