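import Fermat.Agent.S16.Lower.CountGamma0
import Fermat.Agent.S16.Lower.LatticeRank
import Fermat.Agent.S16.Lower.ShimuraHom
import Fermat.Agent.S22.Gamma0FG

/-!
# S16 (F), lower bound: the Shimura homomorphism factors through the period lattice

`shimuraHom p : Γ₀(p) → ℤ/n` kills parabolic and finite order elements; by the count
(`CountGamma0.card_le_of_par_ell`) and the rank of the period lattice (`LatticeRank`) every such
homomorphism to a finite abelian group factors through `S23.perHomL p : Γ₀(p) → perLattice p`.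
-/

set_option autoImplicit false

namespace Fermat.Agent.S16.Lower.Factor

open CongruenceSubgroup ModularCurve Fermat.Agent.S23
open scoped MatrixGroups

noncomputable section

/-- Homomorphisms from a finitely generated group to a finite abelian group form a finite set. -/
theorem finite_hom_of_fg (Γ : Type*) [Group Γ] [Group.FG Γ] (A : Type*) [AddCommGroup A]
    [Finite A] : Finite (Additive Γ →+ A) := by
  obtain ⟨S, hS, hSfin⟩ := Group.fg_iff.mp (inferInstance : Group.FG Γ)
  have : Finite S := hSfin
  let r : (Additive Γ →+ A) → (S → A) := fun ψ s => ψ (Additive.ofMul (s : Γ))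
  have hr : Function.Injective r := by
    intro ψ ψ' h
    have h1 : (AddMonoidHom.toMultiplicativeRight ψ : Γ →* Multiplicative A) =
        AddMonoidHom.toMultiplicativeRight ψ' := by
      apply MonoidHom.eq_of_eqOn_dense hS
      intro s hs
      have := congrFun h ⟨s, hs⟩
      exact congrArg Multiplicative.ofAdd this
    exact AddMonoidHom.toMultiplicativeRight.injective h1
  exact Finite.of_injective r hr

variable (N : ℕ) [NeZero N] (A : Type*) [AddCommGroup A] [Finite A]

/-- The subgroup of homomorphisms `Γ₀(N) → A` killing the elements of trace `±2` and the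
elements of finite order. -/
def parEll : AddSubgroup (Additive ↥(Gamma0 N) →+ A) where
  carrier := {ψ | (∀ γ : ↥(Gamma0 N),
      ((γ : SL(2, ℤ)) : Matrix (Fin 2) (Fin 2) ℤ).trace ^ 2 = 4 → ψ (Additive.ofMul γ) = 0) ∧
    ∀ γ : ↥(Gamma0 N), γ ^ 12 = 1 → ψ (Additive.ofMul γ) = 0}
  zero_mem' := ⟨fun _ _ => rfl, fun _ _ => rfl⟩
  add_mem' := by
    rintro ψ ψ' ⟨h1, h2⟩ ⟨h1', h2'⟩
    refine ⟨fun γ hγ => ?_, fun γ hγ => ?_⟩
    · rw [AddMonoidHom.add_apply, h1 γ hγ, h1' γ hγ, add_zero]
    · rw [AddMonoidHom.add_apply, h2 γ hγ, h2' γ hγ, add_zero]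
  neg_mem' := by
    rintro ψ ⟨h1, h2⟩
    refine ⟨fun γ hγ => ?_, fun γ hγ => ?_⟩
    · rw [AddMonoidHom.neg_apply, h1 γ hγ, neg_zero]
    · rw [AddMonoidHom.neg_apply, h2 γ hγ, neg_zero]

/-- Homomorphisms through the period lattice kill parabolic and finite order elements. -/
theorem comp_perHomL_mem (α : ↥(perLattice N) →+ A) : α.comp (perHomL N) ∈ parEll N A := by
  refine ⟨fun γ hγ => ?_, fun γ hγ => ?_⟩
  · have h0 : perHomL N (Additive.ofMul γ) = 0 := by
      apply Subtype.ext
      rw [perHomL_coe]
      exact perFun_eq_zero_of_trace N γ hγ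
    rw [AddMonoidHom.comp_apply, h0, map_zero]
  · -- the lattice is torsion free
    have h12 : (12 : ℕ) • perHomL N (Additive.ofMul γ) = 0 := by
      rw [← map_nsmul]
      have : (12 : ℕ) • (Additive.ofMul γ : Additive ↥(Gamma0 N)) = Additive.ofMul (γ ^ 12) := rfl
      rw [this, hγ]
      exact map_zero _
    have h0 : perHomL N (Additive.ofMul γ) = 0 := by
      rcases smul_eq_zero.mp h12 with h | h
      · norm_num at h
      · exact h
    rw [AddMonoidHom.comp_apply, h0, map_zero]

/-- **Factorisation**: every homomorphism `Γ₀(N) → A` (`A` finite abelian) killing the parabolic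
and the finite order elements factors through the period lattice. -/
theorem exists_factor (ψ : Additive ↥(Gamma0 N) →+ A) (hψ : ψ ∈ parEll N A) :
    ∃ α : ↥(perLattice N) →+ A, ψ = α.comp (perHomL N) := by
  have hfg : Group.FG ↥(Gamma0 N) := (Group.fg_iff_subgroup_fg _).mpr (Fermat.Agent.S22.gamma0_fg N)
  have hfin : Finite (Additive ↥(Gamma0 N) →+ A) := finite_hom_of_fg _ A
  have hfinH : Finite ((parEll N A : AddSubgroup _) : Set (Additive ↥(Gamma0 N) →+ A)) :=
    Finite.of_injective (fun x => (x : Additive ↥(Gamma0 N) →+ A)) Subtype.val_injective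
  have hcard : Nat.card ((parEll N A : AddSubgroup _) : Set (Additive ↥(Gamma0 N) →+ A)) ≤
      Nat.card A ^ Module.finrank ℤ ↥(perLattice N) := by
    rw [LatticeRank.finrank_perLattice]
    exact CountGamma0.card_le_of_par_ell N A (parEll N A) (fun ψ hψ => hψ.1) (fun ψ hψ => hψ.2)
  exact HomCard.exists_factor_of_card_le (perHomL N) (span_range_perHomL N)
    ((parEll N A : AddSubgroup _) : Set (Additive ↥(Gamma0 N) →+ A)) (comp_perHomL_mem N A)
    hcard ψ hψ

/-- **The Shimura homomorphism factors through the period lattice.** -/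
theorem exists_factor_shimuraHom (p : ℕ) [Fact p.Prime] :
    ∃ α : ↥(perLattice p) →+ ZMod (eisensteinNumerator p),
      ShimuraHom.shimuraHom p = α.comp (perHomL p) := by
  have : NeZero (eisensteinNumerator p) := ShimuraHom.neZero_eisNum p
  apply exists_factor p (ZMod (eisensteinNumerator p))
  refine ⟨fun γ hγ => ?_, fun γ hγ => ?_⟩
  · apply ShimuraHom.shimuraHom_eq_zero_of_trace
    rwa [Matrix.trace_fin_two] at hγ
  · exact ShimuraHom.shimuraHom_eq_zero_of_finite_order p γ hγ

end

end Fermat.Agent.S16.Lower.Factor
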