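import Fermat.Agent.S23.PeriodLattice
import Fermat.Agent.S16.Alg.KernelForm
import Fermat.Agent.S16.Lower.HomCard

/-!
# S16 (F): the Hecke action on the period lattice and the eigen-functional argument

`latAct N : heckeAlgebra N 2 ∅ →+* Module.End ℤ (perLattice N)`, `ξ ↦ ξ ∘ t`.
A surjective functional `α : perLattice p →+ ZMod n` which is an eigenvector with the Eisenstein
eigenvalues yields `HasEisHom (tGen p) (eisensteinSystem p) n`.
-/

set_option autoImplicit false

namespace Fermat.Agent.S16.Lower.LatticeAction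

open Fermat.Agent.S23 CongruenceSubgroup ModularCurve CuspForm
open Fermat.Agent.S16.Alg.AbstractCard Fermat.Agent.S16.Alg.Dictionary

noncomputable section

variable (N : ℕ) [NeZero N]

/-- `ξ ↦ ξ ∘ t` on the period lattice, for `t` in the Hecke algebra. -/
def latActFun (t : heckeAlgebra N 2 ∅) : Module.End ℤ (perLattice N) where
  toFun ξ := ⟨ξ.1.comp t.1, perLattice_comp_mem N t.2 ξ.2⟩
  map_add' ξ η := by
    apply Subtype.ext
    ext f
    rfl
  map_smul' a ξ := by
    apply Subtype.ext
    ext f
    rfl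

theorem latActFun_coe (t : heckeAlgebra N 2 ∅) (ξ : perLattice N) :
    ((latActFun N t ξ : perLattice N) : Module.Dual ℂ (CuspForm (Gamma0 N) 2)) =
      ξ.1.comp t.1 := rfl

/-- The action of the (commutative) Hecke algebra on the period lattice, as a ring hom. -/
def latAct : heckeAlgebra N 2 ∅ →+* Module.End ℤ (perLattice N) where
  toFun := latActFun N
  map_one' := by
    ext ξ f
    rfl
  map_mul' s t := by
    ext ξ f
    rw [mul_comm s t]
    rfl
  map_zero' := by
    ext ξ f
    show ξ.1 ((0 : Module.End ℂ (CuspForm (Gamma0 N) 2)) f) = 0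
    rw [LinearMap.zero_apply, map_zero]
  map_add' s t := by
    ext ξ f
    show ξ.1 ((s.1 + t.1) f) = ξ.1 (s.1 f) + ξ.1 (t.1 f)
    rw [LinearMap.add_apply, map_add]

theorem latAct_coe (t : heckeAlgebra N 2 ∅) (ξ : perLattice N) :
    ((latAct N t ξ : perLattice N) : Module.Dual ℂ (CuspForm (Gamma0 N) 2)) = ξ.1.comp t.1 := rfl

theorem latAct_apply_apply (t : heckeAlgebra N 2 ∅) (ξ : perLattice N)
    (f : CuspForm (Gamma0 N) 2) :
    ((latAct N t ξ : perLattice N) : Module.Dual ℂ (CuspForm (Gamma0 N) 2)) f = ξ.1 (t.1 f) := rfl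

/-- The action on a generator `perHomL γ`. -/
theorem latAct_perHomL_coe (t : heckeAlgebra N 2 ∅) (γ : Additive (Gamma0 N)) :
    ((latAct N t (perHomL N γ) : perLattice N) : Module.Dual ℂ (CuspForm (Gamma0 N) 2)) =
      (perFun N (Additive.toMul γ)).comp t.1 := rfl

/-- An eigen-relation for `α` checked on the generators `perHomL γ` holds on the lattice. -/
theorem eigen_of_generators {A : Type*} [AddCommGroup A] (α : perLattice N →+ A)
    (t : heckeAlgebra N 2 ∅) (c : ℤ)
    (h : ∀ γ : Additive (Gamma0 N), α (latAct N t (perHomL N γ)) = c • α (perHomL N γ)) :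
    ∀ ξ : perLattice N, α (latAct N t ξ) = c • α ξ := by
  intro ξ
  have hξ : ξ ∈ Submodule.span ℤ (Set.range (perHomL N)) := by
    rw [span_range_perHomL]; trivial
  induction hξ using Submodule.span_induction with
  | mem ξ hξ =>
    obtain ⟨γ, rfl⟩ := hξ
    exact h γ
  | zero => simp
  | add x y _ _ hx hy => rw [map_add, map_add, hx, hy, map_add, smul_add]
  | smul a x _ hx => rw [map_smul, map_zsmul, hx, map_zsmul, smul_comm]

/-- A Hecke polynomial acting as `0` on cusp forms acts as `0` on the period lattice. -/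
theorem latAct_eq_zero_of_heckeEvalForms (P : HeckeAlg) (hP : heckeEvalForms N 2 P = 0)
    (ξ : perLattice N) :
    latAct N (MvPolynomial.aeval (heckeFormsGen N 2) P) ξ = 0 := by
  have : MvPolynomial.aeval (heckeFormsGen N 2) P = 0 := hP
  rw [this, map_zero, LinearMap.zero_apply]

/-- **Eigen-functional argument (divisibility form).** -/
theorem dvd_aeval_of_eigen_functional {n : ℕ} (α : perLattice N →+ ZMod n)
    (hα : Function.Surjective α) (lam : Nat.Primes → ℤ)
    (h : ∀ (ℓ : Nat.Primes) (γ : Additive (Gamma0 N)),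
      α (latAct N (heckeFormsGen N 2 ℓ) (perHomL N γ)) = lam ℓ • α (perHomL N γ))
    (P : HeckeAlg) (hP : heckeEvalForms N 2 P = 0) :
    (n : ℤ) ∣ MvPolynomial.aeval lam P :=
  HomCard.dvd_aeval_of_eigen (latAct N) (heckeFormsGen N 2) lam α hα
    (fun ℓ ξ => eigen_of_generators N α _ _ (h ℓ) ξ) P
    (latAct_eq_zero_of_heckeEvalForms N P hP)

/-- **Eigen-functional argument (final form).**  A surjective functional on the period lattice of
`Γ₀(p)` with values in `ZMod n` which is an eigenvector for all `T_ℓ` (`ℓ ≠ p`) and `U_p` with the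
Eisenstein eigenvalues gives an Eisenstein homomorphism `𝕋 →+* ZMod n`. -/
theorem hasEisHom_of_eigen_functional (p : ℕ) [Fact p.Prime] {n : ℕ}
    (α : perLattice p →+ ZMod n) (hα : Function.Surjective α)
    (h : ∀ (ℓ : Nat.Primes) (γ : Additive (Gamma0 p)),
      α (latAct p (heckeFormsGen p 2 ℓ) (perHomL p γ)) =
        eisensteinSystem p ℓ • α (perHomL p γ)) :
    HasEisHom (tGen p) (eisensteinSystem p) n :=
  Fermat.Agent.S16.Alg.KernelForm.hasEisHom_of_kernel p n fun P hP =>
    dvd_aeval_of_eigen_functional p α hα (eisensteinSystem p) h P hP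

end

end Fermat.Agent.S16.Lower.LatticeAction
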