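import Mathlib
import Fermat.Prelude.Def_ModularCurve_PeriodMap
import Fermat.Agent.S21.Parabolic
import Fermat.Agent.S21.ParHomBound

/-!
# S16 (F-par): a parabolicity criterion for homomorphisms `Γ₀(p) → A`

For `p` prime and `A = ℂ` or `ℤ`, a homomorphism `φ : Γ₀(p) → A` vanishes on all elements of trace
`±2` as soon as `φ T = 0`.  The two ingredients are

* the *transfer relation* `φ T = φ T'`, `T' = [[1,0],[p,1]]`, valid for every homomorphism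
  (the transfer of `φ` to `SL(2,ℤ)` vanishes, and `T` has exactly two orbits on the cosets);
* the classification of the elements of trace `±2` in `Γ₀(p)`: they are `±` conjugates (inside
  `Γ₀(p)`) of powers of `T` or of `T'`.
-/

set_option autoImplicit false
set_option linter.unusedSectionVars false

namespace Fermat.Agent.S16.Lower.ParabolicCrit

open scoped MatrixGroups
open ModularGroup CongruenceSubgroup ModularCurve.Period Matrix
open Fermat.Agent.S21 Fermat.Agent.S21.ParHom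

noncomputable section

/-! ### Matrix computations -/

theorem S_inv_mul_T_zpow_mul_S (n : ℤ) :
    ((S⁻¹ * T ^ n * S : SL(2, ℤ)) : Matrix (Fin 2) (Fin 2) ℤ) = !![1, 0; -n, 1] := by
  rw [Matrix.SpecialLinearGroup.coe_mul, Matrix.SpecialLinearGroup.coe_mul, coe_T_zpow,
    Matrix.SpecialLinearGroup.coe_inv, coe_S, adjugate_fin_two_of]
  ext i j
  fin_cases i <;> fin_cases j <;> simp [Matrix.mul_apply, Fin.sum_univ_two]

theorem T_zpow_mul_S_apply_one_zero (n : ℤ) : (T ^ n * S : SL(2, ℤ)) 1 0 = 1 := by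
  have : ((T ^ n * S : SL(2, ℤ)) : Matrix (Fin 2) (Fin 2) ℤ) = !![n, -1; 1, 0] := by
    rw [Matrix.SpecialLinearGroup.coe_mul, coe_T_zpow, coe_S]
    ext i j
    fin_cases i <;> fin_cases j <;> simp [Matrix.mul_apply, Fin.sum_univ_two]
  show ((T ^ n * S : SL(2, ℤ)) : Matrix (Fin 2) (Fin 2) ℤ) 1 0 = 1
  rw [this]
  rfl

/-- the `(1,0)` entry of `(T^i S)⁻¹ g`. -/
theorem inv_mul_apply_one_zero (i : ℤ) (g : SL(2, ℤ)) :
    ((T ^ i * S)⁻¹ * g : SL(2, ℤ)) 1 0 = i * g 1 0 - g 0 0 := by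
  have h1 : ((T ^ i * S)⁻¹ : SL(2, ℤ)) = S⁻¹ * T ^ (-i) := by
    rw [_root_.mul_inv_rev, _root_.zpow_neg]
  have h2 : ((S⁻¹ * T ^ (-i) : SL(2, ℤ)) : Matrix (Fin 2) (Fin 2) ℤ) = !![0, 1; -1, i] := by
    rw [Matrix.SpecialLinearGroup.coe_mul, coe_T_zpow, Matrix.SpecialLinearGroup.coe_inv, coe_S,
      adjugate_fin_two_of]
    ext a b
    fin_cases a <;> fin_cases b <;> simp [Matrix.mul_apply, Fin.sum_univ_two]
  show ((((T ^ i * S)⁻¹ * g : SL(2, ℤ))) : Matrix (Fin 2) (Fin 2) ℤ) 1 0 = _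
  rw [h1, Matrix.SpecialLinearGroup.coe_mul, h2]
  simp [Matrix.mul_apply, Fin.sum_univ_two]
  ring

theorem T_zpow_mul_S_apply_zero_zero (n : ℤ) : (T ^ n * S : SL(2, ℤ)) 0 0 = n := by
  have : ((T ^ n * S : SL(2, ℤ)) : Matrix (Fin 2) (Fin 2) ℤ) = !![n, -1; 1, 0] := by
    rw [Matrix.SpecialLinearGroup.coe_mul, coe_T_zpow, coe_S]
    ext i j
    fin_cases i <;> fin_cases j <;> simp [Matrix.mul_apply, Fin.sum_univ_two]
  show ((T ^ n * S : SL(2, ℤ)) : Matrix (Fin 2) (Fin 2) ℤ) 0 0 = n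
  rw [this]
  rfl

/-! ### The cosets of `Γ₀(p)` -/

variable (p : ℕ) [Fact p.Prime]

/-- the coset space. -/
abbrev X : Type := SL(2, ℤ) ⧸ Gamma0 p

theorem mem_Gamma0_iff_dvd (g : SL(2, ℤ)) : g ∈ Gamma0 p ↔ (p : ℤ) ∣ g 1 0 := by
  rw [Gamma0_mem, ZMod.intCast_zmod_eq_zero_iff_dvd]

theorem neg_one_mem : (-1 : SL(2, ℤ)) ∈ Gamma0 p := by
  rw [Gamma0_mem]
  simp

/-- the base point of the big `T`-orbit. -/
abbrev y0 : X p := QuotientGroup.mk S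

theorem T_zpow_smul_y0 (i : ℤ) : (T ^ i) • y0 p = QuotientGroup.mk (T ^ i * S) := rfl

theorem mk_eq_x0_iff (g : SL(2, ℤ)) :
    (QuotientGroup.mk g : X p) = x0 (Gamma0 p) ↔ g ∈ Gamma0 p := by
  rw [x0, QuotientGroup.eq, mul_one]
  exact inv_mem_iff

theorem mk_eq_T_zpow_smul_y0_iff (i : ℤ) (g : SL(2, ℤ)) :
    (QuotientGroup.mk g : X p) = (T ^ i) • y0 p ↔ (p : ℤ) ∣ i * g 1 0 - g 0 0 := by
  rw [T_zpow_smul_y0, eq_comm, QuotientGroup.eq, mem_Gamma0_iff_dvd, inv_mul_apply_one_zero]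

theorem T_zpow_smul_y0_eq_iff (i j : ℤ) :
    (T ^ i) • y0 p = (T ^ j) • y0 p ↔ (p : ℤ) ∣ j - i := by
  rw [T_zpow_smul_y0 p i, mk_eq_T_zpow_smul_y0_iff, T_zpow_mul_S_apply_one_zero,
    T_zpow_mul_S_apply_zero_zero, mul_one]

theorem T_zpow_smul_y0_ne_x0 (i : ℤ) : (T ^ i) • y0 p ≠ x0 (Gamma0 p) := by
  rw [T_zpow_smul_y0, Ne, mk_eq_x0_iff, mem_Gamma0_iff_dvd, T_zpow_mul_S_apply_one_zero]
  intro h
  have hp : (p : ℤ) = 1 ∨ (p : ℤ) = -1 := by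
    have := Int.isUnit_iff.mp (isUnit_of_dvd_one h)
    exact this
  have h2 : 2 ≤ p := (Fact.out : p.Prime).two_le
  omega

/-- every coset is the base point or in the `T`-orbit of `y0`. -/
theorem orbit_cases (x : X p) :
    x = x0 (Gamma0 p) ∨ ∃ i : ℕ, i < p ∧ x = (T ^ (i : ℤ)) • y0 p := by
  induction x using QuotientGroup.induction_on with
  | H g =>
    by_cases h : (p : ℤ) ∣ g 1 0
    · left
      exact (mk_eq_x0_iff p g).mpr ((mem_Gamma0_iff_dvd p g).mpr h)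
    · right
      have hc : ((g 1 0 : ℤ) : ZMod p) ≠ 0 := by
        rw [Ne, ZMod.intCast_zmod_eq_zero_iff_dvd]
        exact h
      refine ⟨(((g 0 0 : ℤ) : ZMod p) * ((g 1 0 : ℤ) : ZMod p)⁻¹).val, ZMod.val_lt _, ?_⟩
      rw [mk_eq_T_zpow_smul_y0_iff, ← ZMod.intCast_zmod_eq_zero_iff_dvd]
      push_cast
      rw [ZMod.natCast_zmod_val, mul_assoc, inv_mul_cancel₀ hc, mul_one, sub_self]

/-- the parametrisation of the cosets by `Option (Fin p)`. -/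
def param : Option (Fin p) → X p
  | none => x0 (Gamma0 p)
  | some i => (T ^ ((i : ℕ) : ℤ)) • y0 p

theorem param_bijective : Function.Bijective (param p) := by
  constructor
  · rintro (_ | i) (_ | j) h
    · rfl
    · exact absurd h.symm (T_zpow_smul_y0_ne_x0 p _)
    · exact absurd h (T_zpow_smul_y0_ne_x0 p _)
    · simp only [param] at h
      rw [T_zpow_smul_y0_eq_iff] at h
      congr 1
      apply Fin.ext
      have hi := i.2
      have hj := j.2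
      obtain ⟨k, hk⟩ := h
      have : k = 0 := by
        by_contra hk0
        have h1 : (p : ℤ) ≤ |(p : ℤ) * k| := by
          rw [abs_mul]
          have : (1 : ℤ) ≤ |k| := Int.one_le_abs hk0
          have hp0 : (0 : ℤ) ≤ |(p : ℤ)| := abs_nonneg _
          have hpp : |(p : ℤ)| = p := abs_of_nonneg (by positivity)
          nlinarith
        rw [← hk] at h1
        have h2 : |((j : ℕ) : ℤ) - ((i : ℕ) : ℤ)| < p := by
          rw [abs_lt]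
          constructor <;> omega
        omega
      rw [this, mul_zero] at hk
      omega
  · intro x
    rcases orbit_cases p x with rfl | ⟨i, hi, rfl⟩
    · exact ⟨none, rfl⟩
    · exact ⟨some ⟨i, hi⟩, rfl⟩

/-- a `Fintype` structure on the coset space (local). -/
local instance fintypeX : Fintype (X p) := Fintype.ofFinite _

theorem sum_X (f : X p → ℂ) :
    ∑ x, f x = f (x0 (Gamma0 p)) + ∑ i ∈ Finset.range p, f ((T ^ ((i : ℕ) : ℤ)) • y0 p) := by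
  rw [← (param_bijective p).sum_comp f, Fintype.sum_option]
  congr 1
  exact Fin.sum_univ_eq_sum_range (fun i => f ((T ^ ((i : ℕ) : ℤ)) • y0 p)) p

/-! ### The transfer relation -/

/-- `T` as an element of `Γ₀(p)`. -/
def Tp : Gamma0 p := ⟨T, by
  rw [mem_Gamma0_iff_dvd]
  have : (T : SL(2, ℤ)) 1 0 = 0 := by
    show ((T : SL(2, ℤ)) : Matrix (Fin 2) (Fin 2) ℤ) 1 0 = 0
    rw [coe_T]; rfl
  rw [this]
  exact dvd_zero _⟩

theorem S_inv_mul_T_zpow_mul_S_mem (k : ℤ) : S⁻¹ * T ^ ((p : ℤ) * k) * S ∈ Gamma0 p := by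
  rw [mem_Gamma0_iff_dvd]
  have : (S⁻¹ * T ^ ((p : ℤ) * k) * S : SL(2, ℤ)) 1 0 = -((p : ℤ) * k) := by
    show ((S⁻¹ * T ^ ((p : ℤ) * k) * S : SL(2, ℤ)) : Matrix (Fin 2) (Fin 2) ℤ) 1 0 = _
    rw [S_inv_mul_T_zpow_mul_S]; rfl
  rw [this]
  exact (dvd_mul_right _ _).neg_right

/-- `T' = [[1,0],[p,1]] = S⁻¹ T^(-p) S` as an element of `Γ₀(p)`. -/
def Tp' : Gamma0 p := ⟨S⁻¹ * T ^ ((p : ℤ) * (-1)) * S, S_inv_mul_T_zpow_mul_S_mem p (-1)⟩

theorem coe_Tp' : (((Tp' p : Gamma0 p) : SL(2, ℤ)) : Matrix (Fin 2) (Fin 2) ℤ) = !![1, 0; (p : ℤ), 1] := by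
  show ((S⁻¹ * T ^ ((p : ℤ) * (-1)) * S : SL(2, ℤ)) : Matrix (Fin 2) (Fin 2) ℤ) = _
  rw [S_inv_mul_T_zpow_mul_S]
  simp

/-- `S⁻¹ T^(p k) S = T'^(-k)`. -/
theorem S_inv_mul_T_zpow_mul_S_eq (k : ℤ) :
    (⟨S⁻¹ * T ^ ((p : ℤ) * k) * S, S_inv_mul_T_zpow_mul_S_mem p k⟩ : Gamma0 p) = (Tp' p) ^ (-k) := by
  apply Subtype.ext
  rw [Subgroup.coe_zpow]
  show S⁻¹ * T ^ ((p : ℤ) * k) * S = (S⁻¹ * T ^ ((p : ℤ) * (-1)) * S) ^ (-k)
  have h : ∀ (b : SL(2, ℤ)) (i : ℤ), (S⁻¹ * b * S) ^ i = S⁻¹ * b ^ i * S := by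
    intro b i
    have := conj_zpow (a := (S⁻¹ : SL(2, ℤ))) (b := b) (i := i)
    rwa [inv_inv] at this
  rw [h, ← _root_.zpow_mul]
  congr 3
  ring

variable (ψ : Additive (Gamma0 p) →+ ℂ)

theorem sum_dco_S : ∑ x : X p, dco (Gamma0 p) ψ S x = 0 := by
  have hc := isCoc_dco (Gamma0 p) ψ
  have hX := neg_one_smul_quot (Gamma0 p) (neg_one_mem p)
  have h := (mem_Asub_iff _).mp (hc.S_mem hX)
  have h1 : ∑ x : X p, (dco (Gamma0 p) ψ S x + dco (Gamma0 p) ψ S (S • x)) = 0 :=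
    Finset.sum_eq_zero fun x _ => h x
  rw [Finset.sum_add_distrib] at h1
  have h2 : ∑ x : X p, dco (Gamma0 p) ψ S (S • x) = ∑ x : X p, dco (Gamma0 p) ψ S x :=
    Equiv.sum_comp (MulAction.toPerm (S : SL(2, ℤ))) (dco (Gamma0 p) ψ S)
  rw [h2] at h1
  linear_combination (1 / 2 : ℂ) * h1

theorem sum_dco_ST : ∑ x : X p, dco (Gamma0 p) ψ (S * T) x = 0 := by
  have hc := isCoc_dco (Gamma0 p) ψ
  have hX := neg_one_smul_quot (Gamma0 p) (neg_one_mem p)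
  have h := (mem_Bsub_iff _).mp (hc.U_mem hX)
  have h1 : ∑ x : X p, (dco (Gamma0 p) ψ (S * T) x + dco (Gamma0 p) ψ (S * T) ((S * T) • x)
      + dco (Gamma0 p) ψ (S * T) ((S * T) • ((S * T) • x))) = 0 :=
    Finset.sum_eq_zero fun x _ => h x
  rw [Finset.sum_add_distrib, Finset.sum_add_distrib] at h1
  have h2 : ∑ x : X p, dco (Gamma0 p) ψ (S * T) ((S * T) • x)
      = ∑ x : X p, dco (Gamma0 p) ψ (S * T) x :=
    Equiv.sum_comp (MulAction.toPerm (S * T : SL(2, ℤ))) (dco (Gamma0 p) ψ (S * T))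
  have h3 : ∑ x : X p, dco (Gamma0 p) ψ (S * T) ((S * T) • ((S * T) • x))
      = ∑ x : X p, dco (Gamma0 p) ψ (S * T) x := by
    rw [← h2]
    exact Equiv.sum_comp (MulAction.toPerm (S * T : SL(2, ℤ)))
      (fun x => dco (Gamma0 p) ψ (S * T) ((S * T) • x))
  rw [h2, h3] at h1
  linear_combination (1 / 3 : ℂ) * h1

theorem sum_dco_T : ∑ x : X p, dco (Gamma0 p) ψ T x = 0 := by
  have hc := isCoc_dco (Gamma0 p) ψ
  have h1 : ∀ x : X p, dco (Gamma0 p) ψ T x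
      = dco (Gamma0 p) ψ (S * T) x - dco (Gamma0 p) ψ S (T • x) := fun x => hc.T_apply x
  rw [Finset.sum_congr rfl fun x _ => h1 x, Finset.sum_sub_distrib, sum_dco_ST]
  have h2 : ∑ x : X p, dco (Gamma0 p) ψ S (T • x) = ∑ x : X p, dco (Gamma0 p) ψ S x :=
    Equiv.sum_comp (MulAction.toPerm (T : SL(2, ℤ))) (dco (Gamma0 p) ψ S)
  rw [h2, sum_dco_S, sub_zero]

theorem T_pow_smul_y0 : (T ^ p : SL(2, ℤ)) • y0 p = y0 p := by
  have h := (T_zpow_smul_y0_eq_iff p (p : ℤ) 0).mpr (by simp)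
  rw [zpow_zero, one_smul, zpow_natCast] at h
  exact h

theorem dco_T_pow_y0 :
    dco (Gamma0 p) ψ (T ^ p) (y0 p) = -ψ (Additive.ofMul (Tp' p)) := by
  have hfix := T_pow_smul_y0 p
  have hr' : (QuotientGroup.mk (Quotient.out (y0 p)) : X p) = QuotientGroup.mk S :=
    QuotientGroup.out_eq' _
  have hmem : S⁻¹ * Quotient.out (y0 p) ∈ Gamma0 p := QuotientGroup.eq.mp hr'.symm
  have hk : kap (Gamma0 p) (T ^ p) (y0 p)
      = (⟨S⁻¹ * Quotient.out (y0 p), hmem⟩ : Gamma0 p)⁻¹ * (Tp' p)⁻¹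
        * ⟨S⁻¹ * Quotient.out (y0 p), hmem⟩ := by
    apply Subtype.ext
    simp only [kap, hfix, Subgroup.coe_mul, Subgroup.coe_inv]
    show (Quotient.out (y0 p))⁻¹ * (T ^ p * Quotient.out (y0 p))
      = (S⁻¹ * Quotient.out (y0 p))⁻¹ * (S⁻¹ * T ^ ((p : ℤ) * (-1)) * S)⁻¹
        * (S⁻¹ * Quotient.out (y0 p))
    rw [mul_neg_one, _root_.zpow_neg, zpow_natCast]
    group
  rw [dco, hk, ofMul_mul, ofMul_mul, ofMul_inv, ofMul_inv, map_add, map_add, map_neg, map_neg]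
  ring

/-- **Transfer relation.**  Every homomorphism `Γ₀(p) → ℂ` takes the same value at `T` and at
`T' = [[1,0],[p,1]]`. -/
theorem map_Tp_eq_map_Tp' : ψ (Additive.ofMul (Tp p)) = ψ (Additive.ofMul (Tp' p)) := by
  have h := sum_dco_T p ψ
  rw [sum_X] at h
  have hc := isCoc_dco (Gamma0 p) ψ
  have h1 : dco (Gamma0 p) ψ T (x0 (Gamma0 p)) = ψ (Additive.ofMul (Tp p)) :=
    dco_x0 (Gamma0 p) ψ T (Tp p).2
  have h2 : ∑ i ∈ Finset.range p, dco (Gamma0 p) ψ T ((T ^ ((i : ℕ) : ℤ)) • y0 p)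
      = dco (Gamma0 p) ψ (T ^ p) (y0 p) := by
    rw [hc.T_pow p (y0 p)]
    refine Finset.sum_congr rfl fun i _ => ?_
    rw [zpow_natCast]
  rw [h1, h2, dco_T_pow_y0] at h
  linear_combination h

/-! ### Extension by zero, and the classification of elements of trace `±2` -/

open Classical in
/-- `ψ` extended by zero to `SL(2,ℤ)` (convenient to avoid membership proofs). -/
def extZ (g : SL(2, ℤ)) : ℂ := if h : g ∈ Gamma0 p then ψ (Additive.ofMul ⟨g, h⟩) else 0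

theorem extZ_of_mem {g : SL(2, ℤ)} (h : g ∈ Gamma0 p) :
    extZ p ψ g = ψ (Additive.ofMul ⟨g, h⟩) := dif_pos h

theorem extZ_mul {g h : SL(2, ℤ)} (hg : g ∈ Gamma0 p) (hh : h ∈ Gamma0 p) :
    extZ p ψ (g * h) = extZ p ψ g + extZ p ψ h := by
  rw [extZ_of_mem p ψ hg, extZ_of_mem p ψ hh, extZ_of_mem p ψ (mul_mem hg hh), ← map_add]
  rfl

theorem extZ_one : extZ p ψ 1 = 0 := by
  rw [extZ_of_mem p ψ (one_mem _)]
  exact map_zero ψ

theorem extZ_inv {g : SL(2, ℤ)} (hg : g ∈ Gamma0 p) : extZ p ψ g⁻¹ = -extZ p ψ g := by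
  have h := extZ_mul p ψ hg (inv_mem hg)
  rw [mul_inv_cancel, extZ_one] at h
  linear_combination -h

theorem extZ_neg_one : extZ p ψ (-1) = 0 := by
  have h := extZ_mul p ψ (neg_one_mem p) (neg_one_mem p)
  rw [neg_mul_neg, one_mul, extZ_one] at h
  linear_combination -(1 / 2 : ℂ) * h

theorem neg_mem_iff {g : SL(2, ℤ)} : -g ∈ Gamma0 p ↔ g ∈ Gamma0 p := by
  constructor
  · intro h
    have := mul_mem (neg_one_mem p) h
    rwa [neg_one_mul, neg_neg] at this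
  · intro h
    have := mul_mem (neg_one_mem p) h
    rwa [neg_one_mul] at this

theorem extZ_neg {g : SL(2, ℤ)} (hg : g ∈ Gamma0 p) : extZ p ψ (-g) = extZ p ψ g := by
  rw [← neg_one_mul, extZ_mul p ψ (neg_one_mem p) hg, extZ_neg_one, zero_add]

theorem extZ_conj {h t : SL(2, ℤ)} (hh : h ∈ Gamma0 p) (ht : t ∈ Gamma0 p) :
    extZ p ψ (h * t * h⁻¹) = extZ p ψ t := by
  rw [extZ_mul p ψ (mul_mem hh ht) (inv_mem hh), extZ_mul p ψ hh ht, extZ_inv p ψ hh]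
  ring

theorem extZ_pow {g : SL(2, ℤ)} (hg : g ∈ Gamma0 p) (n : ℕ) :
    extZ p ψ (g ^ n) = n * extZ p ψ g := by
  induction n with
  | zero => simp [extZ_one]
  | succ n ih =>
    rw [pow_succ, extZ_mul p ψ (pow_mem hg n) hg, ih]
    push_cast
    ring

theorem extZ_zpow {g : SL(2, ℤ)} (hg : g ∈ Gamma0 p) (n : ℤ) :
    extZ p ψ (g ^ n) = n * extZ p ψ g := by
  obtain ⟨m, rfl | rfl⟩ := n.eq_nat_or_neg
  · rw [zpow_natCast, extZ_pow p ψ hg]
    simp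
  · rw [_root_.zpow_neg, zpow_natCast, extZ_inv p ψ (pow_mem hg m), extZ_pow p ψ hg]
    push_cast
    ring

/-- an element of `SL(2,ℤ)` with lower left entry `0` is `± T ^ n`. -/
theorem eq_T_zpow_or_neg (g : SL(2, ℤ)) (hg : g 1 0 = 0) :
    ∃ n : ℤ, g = T ^ n ∨ g = -T ^ n := by
  have hdet : g 0 0 * g 1 1 - g 0 1 * g 1 0 = 1 := by
    have := g.det_coe
    rw [Matrix.det_fin_two] at this
    exact this
  rw [hg, mul_zero, sub_zero] at hdet
  rcases Int.mul_eq_one_iff_eq_one_or_neg_one.mp hdet with ⟨ha, hd⟩ | ⟨ha, hd⟩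
  · refine ⟨g 0 1, Or.inl ?_⟩
    apply Subtype.ext
    rw [coe_T_zpow]
    ext i j
    fin_cases i <;> fin_cases j
    · exact ha
    · rfl
    · exact hg
    · exact hd
  · refine ⟨-g 0 1, Or.inr ?_⟩
    apply Subtype.ext
    rw [Matrix.SpecialLinearGroup.coe_neg, coe_T_zpow]
    ext i j
    fin_cases i <;> fin_cases j
    · simpa using ha
    · simp
    · simpa using hg
    · simpa using hd

theorem extZ_eq_zero_of_conj {h t γ : SL(2, ℤ)} (hh : h ∈ Gamma0 p) (ht : t ∈ Gamma0 p)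
    (h0 : extZ p ψ t = 0) (hγ : γ = h * t * h⁻¹ ∨ γ = -(h * t * h⁻¹)) : extZ p ψ γ = 0 := by
  have hmem : h * t * h⁻¹ ∈ Gamma0 p := mul_mem (mul_mem hh ht) (inv_mem hh)
  rcases hγ with rfl | rfl
  · rw [extZ_conj p ψ hh ht, h0]
  · rw [extZ_neg p ψ hmem, extZ_conj p ψ hh ht, h0]

/-- **Key step.**  If `ψ T = 0` then `ψ` vanishes on every element of trace `±2`. -/
theorem extZ_eq_zero_of_trace_sq (hT : ψ (Additive.ofMul (Tp p)) = 0) (γ : SL(2, ℤ))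
    (hγ : γ ∈ Gamma0 p) (htr : (γ : Matrix (Fin 2) (Fin 2) ℤ).trace ^ 2 = 4) :
    extZ p ψ γ = 0 := by
  have hTmem : (T : SL(2, ℤ)) ∈ Gamma0 p := (Tp p).2
  have hT0 : extZ p ψ T = 0 := by rw [extZ_of_mem p ψ hTmem]; exact hT
  obtain ⟨δ, hδ⟩ := exists_conj_c_eq_zero γ htr
  obtain ⟨n, hn⟩ := eq_T_zpow_or_neg _ hδ
  -- `γ = ± δ T^n δ⁻¹`
  have hγ' : γ = δ * T ^ n * δ⁻¹ ∨ γ = -(δ * T ^ n * δ⁻¹) := by
    rcases hn with hn | hn
    · left
      rw [← hn]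
      group
    · right
      have : δ⁻¹ * γ * δ = -T ^ n := hn
      have h2 : T ^ n = -(δ⁻¹ * γ * δ) := by rw [this, neg_neg]
      rw [h2, mul_neg, neg_mul, neg_neg]
      group
  rcases orbit_cases p (QuotientGroup.mk δ⁻¹ : X p) with hx | ⟨i, -, hx⟩
  · -- `δ ∈ Γ₀(p)`
    have hδmem : δ ∈ Gamma0 p := by
      have := (mk_eq_x0_iff p δ⁻¹).mp hx
      simpa using inv_mem this
    exact extZ_eq_zero_of_conj p ψ hδmem (zpow_mem hTmem n)
      (by rw [extZ_zpow p ψ hTmem, hT0, mul_zero]) hγ'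
  · -- `δ⁻¹ = T^i S γ₁`
    have hγ1 : (T ^ (i : ℤ) * S)⁻¹ * δ⁻¹ ∈ Gamma0 p := by
      rw [T_zpow_smul_y0, eq_comm, QuotientGroup.eq] at hx
      exact hx
    set γ1 : SL(2, ℤ) := (T ^ (i : ℤ) * S)⁻¹ * δ⁻¹ with hγ1def
    have hδ' : δ = γ1⁻¹ * (S⁻¹ * T ^ (-(i : ℤ))) := by
      rw [hγ1def]
      rw [_root_.zpow_neg]
      group
    have hconj : δ * T ^ n * δ⁻¹ = γ1⁻¹ * (S⁻¹ * T ^ n * S) * (γ1⁻¹)⁻¹ := by
      rw [hδ', _root_.zpow_neg]
      group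
    rw [hconj] at hγ'
    -- `S⁻¹ T^n S ∈ Γ₀(p)`
    have htmem : S⁻¹ * T ^ n * S ∈ Gamma0 p := by
      have h1 : γ1⁻¹ * (S⁻¹ * T ^ n * S) * (γ1⁻¹)⁻¹ ∈ Gamma0 p := by
        rcases hγ' with h | h
        · rw [← h]; exact hγ
        · rw [← neg_mem_iff p, ← h]; exact hγ
      have h2 := mul_mem (mul_mem hγ1 h1) (inv_mem hγ1)
      have h3 : γ1 * (γ1⁻¹ * (S⁻¹ * T ^ n * S) * (γ1⁻¹)⁻¹) * γ1⁻¹ = S⁻¹ * T ^ n * S := by group
      rwa [h3] at h2
    have hpn : (p : ℤ) ∣ n := by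
      rw [mem_Gamma0_iff_dvd] at htmem
      have : (S⁻¹ * T ^ n * S : SL(2, ℤ)) 1 0 = -n := by
        show ((S⁻¹ * T ^ n * S : SL(2, ℤ)) : Matrix (Fin 2) (Fin 2) ℤ) 1 0 = _
        rw [S_inv_mul_T_zpow_mul_S]; rfl
      rw [this] at htmem
      exact (dvd_neg.mp htmem)
    obtain ⟨k, rfl⟩ := hpn
    have ht0 : extZ p ψ (S⁻¹ * T ^ ((p : ℤ) * k) * S) = 0 := by
      rw [extZ_of_mem p ψ (S_inv_mul_T_zpow_mul_S_mem p k), S_inv_mul_T_zpow_mul_S_eq, ofMul_zpow,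
        map_zsmul, ← map_Tp_eq_map_Tp', hT, smul_zero]
    exact extZ_eq_zero_of_conj p ψ (inv_mem hγ1) htmem ht0 hγ'

/-! ### The criterion -/

theorem trace_Tp_sq :
    ((((Tp p : Gamma0 p) : SL(2, ℤ)) : Matrix (Fin 2) (Fin 2) ℤ)).trace ^ 2 = 4 := by
  show ((T : SL(2, ℤ)) : Matrix (Fin 2) (Fin 2) ℤ).trace ^ 2 = 4
  rw [coe_T, Matrix.trace_fin_two]
  norm_num

/-- **Parabolicity criterion (`ℂ`-valued).**  A homomorphism `ψ : Γ₀(p) → ℂ` is parabolic iff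
`ψ T = 0`. -/
theorem isParabolicHom_iff : IsParabolicHom (Gamma0 p) ψ ↔ ψ (Additive.ofMul (Tp p)) = 0 := by
  constructor
  · intro h
    exact h (Tp p) (trace_Tp_sq p)
  · intro hT γ hγ
    have := extZ_eq_zero_of_trace_sq p ψ hT (γ : SL(2, ℤ)) γ.2 hγ
    rwa [extZ_of_mem p ψ γ.2] at this

/-- the complexification of an integer valued homomorphism. -/
def toC (φ : Additive (Gamma0 p) →+ ℤ) : Additive (Gamma0 p) →+ ℂ :=
  (Int.castAddHom ℂ).comp φ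

theorem toC_apply (φ : Additive (Gamma0 p) →+ ℤ) (γ : Additive (Gamma0 p)) :
    toC p φ γ = ((φ γ : ℤ) : ℂ) := rfl

/-- **Transfer relation (`ℤ`-valued).** -/
theorem map_Tp_eq_map_Tp'_int (φ : Additive (Gamma0 p) →+ ℤ) :
    φ (Additive.ofMul (Tp p)) = φ (Additive.ofMul (Tp' p)) := by
  have h := map_Tp_eq_map_Tp' p (toC p φ)
  rw [toC_apply, toC_apply] at h
  exact_mod_cast h

/-- **Parabolicity criterion (`ℤ`-valued).** -/
theorem isParabolicHom_int_iff (φ : Additive (Gamma0 p) →+ ℤ) :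
    IsParabolicHom (Gamma0 p) φ ↔ φ (Additive.ofMul (Tp p)) = 0 := by
  constructor
  · intro h
    exact h (Tp p) (trace_Tp_sq p)
  · intro hT γ hγ
    have h0 : toC p φ (Additive.ofMul (Tp p)) = 0 := by rw [toC_apply, hT]; simp
    have := (isParabolicHom_iff p (toC p φ)).mpr h0 γ hγ
    rw [toC_apply] at this
    exact_mod_cast this

/-- **Consumer form.**  If `φ₁ T = 1` then `ψ - ψ(T) • φ₁` is a parabolic homomorphism, for any
`ψ : Γ₀(p) → ℤ`. -/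
theorem sub_smul_mem_parabolicHoms (φ ψ : Additive (Gamma0 p) →+ ℤ)
    (h1 : φ (Additive.ofMul (Tp p)) = 1) :
    ψ - (ψ (Additive.ofMul (Tp p))) • φ ∈ parabolicHoms ℤ (Gamma0 p) ℤ := by
  rw [mem_parabolicHoms_iff, isParabolicHom_int_iff]
  simp [h1]

/-- the same with complex values. -/
theorem sub_smul_mem_parabolicHoms_complex (φ ψ : Additive (Gamma0 p) →+ ℂ)
    (h1 : φ (Additive.ofMul (Tp p)) = 1) :
    ψ - (ψ (Additive.ofMul (Tp p))) • φ ∈ parabolicHoms ℂ (Gamma0 p) ℂ := by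
  rw [mem_parabolicHoms_iff, isParabolicHom_iff]
  simp [h1]

end

end Fermat.Agent.S16.Lower.ParabolicCrit
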