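import Mathlib

set_option autoImplicit false

/-!
# S16 (F): the homomorphism `φ₁ : Γ₀(N) → ℤ` with `φ₁(T) = 1`

`φ₁(γ)` is the signed number of `Γ₀(N)`-translates of the geodesic from `0` to `i∞` crossed on the
way from `z₀` to `γ z₀`, where `z₀ = i/√N`.  For `h = [[a,b],[c,d]]` the sign of `Re (h z₀)` is the
sign of the integer `a c + N b d`, so that everything is integer arithmetic:
`2 φ₁(γ) = ∑_{h ∈ Γ₀(N)} ([0 < q(hγ)] - [0 < q(h)])`, `q(h) = ac + N bd`.
-/

namespace Fermat.Agent.S16.Lower.Phi1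

open Matrix Matrix.SpecialLinearGroup ModularGroup CongruenceSubgroup
open scoped MatrixGroups

/-! ## The arithmetic core -/

/-- If the two "sides" `X + N Z` and `A X + D Z + B M` differ in sign, then `X`, `Z` satisfy a
strong inequality. Here `M² = 1 + 4 X Z` and `A D - B² = N`. -/
theorem key_ineq {N X Z M A D B : ℤ} (hN : 1 ≤ N) (hM : M ^ 2 = 1 + 4 * (X * Z))
    (hAD : A * D - B ^ 2 = N) (hA : 0 < A) (hD : 0 < D)
    (h : (X + N * Z ≤ 0 ∧ 0 < A * X + D * Z + B * M) ∨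
      (0 < X + N * Z ∧ A * X + D * Z + B * M ≤ 0)) :
    (A * X - D * Z) ^ 2 + 4 * N * (X * Z) ≤ A * D - N := by
  have hXZ : 0 ≤ X * Z := by nlinarith [sq_nonneg M]
  have hBM : (B * M) ^ 2 = (A * D - N) * (1 + 4 * (X * Z)) := by
    rw [mul_pow, hM]; rw [← hAD]; ring
  rcases h with ⟨h1, h2⟩ | ⟨h1, h2⟩
  · -- X, Z ≤ 0
    have hX : X ≤ 0 := by
      by_contra hX
      rw [not_le] at hX
      have hZ : 0 ≤ Z := by
        by_contra hZ
        rw [not_le] at hZ
        nlinarith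
      nlinarith
    have hZ : Z ≤ 0 := by
      by_contra hZ
      rw [not_le] at hZ
      have hX' : 0 ≤ X := by
        by_contra hX'
        rw [not_le] at hX'
        nlinarith
      nlinarith
    have h3 : 0 ≤ -(A * X + D * Z) := by nlinarith
    have h4 : -(A * X + D * Z) < B * M := by linarith
    have h5 : (-(A * X + D * Z)) ^ 2 < (B * M) ^ 2 := by
      apply pow_lt_pow_left₀ h4 h3 (by norm_num)
    rw [hBM] at h5
    nlinarith
  · -- X, Z ≥ 0
    have hX : 0 ≤ X := by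
      by_contra hX
      rw [not_le] at hX
      have hZ : Z ≤ 0 := by
        by_contra hZ
        rw [not_le] at hZ
        nlinarith
      nlinarith
    have hZ : 0 ≤ Z := by
      by_contra hZ
      rw [not_le] at hZ
      have hX' : X ≤ 0 := by
        by_contra hX'
        rw [not_le] at hX'
        nlinarith
      nlinarith
    have h3 : 0 ≤ A * X + D * Z := by positivity
    have h4 : A * X + D * Z ≤ -(B * M) := by linarith
    have h5 : (A * X + D * Z) ^ 2 ≤ (-(B * M)) ^ 2 := by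
      apply pow_le_pow_left₀ h3 h4
    rw [neg_sq, hBM] at h5
    nlinarith

/-- Consequence: `|X| ≤ D` and `|Z| ≤ A`. -/
theorem key_bound {N X Z M A D B : ℤ} (hN : 1 ≤ N) (hM : M ^ 2 = 1 + 4 * (X * Z))
    (hAD : A * D - B ^ 2 = N) (hA : 0 < A) (hD : 0 < D)
    (h : (A * X - D * Z) ^ 2 + 4 * N * (X * Z) ≤ A * D - N) :
    |X| ≤ D ∧ |Z| ≤ A := by
  have hXZ : 0 ≤ X * Z := by nlinarith [sq_nonneg M]
  have hADN : N ≤ A * D := by nlinarith [sq_nonneg B]
  have h1 : N * (A * X + D * Z) ^ 2 ≤ (A * D) ^ 2 := by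
    have e : N * (A * X + D * Z) ^ 2 = N * (A * X - D * Z) ^ 2 + A * D * (4 * N * (X * Z)) := by
      ring
    rw [e]
    have h2 : 4 * N * (X * Z) ≤ A * D - N - (A * X - D * Z) ^ 2 := by linarith
    have h3 : A * D * (4 * N * (X * Z)) ≤ A * D * (A * D - N - (A * X - D * Z) ^ 2) :=
      mul_le_mul_of_nonneg_left h2 (by positivity)
    nlinarith [sq_nonneg (A * X - D * Z), mul_pos hA hD]
  have h2 : (A * X + D * Z) ^ 2 ≤ (A * D) ^ 2 := by
    nlinarith [sq_nonneg (A * X + D * Z)]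
  have h3 : (A * |X| + D * |Z|) ^ 2 = (A * X + D * Z) ^ 2 := by
    have e1 : |X| * |Z| = X * Z := by rw [← abs_mul, abs_of_nonneg hXZ]
    have e2 : |X| ^ 2 = X ^ 2 := sq_abs X
    have e3 : |Z| ^ 2 = Z ^ 2 := sq_abs Z
    calc (A * |X| + D * |Z|) ^ 2
        = A ^ 2 * |X| ^ 2 + 2 * A * D * (|X| * |Z|) + D ^ 2 * |Z| ^ 2 := by ring
      _ = A ^ 2 * X ^ 2 + 2 * A * D * (X * Z) + D ^ 2 * Z ^ 2 := by rw [e1, e2, e3]
      _ = (A * X + D * Z) ^ 2 := by ring
  have h4 : A * |X| + D * |Z| ≤ A * D := by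
    apply le_of_sq_le_sq _ (mul_pos hA hD).le
    rw [h3]; exact h2
  have hX0 : 0 ≤ |X| := abs_nonneg X
  have hZ0 : 0 ≤ |Z| := abs_nonneg Z
  constructor
  · have : A * |X| ≤ A * D := by nlinarith
    exact le_of_mul_le_mul_left this hA
  · have : D * |Z| ≤ D * A := by nlinarith
    exact le_of_mul_le_mul_left this hD

/-! ## The integer form on `SL(2, ℤ)` -/

/-- `q(h) = a c + N b d`: its sign is the sign of `Re (h • (i/√N))`. -/
def qf (N : ℕ) (h : SL(2, ℤ)) : ℤ := h 0 0 * h 1 0 + (N : ℤ) * (h 0 1 * h 1 1)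

/-- the side of the imaginary axis on which `h • (i/√N)` lies -/
def sg (N : ℕ) (h : SL(2, ℤ)) : ℤ := if 0 < qf N h then 1 else 0

theorem det_eq (h : SL(2, ℤ)) : h 0 0 * h 1 1 - h 0 1 * h 1 0 = 1 := by
  have := h.det_coe
  rwa [Matrix.det_fin_two] at this

theorem mul_apply' (h g : SL(2, ℤ)) (i j : Fin 2) :
    (h * g) i j = h i 0 * g 0 j + h i 1 * g 1 j := by
  rw [Matrix.SpecialLinearGroup.coe_mul, Matrix.mul_apply, Fin.sum_univ_two]

/-- `α² + N β²` -/
def cA (N : ℕ) (g : SL(2, ℤ)) : ℤ := g 0 0 ^ 2 + (N : ℤ) * g 0 1 ^ 2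
/-- `γ² + N δ²` -/
def cD (N : ℕ) (g : SL(2, ℤ)) : ℤ := g 1 0 ^ 2 + (N : ℤ) * g 1 1 ^ 2

theorem qf_mul (N : ℕ) (h g : SL(2, ℤ)) :
    qf N (h * g) = cA N g * (h 0 0 * h 1 0) + cD N g * (h 0 1 * h 1 1)
      + qf N g * (h 0 0 * h 1 1 + h 0 1 * h 1 0) := by
  simp only [qf, cA, cD, mul_apply']
  ring

theorem cA_mul_cD (N : ℕ) (g : SL(2, ℤ)) : cA N g * cD N g - qf N g ^ 2 = N := by
  have h := det_eq g
  have e : cA N g * cD N g - qf N g ^ 2 = N * (g 0 0 * g 1 1 - g 0 1 * g 1 0) ^ 2 := by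
    simp only [qf, cA, cD]; ring
  rw [e, h]; ring

theorem cA_pos {N : ℕ} (hN : 1 ≤ N) (g : SL(2, ℤ)) : 0 < cA N g := by
  have h := det_eq g
  have hN' : (1 : ℤ) ≤ N := by exact_mod_cast hN
  unfold cA
  rcases eq_or_ne (g 0 0) 0 with h0 | h0
  · have h1 : g 0 1 ≠ 0 := by
      intro h1; rw [h0, h1] at h; simp at h
    have : 0 < g 0 1 ^ 2 := by positivity
    nlinarith [sq_nonneg (g 0 0)]
  · have : 0 < g 0 0 ^ 2 := by positivity
    nlinarith [sq_nonneg (g 0 1)]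

theorem cD_pos {N : ℕ} (hN : 1 ≤ N) (g : SL(2, ℤ)) : 0 < cD N g := by
  have h := det_eq g
  have hN' : (1 : ℤ) ≤ N := by exact_mod_cast hN
  unfold cD
  rcases eq_or_ne (g 1 0) 0 with h0 | h0
  · have h1 : g 1 1 ≠ 0 := by
      intro h1; rw [h0, h1] at h; simp at h
    have : 0 < g 1 1 ^ 2 := by positivity
    nlinarith [sq_nonneg (g 1 0)]
  · have : 0 < g 1 0 ^ 2 := by positivity
    nlinarith [sq_nonneg (g 1 1)]

theorem M_sq (h : SL(2, ℤ)) :
    (h 0 0 * h 1 1 + h 0 1 * h 1 0) ^ 2 = 1 + 4 * ((h 0 0 * h 1 0) * (h 0 1 * h 1 1)) := by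
  have e := det_eq h
  have : (h 0 0 * h 1 1 + h 0 1 * h 1 0) ^ 2
      = (h 0 0 * h 1 1 - h 0 1 * h 1 0) ^ 2 + 4 * ((h 0 0 * h 1 0) * (h 0 1 * h 1 1)) := by ring
  rw [this, e]; ring

/-- A change of side between `h` and `h * g` forces the key inequality on `h`. -/
theorem ineq_of_sg_ne {N : ℕ} (hN : 1 ≤ N) (h g : SL(2, ℤ)) (hne : sg N (h * g) ≠ sg N h) :
    (cA N g * (h 0 0 * h 1 0) - cD N g * (h 0 1 * h 1 1)) ^ 2
      + 4 * (N : ℤ) * ((h 0 0 * h 1 0) * (h 0 1 * h 1 1)) ≤ cA N g * cD N g - N := by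
  have hN' : (1 : ℤ) ≤ N := by exact_mod_cast hN
  apply key_ineq hN' (M_sq h) (cA_mul_cD N g) (cA_pos hN g) (cD_pos hN g)
  rw [← qf_mul]
  show (qf N h ≤ 0 ∧ 0 < qf N (h * g)) ∨ (0 < qf N h ∧ qf N (h * g) ≤ 0)
  unfold sg at hne
  by_cases h1 : 0 < qf N h <;> by_cases h2 : 0 < qf N (h * g)
  · simp [h1, h2] at hne
  · right; exact ⟨h1, not_lt.mp h2⟩
  · left; exact ⟨not_lt.mp h1, h2⟩
  · simp [h1, h2] at hne

/-- entries of an element of `SL(2, ℤ)` are bounded by bounds on `a c` and `b d`. -/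
theorem entry_bound (h : SL(2, ℤ)) {C : ℤ} (hC : 1 ≤ C) (h1 : |h 0 0 * h 1 0| ≤ C)
    (h2 : |h 0 1 * h 1 1| ≤ C) (i j : Fin 2) : |h i j| ≤ C := by
  have e := det_eq h
  have aux : ∀ x y : ℤ, y ≠ 0 → |x * y| ≤ C → |x| ≤ C := by
    intro x y hy hxy
    rw [abs_mul] at hxy
    have : 1 ≤ |y| := Int.one_le_abs hy
    nlinarith [abs_nonneg x]
  have aux1 : ∀ x y : ℤ, x * y = 1 → |x| ≤ C := by
    intro x y hxy
    have : IsUnit x := IsUnit.of_mul_eq_one _ hxy
    rcases Int.isUnit_iff.mp this with hx | hx <;> rw [hx] <;> simpa using hC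
  fin_cases i <;> fin_cases j <;> simp only [Fin.zero_eta, Fin.mk_one, Fin.isValue]
  · rcases eq_or_ne (h 1 0) 0 with h0 | h0
    · rw [h0, mul_zero, sub_zero] at e
      exact aux1 _ _ e
    · exact aux _ _ h0 h1
  · rcases eq_or_ne (h 1 1) 0 with h0 | h0
    · rw [h0, mul_zero, zero_sub] at e
      exact aux1 (h 0 1) (-(h 1 0)) (by linarith)
    · exact aux _ _ h0 h2
  · rcases eq_or_ne (h 0 0) 0 with h0 | h0
    · rw [h0, zero_mul, zero_sub] at e
      exact aux1 (h 1 0) (-(h 0 1)) (by linarith)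
    · rw [mul_comm] at h1
      exact aux _ _ h0 h1
  · rcases eq_or_ne (h 0 1) 0 with h0 | h0
    · rw [h0, zero_mul, sub_zero] at e
      exact aux1 (h 1 1) (h 0 0) (by linarith)
    · rw [mul_comm] at h2
      exact aux _ _ h0 h2

theorem finite_entries_le (C : ℤ) : {h : SL(2, ℤ) | ∀ i j, |h i j| ≤ C}.Finite := by
  have hfin : (Set.Icc (fun _ _ => -C : Fin 2 → Fin 2 → ℤ) (fun _ _ => C)).Finite :=
    Set.finite_Icc _ _
  have hinj : Function.Injective (fun h : SL(2, ℤ) => (fun i j => h i j : Fin 2 → Fin 2 → ℤ)) := by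
    intro h h' hh
    apply Subtype.ext
    ext i j
    exact congrFun (congrFun hh i) j
  refine (hfin.preimage hinj.injOn).subset ?_
  intro h hh
  exact ⟨fun i j => (abs_le.mp (hh i j)).1, fun i j => (abs_le.mp (hh i j)).2⟩

/-- For fixed `g`, only finitely many `h` change side under right multiplication by `g`. -/
theorem finite_sg_ne {N : ℕ} (hN : 1 ≤ N) (g : SL(2, ℤ)) :
    {h : SL(2, ℤ) | sg N (h * g) ≠ sg N h}.Finite := by
  have hN' : (1 : ℤ) ≤ N := by exact_mod_cast hN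
  refine (finite_entries_le (cA N g + cD N g)).subset ?_
  intro h hh
  have hA := cA_pos hN g
  have hD := cD_pos hN g
  have hb := key_bound hN' (M_sq h) (cA_mul_cD N g) hA hD (ineq_of_sg_ne hN h g hh)
  exact entry_bound h (by linarith) (by linarith [hb.1]) (by linarith [hb.2])

/-! ## The homomorphism -/

/-- the local term: change of side between `h` and `h * γ` -/
def term (N : ℕ) (γ h : SL(2, ℤ)) : ℤ := sg N (h * γ) - sg N h

theorem qf_neg (N : ℕ) (h : SL(2, ℤ)) : qf N (-h) = qf N h := by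
  simp only [qf, Matrix.SpecialLinearGroup.coe_neg, Matrix.neg_apply]
  ring

theorem sg_neg (N : ℕ) (h : SL(2, ℤ)) : sg N (-h) = sg N h := by
  simp only [sg, qf_neg]

theorem term_neg (N : ℕ) (γ h : SL(2, ℤ)) : term N γ (-h) = term N γ h := by
  simp only [term, neg_mul, sg_neg]

theorem support_term_finite {N : ℕ} (hN : 1 ≤ N) (γ : SL(2, ℤ)) :
    (Function.support fun h : Gamma0 N => term N γ h).Finite := by
  refine ((finite_sg_ne hN γ).preimage Subtype.val_injective.injOn).subset ?_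
  intro h hh
  simp only [Function.mem_support, term, ne_eq, sub_eq_zero] at hh
  exact hh

/-- `2 φ₁` -/
noncomputable def phiT (N : ℕ) (γ : Gamma0 N) : ℤ := ∑ᶠ h : Gamma0 N, term N γ h

theorem phiT_mul {N : ℕ} (hN : 1 ≤ N) (γ δ : Gamma0 N) :
    phiT N (γ * δ) = phiT N γ + phiT N δ := by
  unfold phiT
  have e : ∀ h : Gamma0 N, term N ((γ * δ : Gamma0 N) : SL(2, ℤ)) h
      = term N δ ((Equiv.mulRight γ h : Gamma0 N) : SL(2, ℤ)) + term N γ h := by
    intro h
    simp only [term, Equiv.coe_mulRight, Subgroup.coe_mul, mul_assoc]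
    ring
  rw [finsum_congr e, finsum_add_distrib]
  · rw [finsum_comp_equiv (Equiv.mulRight γ) (f := fun h : Gamma0 N => term N δ h), add_comm]
  · have := (support_term_finite hN (δ : SL(2, ℤ))).preimage (Equiv.mulRight γ).injective.injOn
    refine this.subset ?_
    intro h hh
    exact hh
  · exact support_term_finite hN γ

/-- a choice of one element in each pair `{h, -h}` -/
def pos (h : SL(2, ℤ)) : Prop := 0 < h 1 0 ∨ (h 1 0 = 0 ∧ 0 < h 1 1)

instance : DecidablePred pos := fun h => by unfold pos; infer_instance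

theorem pos_neg_iff (h : SL(2, ℤ)) : pos (-h) ↔ ¬ pos h := by
  have e := det_eq h
  simp only [pos, Matrix.SpecialLinearGroup.coe_neg, Matrix.neg_apply]
  constructor
  · rintro (h1 | ⟨h1, h2⟩) <;> intro h3 <;> rcases h3 with h3 | ⟨h3, h4⟩ <;> omega
  · intro h3
    rw [not_or, not_and_or] at h3
    rcases lt_trichotomy (h 1 0) 0 with h1 | h1 | h1
    · left; omega
    · right
      refine ⟨by omega, ?_⟩
      rcases lt_trichotomy (h 1 1) 0 with h2 | h2 | h2
      · omega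
      · rw [h1, h2] at e; simp at e
      · rcases h3.2 with h4 | h4
        · exact absurd h1 h4
        · omega
    · exact absurd h1 h3.1

/-- `-1` as an element of `Γ₀(N)` -/
def negOne (N : ℕ) : Gamma0 N := ⟨-1, by rw [Gamma0_mem]; simp⟩

/-- `φ₁` as a function -/
noncomputable def phi1Fun (N : ℕ) (γ : Gamma0 N) : ℤ :=
  ∑ᶠ h : Gamma0 N, if pos (h : SL(2, ℤ)) then term N γ h else 0

theorem two_mul_phi1Fun {N : ℕ} (hN : 1 ≤ N) (γ : Gamma0 N) : 2 * phi1Fun N γ = phiT N γ := by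
  unfold phiT phi1Fun
  set f : Gamma0 N → ℤ := fun h => if pos (h : SL(2, ℤ)) then term N γ h else 0 with hf
  have hfin : (Function.support f).Finite := by
    refine (support_term_finite hN (γ : SL(2, ℤ))).subset ?_
    intro h hh
    simp only [hf, Function.mem_support, ne_eq] at hh ⊢
    intro h0
    apply hh
    rw [h0]; simp
  have e : ∀ h : Gamma0 N, term N γ h = f h + f (Equiv.mulLeft (negOne N) h) := by
    intro h
    have hneg : ((Equiv.mulLeft (negOne N) h : Gamma0 N) : SL(2, ℤ)) = -(h : SL(2, ℤ)) := by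
      simp [negOne]
    simp only [hf, hneg, pos_neg_iff, term_neg]
    by_cases hp : pos (h : SL(2, ℤ)) <;> simp [hp]
  rw [finsum_congr e, finsum_add_distrib hfin, finsum_comp_equiv (Equiv.mulLeft (negOne N))]
  · ring
  · exact (hfin.preimage (Equiv.mulLeft (negOne N)).injective.injOn).subset (fun h hh => hh)

theorem phi1Fun_mul {N : ℕ} (hN : 1 ≤ N) (γ δ : Gamma0 N) :
    phi1Fun N (γ * δ) = phi1Fun N γ + phi1Fun N δ := by
  have h1 := two_mul_phi1Fun hN (γ * δ)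
  have h2 := two_mul_phi1Fun hN γ
  have h3 := two_mul_phi1Fun hN δ
  have h4 := phiT_mul hN γ δ
  omega

/-- **The homomorphism `φ₁ : Γ₀(N) → ℤ`.** -/
noncomputable def phi1 (N : ℕ) (hN : 1 ≤ N) : Additive (Gamma0 N) →+ ℤ :=
  AddMonoidHom.mk' (fun γ => phi1Fun N (Additive.toMul γ)) (fun _ _ => phi1Fun_mul hN _ _)

theorem phi1_apply (N : ℕ) (hN : 1 ≤ N) (γ : Gamma0 N) :
    phi1 N hN (Additive.ofMul γ) = phi1Fun N γ := rfl

/-! ## Values on the two parabolic generators -/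

theorem dvd_of_mem {N : ℕ} {h : SL(2, ℤ)} (hh : h ∈ Gamma0 N) : (N : ℤ) ∣ h 1 0 := by
  rw [Gamma0_mem] at hh
  exact (ZMod.intCast_zmod_eq_zero_iff_dvd _ N).mp hh

theorem diag_ne_zero {N : ℕ} (hN : 2 ≤ N) {h : SL(2, ℤ)} (hh : h ∈ Gamma0 N) :
    h 0 0 ≠ 0 ∧ h 1 1 ≠ 0 := by
  obtain ⟨k, hk⟩ := dvd_of_mem hh
  have e := det_eq h
  have hN' : (2 : ℤ) ≤ N := by exact_mod_cast hN
  have key : ¬ (N : ℤ) ∣ 1 := by
    intro hd
    have := Int.le_of_dvd one_pos hd
    omega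
  constructor
  · intro ha
    apply key
    rw [ha, hk] at e
    exact ⟨-(h 0 1 * k), by linarith⟩
  · intro hd
    apply key
    rw [hd, hk] at e
    exact ⟨-(h 0 1 * k), by linarith⟩

theorem abs_ac_ge {N : ℕ} {h : SL(2, ℤ)} (hh : h ∈ Gamma0 N) (ha : h 0 0 ≠ 0)
    (hc : h 1 0 ≠ 0) : (N : ℤ) ≤ |h 0 0 * h 1 0| := by
  obtain ⟨k, hk⟩ := dvd_of_mem hh
  have hk0 : k ≠ 0 := by
    rintro rfl
    rw [mul_zero] at hk
    exact hc hk
  rw [abs_mul, hk, abs_mul]
  have h1 : 1 ≤ |h 0 0| := Int.one_le_abs ha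
  have h2 : 1 ≤ |k| := Int.one_le_abs hk0
  have h3 : |(N : ℤ)| = N := abs_of_nonneg (by positivity)
  have h4 : (0 : ℤ) ≤ N := by positivity
  rw [h3]
  have h5 : (N : ℤ) ≤ N * |k| := by nlinarith
  have h6 : 0 ≤ (N : ℤ) * |k| := by positivity
  nlinarith

/-- if `X Z ≥ 0`, `n ≤ |X|` and `Z ≠ 0` then `n ≤ X Z` -/
theorem le_mul_of_abs {n X Z : ℤ} (hXZ : 0 ≤ X * Z) (hX : n ≤ |X|) (hZ : Z ≠ 0) :
    n ≤ X * Z := by
  have h1 : 1 ≤ |Z| := Int.one_le_abs hZ
  have h2 : X * Z = |X| * |Z| := by rw [← abs_mul, abs_of_nonneg hXZ]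
  rw [h2]
  nlinarith [abs_nonneg X]

theorem mul_nonneg_of_mem (h : SL(2, ℤ)) : 0 ≤ (h 0 0 * h 1 0) * (h 0 1 * h 1 1) := by
  have := M_sq h
  nlinarith [sq_nonneg (h 0 0 * h 1 1 + h 0 1 * h 1 0)]

theorem T_mem (N : ℕ) : T ∈ Gamma0 N := by
  rw [Gamma0_mem]; simp [coe_T]

/-- the generator `[[1,0],[N,1]]` of the stabiliser of the cusp `0` -/
def lowerT (N : ℕ) : SL(2, ℤ) := ⟨!![1, 0; (N : ℤ), 1], by simp [Matrix.det_fin_two_of]⟩

theorem coe_lowerT (N : ℕ) : (lowerT N : Matrix (Fin 2) (Fin 2) ℤ) = !![1, 0; (N : ℤ), 1] := rfl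

theorem lowerT_mem (N : ℕ) : lowerT N ∈ Gamma0 N := by
  rw [Gamma0_mem]; simp [coe_lowerT]

/-- no change of side under `T` when `c ≠ 0` -/
theorem no_change_T {N : ℕ} (hN : 2 ≤ N) {h : SL(2, ℤ)} (hh : h ∈ Gamma0 N)
    (hc : h 1 0 ≠ 0) : sg N (h * T) = sg N h := by
  by_contra hne
  have hi := ineq_of_sg_ne (by omega) h T hne
  have hA : cA N T = 1 + N := by simp [cA, coe_T]
  have hD : cD N T = N := by simp [cD, coe_T]
  rw [hA, hD] at hi
  have hXZ := mul_nonneg_of_mem h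
  have hX := abs_ac_ge hh (diag_ne_zero hN hh).1 hc
  have hN' : (2 : ℤ) ≤ N := by exact_mod_cast hN
  generalize h 0 0 * h 1 0 = X at *
  generalize h 0 1 * h 1 1 = Z at *
  rcases eq_or_ne Z 0 with hZ | hZ
  · rw [hZ] at hi
    have hX2 : (N : ℤ) ^ 2 ≤ X ^ 2 := by
      rw [← sq_abs X]; exact pow_le_pow_left₀ (by positivity) hX 2
    nlinarith
  · have := le_mul_of_abs hXZ hX hZ
    nlinarith [sq_nonneg ((1 + (N : ℤ)) * X - N * Z)]

/-- no change of side under `lowerT` when `b ≠ 0` -/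
theorem no_change_lowerT {N : ℕ} (hN : 2 ≤ N) {h : SL(2, ℤ)} (hh : h ∈ Gamma0 N)
    (hb : h 0 1 ≠ 0) : sg N (h * lowerT N) = sg N h := by
  by_contra hne
  have hi := ineq_of_sg_ne (by omega) h (lowerT N) hne
  have hA : cA N (lowerT N) = 1 := by simp [cA, coe_lowerT]
  have hD : cD N (lowerT N) = N ^ 2 + N := by simp [cD, coe_lowerT]
  rw [hA, hD] at hi
  have hXZ := mul_nonneg_of_mem h
  have hN' : (2 : ℤ) ≤ N := by exact_mod_cast hN
  have hd := (diag_ne_zero hN hh).2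
  have hZ : h 0 1 * h 1 1 ≠ 0 := mul_ne_zero hb hd
  rcases eq_or_ne (h 1 0) 0 with hc | hc
  · rw [hc, mul_zero] at hi
    have hZ2 : 1 ≤ (h 0 1 * h 1 1) ^ 2 := by
      have := Int.one_le_abs hZ
      rw [← sq_abs]; nlinarith
    generalize h 0 1 * h 1 1 = Z at *
    have e1 : (1 * 0 - ((N : ℤ) ^ 2 + N) * Z) ^ 2 = ((N : ℤ) ^ 2 + N) ^ 2 * Z ^ 2 := by ring
    have e2 : ((N : ℤ) ^ 2 + N) ^ 2 * 1 ≤ ((N : ℤ) ^ 2 + N) ^ 2 * Z ^ 2 :=
      mul_le_mul_of_nonneg_left hZ2 (sq_nonneg _)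
    have e3 : (N : ℤ) ^ 2 < ((N : ℤ) ^ 2 + N) ^ 2 := by nlinarith
    nlinarith
  · have hX := abs_ac_ge hh (diag_ne_zero hN hh).1 hc
    generalize h 0 0 * h 1 0 = X at *
    generalize h 0 1 * h 1 1 = Z at *
    have := le_mul_of_abs hXZ hX hZ
    nlinarith [sq_nonneg (1 * X - ((N : ℤ) ^ 2 + N) * Z)]

theorem eq_one_of_entries {h : SL(2, ℤ)} (ha : h 0 0 = 1) (hb : h 0 1 = 0) (hc : h 1 0 = 0)
    (hd : h 1 1 = 1) : h = 1 := by
  apply Subtype.ext
  ext i j
  fin_cases i <;> fin_cases j <;> simp [ha, hb, hc, hd]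

theorem phi1Fun_T {N : ℕ} (hN : 2 ≤ N) : phi1Fun N ⟨T, T_mem N⟩ = 1 := by
  have hNpos : (0 : ℤ) < N := by exact_mod_cast (by omega : 0 < N)
  unfold phi1Fun
  rw [finsum_eq_single _ (1 : Gamma0 N)]
  · have hp : pos ((1 : Gamma0 N) : SL(2, ℤ)) := by right; simp
    rw [if_pos hp]
    simp [term, sg, qf, coe_T]
    omega
  · intro h hne
    by_cases hp : pos (h : SL(2, ℤ))
    · rw [if_pos hp]
      simp only [term, sub_eq_zero]
      by_cases hc : (h : SL(2, ℤ)) 1 0 = 0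
      · have e := det_eq (h : SL(2, ℤ))
        rw [hc, mul_zero, sub_zero] at e
        have hd0 : 0 < (h : SL(2, ℤ)) 1 1 := by
          rcases hp with hp | hp
          · omega
          · exact hp.2
        have hd : (h : SL(2, ℤ)) 1 1 = 1 := by
          have : IsUnit ((h : SL(2, ℤ)) 1 1) := IsUnit.of_mul_eq_one _ (by rw [mul_comm]; exact e)
          rcases Int.isUnit_iff.mp this with hd | hd
          · exact hd
          · omega
        have ha : (h : SL(2, ℤ)) 0 0 = 1 := by rw [hd, mul_one] at e; exact e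
        have hb : (h : SL(2, ℤ)) 0 1 ≠ 0 := by
          intro hb
          apply hne
          apply Subtype.ext
          exact eq_one_of_entries ha hb hc hd
        have q1 : qf N (h : SL(2, ℤ)) = N * (h : SL(2, ℤ)) 0 1 := by
          simp [qf, ha, hd, hc]
        have q2 : qf N ((h : SL(2, ℤ)) * T) = N * (1 + (h : SL(2, ℤ)) 0 1) := by
          simp [qf, mul_apply', coe_T, ha, hd, hc]
        unfold sg
        rw [q1, q2]
        simp only [mul_pos_iff_of_pos_left hNpos]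
        have : (0 < 1 + (h : SL(2, ℤ)) 0 1 ↔ 0 < (h : SL(2, ℤ)) 0 1) := by omega
        simp only [this]
      · exact no_change_T hN h.2 hc
    · rw [if_neg hp]

theorem phi1Fun_lowerT {N : ℕ} (hN : 2 ≤ N) : phi1Fun N ⟨lowerT N, lowerT_mem N⟩ = 1 := by
  have hNpos : (0 : ℤ) < N := by exact_mod_cast (by omega : 0 < N)
  unfold phi1Fun
  rw [finsum_eq_single _ (1 : Gamma0 N)]
  · have hp : pos ((1 : Gamma0 N) : SL(2, ℤ)) := by right; simp
    rw [if_pos hp]
    simp [term, sg, qf, coe_lowerT]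
    omega
  · intro h hne
    by_cases hp : pos (h : SL(2, ℤ))
    · rw [if_pos hp]
      simp only [term, sub_eq_zero]
      by_cases hb : (h : SL(2, ℤ)) 0 1 = 0
      · have e := det_eq (h : SL(2, ℤ))
        rw [hb, zero_mul, sub_zero] at e
        obtain ⟨k, hk⟩ := dvd_of_mem h.2
        have q1 : qf N (h : SL(2, ℤ)) = (h : SL(2, ℤ)) 0 0 * (h : SL(2, ℤ)) 1 0 := by
          simp [qf, hb]
        have q2 : qf N ((h : SL(2, ℤ)) * lowerT N)
            = (h : SL(2, ℤ)) 0 0 * (h : SL(2, ℤ)) 1 0 + N := by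
          simp only [qf, mul_apply', coe_lowerT, hb]
          simp
          linear_combination (N : ℤ) * e
        have hu : IsUnit ((h : SL(2, ℤ)) 0 0) := IsUnit.of_mul_eq_one _ e
        unfold sg
        rw [q1, q2]
        -- `a c` is a multiple of `N`
        have hk' : (h : SL(2, ℤ)) 0 0 * (h : SL(2, ℤ)) 1 0 = N * ((h : SL(2, ℤ)) 0 0 * k) := by
          rw [hk]; ring
        rw [hk']
        have hk0 : (h : SL(2, ℤ)) 0 0 * k ≠ 0 := by
          intro hk0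
          have hc : (h : SL(2, ℤ)) 1 0 = 0 := by
            rcases Int.isUnit_iff.mp hu with ha | ha <;> rw [ha] at hk0 <;> rw [hk] <;>
              [skip; skip] <;> nlinarith
          apply hne
          apply Subtype.ext
          have hd0 : 0 < (h : SL(2, ℤ)) 1 1 := by
            rcases hp with hp | hp
            · omega
            · exact hp.2
          have hd : (h : SL(2, ℤ)) 1 1 = 1 := by
            have : IsUnit ((h : SL(2, ℤ)) 1 1) :=
              IsUnit.of_mul_eq_one _ (by rw [mul_comm]; exact e)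
            rcases Int.isUnit_iff.mp this with hd | hd
            · exact hd
            · omega
          have ha : (h : SL(2, ℤ)) 0 0 = 1 := by rw [hd, mul_one] at e; exact e
          exact eq_one_of_entries ha hb hc hd
        have e2 : (N : ℤ) * ((h : SL(2, ℤ)) 0 0 * k) + N = N * ((h : SL(2, ℤ)) 0 0 * k + 1) := by
          ring
        rw [e2]
        simp only [mul_pos_iff_of_pos_left hNpos]
        have : (0 < (h : SL(2, ℤ)) 0 0 * k + 1 ↔ 0 < (h : SL(2, ℤ)) 0 0 * k) := by omega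
        simp only [this]
      · exact no_change_lowerT hN h.2 hb
    · rw [if_neg hp]

/-- **`φ₁(T) = 1`.** -/
theorem phi1_T (N : ℕ) (hN : 2 ≤ N) :
    phi1 N (by omega) (Additive.ofMul (⟨T, T_mem N⟩ : Gamma0 N)) = 1 :=
  phi1Fun_T hN

/-- **`φ₁([[1,0],[N,1]]) = 1`.** -/
theorem phi1_lowerT (N : ℕ) (hN : 2 ≤ N) :
    phi1 N (by omega) (Additive.ofMul (⟨lowerT N, lowerT_mem N⟩ : Gamma0 N)) = 1 :=
  phi1Fun_lowerT hN

end Fermat.Agent.S16.Lower.Phi1
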